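import Fermat.Prelude.Def_AlgebraicCurve_Correspondence
import Mathlib.RingTheory.Norm.Transitivity
import Mathlib.FieldTheory.IsAlgClosed.AlgebraicClosure
import Mathlib.FieldTheory.PrimitiveElement
import Mathlib.FieldTheory.Perfect

/-!
# Norms as products of given embeddings
-/

set_option autoImplicit false

noncomputable section

namespace Fermat.Agent.CarayolFF

/-- If `[F' : F] = n` in characteristic zero and `σ₀, …, σₙ₋₁` are distinct homomorphisms to a
field agreeing on `F`, then the norm is their product. -/
theorem norm_eq_prod {F F' Ω : Type*} [Field F] [Field F'] [Field Ω] [CharZero F] [Algebra F F']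
    {n : ℕ} (hn : Module.finrank F F' = n) (i₀ : Fin n) (σ : Fin n → F' →+* Ω)
    (hinj : Function.Injective σ)
    (hagree : ∀ i (z : F), σ i (algebraMap F F' z) = σ i₀ (algebraMap F F' z)) (x : F') :
    σ i₀ (algebraMap F F' (Algebra.norm F x)) = ∏ i, σ i x := by
  have : FiniteDimensional F F' := Module.finite_of_finrank_pos (hn ▸ i₀.pos)
  let φ : F →+* Ω := (σ i₀).comp (algebraMap F F')
  let E := AlgebraicClosure Ω
  let ψ : F →+* E := (algebraMap Ω E).comp φ
  let _ : Algebra F E := ψ.toAlgebra
  let e : Fin n → F' →ₐ[F] E := fun i =>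
    { (algebraMap Ω E).comp (σ i) with
      commutes' := fun z => congrArg (algebraMap Ω E) (hagree i z) }
  have he : Function.Injective e := fun i j h => hinj <| RingHom.ext fun y =>
    (algebraMap Ω E).injective (DFunLike.congr_fun h y)
  have hb : Function.Bijective e := by
    rw [Fintype.bijective_iff_injective_and_card]
    exact ⟨he, by rw [Fintype.card_fin, AlgHom.card, hn]⟩
  apply (algebraMap Ω E).injective
  show ψ (Algebra.norm F x) = _
  rw [map_prod]
  refine (Algebra.norm_eq_prod_embeddings F E x).trans ?_
  exact (Fintype.prod_bijective e hb _ _ fun i => rfl).symm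

section Along

open AlgebraicCurve

variable {K F F' : Type*} [Field K] [Field F] [Field F'] [Algebra K F] [Algebra K F']

/-- The norm along a homomorphism of fields. -/
def normAlong (φ : F →ₐ[K] F') (x : F') : F :=
  letI := algebraAlong φ
  Algebra.norm F x

/-- The norm along a homomorphism is the product of distinct compatible conjugates. -/
theorem normAlong_eq_prod {Ω : Type*} [Field Ω] [CharZero F] (φ : F →ₐ[K] F') {n : ℕ}
    (hn : finrankAlong K φ = n) (i₀ : Fin n) (σ : Fin n → F' →+* Ω) (hinj : Function.Injective σ)
    (hagree : ∀ i (z : F), σ i (φ z) = σ i₀ (φ z)) (x : F') :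
    σ i₀ (φ (normAlong φ x)) = ∏ i, σ i x :=
  letI := algebraAlong φ
  norm_eq_prod hn i₀ σ hinj hagree x

end Along

end Fermat.Agent.CarayolFF
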