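import Fermat.Agent.CarayolFF.Criterion
import Fermat.Agent.ModularFunctionField.Descent
import Mathlib.RingTheory.IntegralClosure.IsIntegralClosure.Basic

/-!
# Functions with coefficients in a subfield, and images of the model under embeddings
-/

set_option autoImplicit false

noncomputable section

open ModularCurve IntermediateField Polynomial
open Fermat.Agent.ModularFunctionField
open Fermat.Agent.Carayol Fermat.Agent.KummerReduction

namespace Fermat.Agent.CarayolFF

local notation "Qb" => AlgebraicClosure ℚ

variable {M : ℕ} [NeZero M]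

omit [NeZero M] in
theorem levelField_le_overSubfield (E : IntermediateField ℚ Qb) :
    levelField E M ≤ ResidueData.overSubfield E.toSubfield := by
  refine Subfield.closure_le.mpr (Set.union_subset ?_ ?_)
  · rintro _ ⟨c, hc, rfl⟩
    refine ResidueData.mem_overSubfield.mpr fun n => ?_
    rw [algebraMap_laurentSeries_eq_single, HahnSeries.coeff_single]
    split
    · exact hc
    · exact zero_mem E.toSubfield
  · rintro _ ⟨y, -, rfl⟩
    refine ResidueData.mem_overSubfield.mpr fun n => ?_
    rw [coeffEmb_coeff]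
    exact E.algebraMap_mem _

omit [NeZero M] in
theorem coeff_mem_of_mem_levelField {E : IntermediateField ℚ Qb} {x : LaurentSeries Qb}
    (hx : x ∈ levelField E M) (n : ℤ) : x.coeff n ∈ E :=
  ResidueData.mem_overSubfield.mp (levelField_le_overSubfield E hx) n

theorem genS_mem_levelField (E : IntermediateField ℚ Qb) (d : ModCurveGenus.Dvs M) :
    ModCurveGenus.genS M d ∈ levelField E M := by
  refine Subfield.subset_closure (Set.mem_union_right _ ?_)
  exact ⟨_, ⟨d.1, inferInstance, ModCurveGenus.Dvs.dvd d, rfl⟩, rfl⟩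

omit [NeZero M] in
theorem exists_lift_coeff (E : IntermediateField ℚ Qb) {y : LaurentSeries Qb}
    (hy : ∀ n, y.coeff n ∈ E) : ∃ z : LaurentSeries E, coeffMap (algebraMap E Qb) z = y := by
  refine ⟨⟨fun n => ⟨y.coeff n, hy n⟩, ?_⟩, ?_⟩
  · refine y.isPWO_support.mono fun n hn => ?_
    simpa [Function.mem_support, Subtype.ext_iff] using hn
  · ext n; rfl

/-- Applying a linear functional to the coefficients of a polynomial in the generators. -/
theorem coeffLin_aeval_mem (E : IntermediateField ℚ Qb) (φ : Qb →ₗ[E] E) (p : ModCurveGenus.PN M) :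
    coeffMap (algebraMap E Qb) (coeffLin φ (MvPolynomial.aeval (ModCurveGenus.genS M) p)) ∈
      levelField E M := by
  induction p using MvPolynomial.induction_on' with
  | monomial e c =>
    have hm : MvPolynomial.aeval (R := Qb) (ModCurveGenus.genS M)
        (MvPolynomial.monomial e (1 : Qb)) ∈ levelField E M := by
      rw [MvPolynomial.aeval_monomial, map_one, one_mul, Finsupp.prod]
      exact prod_mem fun d _ => pow_mem (genS_mem_levelField E d) _
    obtain ⟨w, hw⟩ := exists_lift_coeff E fun n => coeff_mem_of_mem_levelField hm n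
    have hsplit : MvPolynomial.aeval (R := Qb) (ModCurveGenus.genS M)
        (MvPolynomial.monomial e c) = HahnSeries.C c *
        MvPolynomial.aeval (R := Qb) (ModCurveGenus.genS M) (MvPolynomial.monomial e (1 : Qb)) := by
      rw [MvPolynomial.aeval_monomial, MvPolynomial.aeval_monomial, map_one, one_mul,
        algebraMap_laurentSeries_eq_single]
      rfl
    rw [hsplit, ← hw, coeffLin_mul_coeffMap, map_mul, hw, coeffLin_C, HahnSeries.C_apply,
      coeffMap_single, ← algebraMap_laurentSeries_eq_single]
    exact mul_mem (Subfield.subset_closure (Set.mem_union_left _ ⟨_, (φ c).2, rfl⟩)) hm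
  | add p₁ p₂ h₁ h₂ =>
    rw [map_add, coeffLin_add, map_add]
    exact add_mem h₁ h₂

/-- A function whose expansion has coefficients in `E` lies in `levelField E M`. -/
theorem mem_levelField_of_coeff (E : IntermediateField ℚ Qb) {x : LaurentSeries Qb}
    (hx : x ∈ modularFunctionFieldBar M) (h : ∀ n, x.coeff n ∈ E) : x ∈ levelField E M := by
  obtain ⟨r, s, hs, hrs⟩ := ModCurveGenus.exists_frac M ⟨x, hx⟩
  set a : LaurentSeries Qb := MvPolynomial.aeval (ModCurveGenus.genS M) r with ha
  set b : LaurentSeries Qb := MvPolynomial.aeval (ModCurveGenus.genS M) s with hb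
  have hb0 : b ≠ 0 := fun h0 => hs (Subtype.ext ((ModCurveGenus.coe_ev M s).trans h0))
  have hmul : b * x = a := by
    have h1 := congrArg (fun z : modularFunctionFieldBar M => (z : LaurentSeries Qb)) hrs
    simp only [IntermediateField.coe_div, ModCurveGenus.coe_ev] at h1
    rw [h1, mul_div_cancel₀ _ hb0]
  obtain ⟨z, hz⟩ := exists_lift_coeff E h
  obtain ⟨n₀, hn₀⟩ : ∃ n, b.coeff n ≠ 0 := by
    by_contra h'
    push Not at h'
    exact hb0 (HahnSeries.ext (funext h'))
  obtain ⟨φ, hφ⟩ : ∃ φ : Qb →ₗ[E] E, φ (b.coeff n₀) ≠ 0 := by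
    by_contra h'
    push Not at h'
    exact hn₀ ((Module.forall_dual_apply_eq_zero_iff E _).mp h')
  set θb := coeffMap (algebraMap E Qb) (coeffLin φ b) with hθb
  have hb' : θb ≠ 0 := fun h0 => hφ <| by
    have := congrArg (fun y : LaurentSeries Qb => y.coeff n₀) h0
    simpa [θb, coeffLin] using this
  have hkey : θb * x = coeffMap (algebraMap E Qb) (coeffLin φ a) := by
    rw [hθb, ← hz, ← map_mul, ← coeffLin_mul_coeffMap, hz, hmul]
  have hxeq : x = coeffMap (algebraMap E Qb) (coeffLin φ a) / θb := by
    rw [eq_div_iff hb', mul_comm, hkey]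
  rw [hxeq]
  exact div_mem (coeffLin_aeval_mem E φ r) (coeffLin_aeval_mem E φ s)

variable {A : ValuationSubring Qb}

/-- A function fixed by inertia lies in `levelField (inertiaField A) M`. -/
theorem mem_levelField_of_fixed {x : LaurentSeries Qb} (hx : x ∈ modularFunctionFieldBar M)
    (h : ∀ σ ∈ A.inertiaSubgroupIn ℚ, coeffMap (σ : Qb →+* Qb) x = x) :
    x ∈ levelField (inertiaField A) M :=
  mem_levelField_of_coeff _ hx fun n => Local.mem_inertiaField_iff.mpr fun σ hσ =>
    congrArg (fun y : LaurentSeries Qb => y.coeff n) (h σ hσ)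

/-- The series `j(eτ)` are integral over `O[j]`. -/
theorem isIntegral_qExpand_jBar (O : Subring Qb) (e : ℕ) [NeZero e] :
    IsIntegral (jPolyRing O) (qExpand Qb e jBar) := by
  let g : ℤ[X] →+* jPolyRing O :=
    Polynomial.eval₂RingHom (Int.castRingHom _) ⟨jBar, Subring.subset_closure (Or.inr rfl)⟩
  have hg : (algebraMap (jPolyRing O) (LaurentSeries Qb)).comp g = (coeffEmb Qb).comp evalAtJ := by
    refine Polynomial.ringHom_ext' (Subsingleton.elim _ _) ?_
    rw [RingHom.comp_apply, RingHom.comp_apply, evalAtJ_X, Polynomial.coe_eval₂RingHom,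
      Polynomial.eval₂_X]
    rfl
  refine ⟨(modularPolynomialData e).Φ.map g, (modularPolynomialData e).monic.map g, ?_⟩
  have h := congrArg (coeffEmb Qb) (modularPolynomialData e).eval_eq_zero
  rw [map_zero, Polynomial.hom_eval₂] at h
  rw [Polynomial.eval₂_map, hg]
  have he : coeffEmb Qb (qExpand ℚ e jq) = qExpand Qb e jBar := by
    rw [jBar, coeffEmb, coeffMap_qExpand']
  rw [← he]
  exact h

/-- An embedding sending `j` to a series integral over `W[j]` sends the model to such series. -/
theorem isIntegral_apply_of_model (φ : modularFunctionFieldBar M →ₐ[Qb] LaurentSeries Qb)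
    (hφ : IsIntegral (jPolyRing (unramInt A)) (φ (jElem M))) {x : modularFunctionFieldBar M}
    (hx : x ∈ model A M) : IsIntegral (jPolyRing (unramInt A)) (φ x) := by
  obtain ⟨Q, hQ, hQx⟩ := exists_poly_of_mem_model hx
  set h := φ.toRingHom.comp
    ((aeval (R := Qb) (jElem M)).toRingHom.comp (mapRingHom (unramInt A).subtype)) with hh
  set S := integralClosure (jPolyRing (unramInt A)) (LaurentSeries Qb)
  have hC : ∀ c : unramInt A, HahnSeries.C (c : Qb) ∈ jPolyRing (unramInt A) := fun c =>
    Subring.subset_closure (Or.inl ⟨c, c.2, by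
      rw [algebraMap_laurentSeries_eq_single]; rfl⟩)
  have hmem : ∀ P, h P ∈ S.toSubring := by
    intro P
    induction P using Polynomial.induction_on' with
    | add P₁ P₂ h₁ h₂ => rw [map_add]; exact add_mem h₁ h₂
    | monomial i c =>
      show φ (aeval (jElem M) (Polynomial.map (unramInt A).subtype (monomial i c))) ∈ S.toSubring
      rw [Polynomial.map_monomial, aeval_monomial, map_mul, map_pow, AlgHom.commutes,
        algebraMap_laurentSeries_eq_single, ← HahnSeries.C_apply]
      exact mul_mem (S.algebraMap_mem ⟨_, hC c⟩) (pow_mem hφ i)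
  refine isIntegral_trans (A := S) (φ x) ⟨Q.map (h.codRestrict S hmem), hQ.map _, ?_⟩
  rw [Polynomial.eval₂_map]
  show eval₂ h (φ x) Q = 0
  have := congrArg φ.toRingHom hQx
  rwa [map_zero, Polynomial.hom_eval₂] at this

theorem mem_model_of_integral {x : modularFunctionFieldBar M}
    (hx : (x : LaurentSeries Qb) ∈ levelField (inertiaField A) M)
    (hi : IsIntegral (jPolyRing (unramInt A)) (x : LaurentSeries Qb)) : x ∈ model A M :=
  (mem_model_iff A M).mpr ⟨hx, hi⟩

theorem jElem_mem_model (A : ValuationSubring Qb) (M : ℕ) [NeZero M] : jElem M ∈ model A M := by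
  refine mem_model_of_integral (Subfield.subset_closure (Or.inr
    ⟨jq, ⟨1, one_ne_zero' ℕ |> NeZero.mk, one_dvd M, (qExpand_one_apply jq).symm⟩, rfl⟩)) ?_
  exact isIntegral_algebraMap (R := jPolyRing (unramInt A))
    (x := ⟨jBar, Subring.subset_closure (Or.inr rfl)⟩)

end Fermat.Agent.CarayolFF
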