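import Fermat.Agent.CarayolFF.Criterion

/-!
# The reduction of the affine model of level `N` along the expansion at infinity

`redBase A N` is the image in `k((t))`; `frobSeries` is `t ↦ t ^ q`.
-/

set_option autoImplicit false

noncomputable section

open ModularCurve IntermediateField Polynomial
open Fermat.Agent.Carayol Fermat.Agent.KummerReduction

namespace Fermat.Agent.CarayolFF

local notation "Qb" => AlgebraicClosure ℚ

/-- Expansion in `s = t ^ (1/M)` preserves and reflects integrality. -/
theorem qExpand_mem_intSeries_iff {K k : Type} [Field K] [Field k] (R : ResidueData K k) (e : ℕ)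
    [NeZero e] {x : LaurentSeries K} :
    qExpand K e x ∈ R.intSeries ↔ x ∈ R.intSeries := by
  simp only [R.mem_intSeries]
  refine ⟨fun h n => ?_, fun h n => ?_⟩
  · have := h ((e : ℤ) * n)
    rwa [qExpand_coeff_mul] at this
  · by_cases hd : (e : ℤ) ∣ n
    · obtain ⟨m, rfl⟩ := hd
      rw [qExpand_coeff_mul]; exact h m
    · rw [qExpand_coeff_of_not_dvd _ _ hd]; exact zero_mem _

/-- Reduction commutes with expansion in a root of the parameter. -/
theorem redSeries_qExpand {K k : Type} [Field K] [Field k] (R : ResidueData K k) (e : ℕ) [NeZero e]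
    {x : LaurentSeries K} (hx : x ∈ R.intSeries) :
    R.redSeries ⟨qExpand K e x, (qExpand_mem_intSeries_iff R e).mpr hx⟩ =
      qExpand k e (R.redSeries ⟨x, hx⟩) := by
  ext n
  rw [R.redSeries_coeff]
  by_cases hd : (e : ℤ) ∣ n
  · obtain ⟨m, rfl⟩ := hd
    conv_rhs => rw [qExpand_coeff_mul, R.redSeries_coeff]
    exact congrArg R.π (Subtype.ext (qExpand_coeff_mul e x m))
  · conv_rhs => rw [qExpand_coeff_of_not_dvd _ _ hd]
    refine (congrArg R.π (Subtype.ext ?_ : _ = (0 : R.A))).trans (map_zero R.π)
    exact qExpand_coeff_of_not_dvd _ _ hd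

variable {A : ValuationSubring Qb} {q N : ℕ} [NeZero N]

/-- The expansions of the model are integral. -/
theorem coe_mem_intSeries_of_model (hA : A.LiesOverPrime q) (hq : q.Prime)
    {x : modularFunctionFieldBar N} (hx : x ∈ model A N) :
    (x : LaurentSeries Qb) ∈ (resData A).intSeries :=
  (qExpand_mem_intSeries_iff _ N).mp (emb_mem_intSeries_of_model hA hq hx (idEmb N))

variable (A N) in
/-- The integral expansions of elements of the model. -/
def expModel : Subring (resData A).intSeries :=
  ((model A N).map (modularFunctionFieldBar N).val.toRingHom).comap (resData A).intSeries.subtype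

variable (A N) in
/-- The reduction of the model of level `N`, inside `k((t))`. -/
def redBase : Subring (LaurentSeries (IsLocalRing.ResidueField A)) :=
  (expModel A N).map (resData A).redSeries

omit [NeZero N] in
theorem mem_redBase {y : LaurentSeries (IsLocalRing.ResidueField A)} :
    y ∈ redBase A N ↔ ∃ x ∈ model A N, ∃ h : (x : LaurentSeries Qb) ∈ (resData A).intSeries,
      (resData A).redSeries ⟨_, h⟩ = y := by
  constructor
  · rintro ⟨⟨z, hz⟩, ⟨x, hx, hxz⟩, rfl⟩
    have hxz' : (x : LaurentSeries Qb) = z := hxz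
    subst hxz'
    exact ⟨x, hx, hz, rfl⟩
  · rintro ⟨x, hx, h, rfl⟩
    exact ⟨⟨_, h⟩, ⟨x, hx, rfl⟩, rfl⟩

/-- Reduction on the model of level `N`. -/
def redModel (hA : A.LiesOverPrime q) (hq : q.Prime) : model A N →+* redBase A N :=
  ((resData A).redSeries.comp
    (((modularFunctionFieldBar N).val.toRingHom.comp (model A N).subtype).codRestrict
      (resData A).intSeries fun x => coe_mem_intSeries_of_model hA hq x.2)).codRestrict _
    fun x => mem_redBase.mpr ⟨x.1, x.2, coe_mem_intSeries_of_model hA hq x.2, rfl⟩

theorem coe_redModel (hA : A.LiesOverPrime q) (hq : q.Prime) (x : model A N) :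
    (redModel hA hq x : LaurentSeries (IsLocalRing.ResidueField A)) =
      (resData A).redSeries ⟨_, coe_mem_intSeries_of_model hA hq x.2⟩ := rfl

theorem redModel_surjective (hA : A.LiesOverPrime q) (hq : q.Prime) :
    Function.Surjective (redModel (N := N) hA hq) := by
  rintro ⟨y, hy⟩
  obtain ⟨x, hx, h, rfl⟩ := mem_redBase.mp hy
  exact ⟨⟨x, hx⟩, rfl⟩

theorem algebraMap_mem_model {M : ℕ} [NeZero M] {c : Qb} (hc : c ∈ unramInt A) :
    algebraMap Qb (modularFunctionFieldBar M) c ∈ model A M := by
  refine (mem_model_iff A M).mpr ⟨Subfield.subset_closure (Or.inl ⟨c, ?_, rfl⟩), ?_⟩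
  · exact Local.mem_inertiaField_iff.mpr (mem_unramInt_iff.mp hc).2
  · exact isIntegral_algebraMap (R := jPolyRing (unramInt A))
      (x := ⟨algebraMap Qb (LaurentSeries Qb) c, Subring.subset_closure (Or.inl ⟨c, hc, rfl⟩)⟩)

/-- The reduction of the constants. -/
def constHom (A : ValuationSubring Qb) (N : ℕ) [NeZero N] : unramInt A →+* redBase A N :=
  ((HahnSeries.C.comp (IsLocalRing.residue A)).comp
    ((unramInt A).subtype.codRestrict A fun c => (mem_unramInt_iff.mp c.2).1)).codRestrict _
    fun c => mem_redBase.mpr ⟨_, algebraMap_mem_model (M := N) c.2, by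
      show algebraMap Qb (LaurentSeries Qb) (c : Qb) ∈ _
      rw [algebraMap_laurentSeries_eq_single, ← HahnSeries.C_apply]
      exact (resData A).C_mem_intSeries (mem_unramInt_iff.mp c.2).1, by
      refine Eq.trans ?_ ((resData A).redSeries_C ⟨(c : Qb), (mem_unramInt_iff.mp c.2).1⟩
        ((resData A).C_mem_intSeries (mem_unramInt_iff.mp c.2).1))
      congr 1
      refine Subtype.ext ?_
      show algebraMap Qb (LaurentSeries Qb) (c : Qb) = _
      rw [algebraMap_laurentSeries_eq_single]
      rfl⟩

instance algebraRedBase (A : ValuationSubring Qb) (N : ℕ) [NeZero N] :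
    Algebra (unramInt A) (redBase A N) := (constHom A N).toAlgebra

theorem coe_algebraMap_redBase (c : unramInt A) :
    (algebraMap (unramInt A) (redBase A N) c : LaurentSeries (IsLocalRing.ResidueField A)) =
      HahnSeries.C (IsLocalRing.residue A ⟨(c : Qb), (mem_unramInt_iff.mp c.2).1⟩) := rfl

/-- `t ↦ t ^ q` on `k((t))`. -/
def frobSeries (A : ValuationSubring Qb) (q : ℕ) [NeZero q] :
    LaurentSeries (IsLocalRing.ResidueField A) →+* LaurentSeries (IsLocalRing.ResidueField A) :=
  qExpand (IsLocalRing.ResidueField A) q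

theorem frobSeries_injective (A : ValuationSubring Qb) (q : ℕ) [NeZero q] :
    Function.Injective (frobSeries A q) := qExpand_injective q

end Fermat.Agent.CarayolFF
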