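import Fermat.Agent.CarayolFF.NormLevel
import Fermat.Agent.CarayolReduction.Degeneracy
import Fermat.Agent.CarayolReduction.NormComm

/-!
# The norm and the involution in the notation of the reduction step
-/

set_option autoImplicit false

noncomputable section

open ModularCurve AlgebraicCurve
open Fermat.Agent.ModularFunctionField
open Fermat.Agent.CarayolReduction (dilHom nmAlong flipEquiv embC)

namespace Fermat.Agent.CarayolFF

local notation "Qb" => AlgebraicClosure ℚ

variable {q N : ℕ} [NeZero q] [NeZero N]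

theorem dilHom_one_eq_alphaIncl (h₁ : q * N * 1 ∣ q ^ 2 * N) :
    dilHom (q * N) (q ^ 2 * N) 1 h₁ = alphaIncl q N :=
  AlgHom.ext fun z => Subtype.ext <| by
    rw [CarayolReduction.coe_dilHom, coe_alphaIncl, qExpand_one_apply]

/-- `normFun` is the norm along `dilHom 1`, pulled back to level `q²N`. -/
theorem normFun_eq_nmAlong (h₁ : q * N * 1 ∣ q ^ 2 * N)
    (x : modularFunctionFieldBar (q ^ 2 * N)) :
    normFun x =
      dilHom (q * N) (q ^ 2 * N) 1 h₁ (nmAlong (dilHom (q * N) (q ^ 2 * N) 1 h₁) x) := by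
  rw [dilHom_one_eq_alphaIncl h₁]
  rfl

/-- The involution of the model is the Atkin–Lehner automorphism of the reduction step. -/
theorem atkin_eq_flipEquiv (hq : q.Prime) (hqN : ¬ q ∣ N)
    (x : modularFunctionFieldBar (q ^ 2 * N)) : atkin hq hqN x = flipEquiv hq hqN x := by
  refine Subtype.ext (DFunLike.congr_fun (levelExt hq
    (φ := (modularFunctionFieldBar (q ^ 2 * N)).val.comp (atkin hq hqN))
    (ψ := (modularFunctionFieldBar (q ^ 2 * N)).val.comp (flipEquiv hq hqN).toAlgHom)
    fun i => ?_) x)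
  show ((atkin hq hqN ⟨gen q Qb i, gen_mem Qb hq i⟩ : modularFunctionFieldBar _) :
      LaurentSeries Qb) = flipEquiv hq hqN ⟨gen q Qb i, gen_mem Qb hq i⟩
  rw [CarayolReduction.flipEquiv_gen hq hqN i, atkin, flipHom_gen, genFlip]

end Fermat.Agent.CarayolFF
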