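import Fermat.Agent.CarayolFF.Components
import Mathlib.RingTheory.Ideal.GoingUp

/-!
# The kernels of the expansions along the embeddings

Every embedding `ι : Emb (q²N)` reduces the model with the same kernel as one of the three
components.
-/

set_option autoImplicit false

noncomputable section

open ModularCurve IntermediateField Polynomial
open Fermat.Agent.ModularFunctionField
open Fermat.Agent.Carayol Fermat.Agent.KummerReduction

namespace Fermat.Agent.CarayolFF

local notation "Qb" => AlgebraicClosure ℚ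

variable {A : ValuationSubring Qb} {q M : ℕ} [NeZero M]

/-- The reduction of the model along an embedding. -/
def embRes (hA : A.LiesOverPrime q) (hq : q.Prime) (ι : Emb M) :
    model A M →+* LaurentSeries (IsLocalRing.ResidueField A) :=
  (resData A).redSeries.comp ((ι.1.toRingHom.comp (model A M).subtype).codRestrict _
    fun x => emb_mem_intSeries_of_model hA hq x.2 ι)

theorem embRes_eq_zero_iff (hA : A.LiesOverPrime q) (hq : q.Prime) (ι : Emb M) (x : model A M) :
    embRes hA hq ι x = 0 ↔
      ∀ k : ℤ, (ι.1 (x : modularFunctionFieldBar M)).coeff k ∈ A.nonunits := by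
  show (resData A).redSeries _ = 0 ↔ _
  rw [HahnSeries.ext_iff, funext_iff]
  refine forall_congr' fun k => ?_
  rw [(resData A).redSeries_coeff, HahnSeries.coeff_zero, (resData A).π_eq_zero]
  exact Iff.rfl

variable {N : ℕ} [NeZero q] [NeZero N]

/-- A polynomial in `j` with small expansion along an embedding reduces to `0`. -/
theorem map_wRes_eq_zero_of_embRes (hA : A.LiesOverPrime q) (hq : q.Prime)
    (ι : Emb (q ^ 2 * N)) {D : Polynomial (unramInt A)}
    (h : embRes hA hq ι (polyEl A q N D) = 0) : D.map (wRes A) = 0 := by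
  let toA : unramInt A →+* A :=
    (unramInt A).subtype.codRestrict A fun c => (mem_unramInt_iff.mp c.2).1
  set D' : Polynomial A := D.map toA
  have h1 : ι.1 ((polyEl A q N D : model A (q ^ 2 * N)) : modularFunctionFieldBar (q ^ 2 * N)) =
      coeffMap A.subtype (evalJT A (q ^ 2 * N) D') := by
    rw [coe_polyEl, coeffMap_evalJT, Polynomial.map_map, ← emb_comp_aeval ι]
    rfl
  refine evalJT_injective (R := IsLocalRing.ResidueField A) (q ^ 2 * N) ?_
  rw [map_zero, show D.map (wRes A) = D'.map (IsLocalRing.residue A) by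
    rw [Polynomial.map_map]; rfl, ← coeffMap_evalJT]
  ext k
  rw [coeffMap_coeff, HahnSeries.coeff_zero, IsLocalRing.residue_eq_zero_iff,
    ← ValuationSubring.coe_mem_nonunits_iff]
  have := (embRes_eq_zero_iff hA hq ι _).1 h k
  rwa [h1, coeffMap_coeff] at this

/-- Every embedding reduces the model with one of the three kernels. -/
theorem exists_ker_embRes (hA : A.LiesOverPrime q) (hq : q.Prime) (hqN : ¬ q ∣ N)
    (ι : Emb (q ^ 2 * N)) :
    ∃ j, RingHom.ker (embRes hA hq ι) = RingHom.ker (resHom hA hq hqN j) := by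
  set P := RingHom.ker (embRes hA hq ι) with hP
  have hPp : P.IsPrime := RingHom.ker_isPrime _
  have hqP : (q : model A (q ^ 2 * N)) ∈ P := by
    rw [hP, RingHom.mem_ker, embRes_eq_zero_iff]
    intro k
    rw [SubringClass.coe_natCast, map_natCast, ← map_natCast (HahnSeries.C : Qb →+* _),
      HahnSeries.C_apply]
    by_cases hk : k = 0
    · subst hk
      rw [HahnSeries.coeff_single_same]
      exact hA
    · rw [HahnSeries.coeff_single_of_ne hk]
      exact A.mem_nonunits_iff.mpr (by simp)
  obtain ⟨j, hj⟩ := exists_ker_le hA hq hqN P hPp hqP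
  refine ⟨j, le_antisymm (fun x hx => ?_) hj⟩
  by_contra hxj
  let _ : Algebra (Polynomial (unramInt A)) (model A (q ^ 2 * N)) := (polyEl A q N).toAlgebra
  have : (RingHom.ker (resHom hA hq hqN j)).IsPrime := RingHom.ker_isPrime _
  have hint : IsIntegral (Polynomial (unramInt A)) x := by
    obtain ⟨Q, hQ, hQx⟩ := exists_poly_of_mem_model x.2
    refine ⟨Q, hQ, Subtype.ext ?_⟩
    show (model A (q ^ 2 * N)).subtype (eval₂ (polyEl A q N) x Q) = _
    rw [Polynomial.hom_eval₂, ZeroMemClass.coe_zero, ← hQx]
    exact congrArg (fun g => eval₂ g (x : modularFunctionFieldBar (q ^ 2 * N)) Q)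
      (RingHom.ext fun p => coe_polyEl A q N p)
  refine (Ideal.comap_lt_comap_of_integral_mem_sdiff hj ⟨hx, hxj⟩ hint).not_ge fun D hD => ?_
  rw [Ideal.mem_comap] at hD ⊢
  show resHom hA hq hqN j (polyEl A q N D) = 0
  rw [resHom_polyEl, map_wRes_eq_zero_of_embRes hA hq ι hD, map_zero]

/-- The kernel of each embedding, spelled out on coefficients. -/
theorem exists_smallKer_eq (hA : A.LiesOverPrime q) (hq : q.Prime) (hqN : ¬ q ∣ N)
    (ι : Emb (q ^ 2 * N)) :
    ∃ j, ∀ x : model A (q ^ 2 * N),
      (∀ k : ℤ, (ι.1 (x : modularFunctionFieldBar (q ^ 2 * N))).coeff k ∈ A.nonunits) ↔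
        x ∈ RingHom.ker (resHom hA hq hqN j) := by
  obtain ⟨j, hj⟩ := exists_ker_embRes hA hq hqN ι
  exact ⟨j, fun x => by rw [← hj, RingHom.mem_ker, embRes_eq_zero_iff]⟩

end Fermat.Agent.CarayolFF
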