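import Fermat.Agent.CarayolFF.NormLevel

/-!
# Orders of the norm to level `qN` on the components

Orders are read off the expansions: `HasOrd y m` means that `y` is `qᵐ` times a quotient of two
series with nonzero reduction.
-/

set_option autoImplicit false

noncomputable section

open ModularCurve IntermediateField Polynomial
open Fermat.Agent.ModularFunctionField
open Fermat.Agent.Carayol Fermat.Agent.KummerReduction

namespace Fermat.Agent.CarayolFF

local notation "Qb" => AlgebraicClosure ℚ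

variable {A : ValuationSubring Qb} {q : ℕ}

theorem IsUnitSeries.pow {y : LaurentSeries Qb} (h : (resData A).IsUnitSeries y) (n : ℕ) :
    (resData A).IsUnitSeries (y ^ n) := by
  induction n with
  | zero => rw [pow_zero]; exact (resData A).isUnitSeries_one
  | succ n ih => rw [pow_succ]; exact ih.mul h

theorem not_isUnitSeries_C_mul {c : Qb} (hc : c ∈ A.nonunits) {y : LaurentSeries Qb}
    (hy : y ∈ (resData A).intSeries) : ¬ (resData A).IsUnitSeries (HahnSeries.C c * y) := by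
  rintro ⟨h, h0⟩
  refine h0 ?_
  rw [show (⟨_, h⟩ : (resData A).intSeries) =
    ⟨_, (resData A).C_mem_intSeries (A.nonunits_le hc)⟩ * ⟨y, hy⟩ from rfl, map_mul,
    (resData A).redSeries_C ⟨c, A.nonunits_le hc⟩,
    ((resData A).π_eq_zero ⟨c, A.nonunits_le hc⟩).mpr hc, map_zero, zero_mul]

/-- A bounded series over a discretely valued field with a unit power is a unit series. -/
theorem isUnitSeries_of_pow {L : Subfield Qb} {ϖ : Qb} (hd : (resData A).Discrete L ϖ)
    {x : LaurentSeries Qb} (hL : x ∈ ResidueData.overSubfield L) {c : Qb} (hc : c ≠ 0)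
    (hb : HahnSeries.C c * x ∈ (resData A).intSeries) {e : ℕ} (he : e ≠ 0)
    (h : (resData A).IsUnitSeries (x ^ e)) : (resData A).IsUnitSeries x := by
  have hx0 : x ≠ 0 := fun h0 => h.ne_zero (by rw [h0, zero_pow he])
  obtain ⟨z, hz⟩ := hd.exists_content hx0 hL hc hb
  have hn : ∀ n : ℕ, n ≠ 0 → (ϖ ^ n) ^ e ∈ A.nonunits := fun n hn0 => by
    rw [← pow_mul, A.mem_nonunits_iff, map_pow]
    exact pow_lt_one₀ zero_le hd.val_lt_one (Nat.mul_ne_zero hn0 he)
  rcases lt_trichotomy z 0 with hz0 | rfl | hz0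
  · exfalso
    obtain ⟨n, rfl⟩ : ∃ n : ℕ, z = -(n : ℤ) := ⟨(-z).toNat, by omega⟩
    refine not_isUnitSeries_C_mul (hn n (by omega)) ((IsUnitSeries.pow hz e).mem) ?_
    rwa [map_pow, ← mul_pow, ← mul_assoc, ← map_mul, zpow_neg, zpow_natCast,
      mul_inv_cancel₀ (pow_ne_zero _ hd.ne_zero), map_one, one_mul]
  · rwa [zpow_zero, map_one, one_mul] at hz
  · exfalso
    obtain ⟨n, rfl⟩ : ∃ n : ℕ, z = (n : ℤ) := ⟨z.toNat, by omega⟩
    refine not_isUnitSeries_C_mul (hn n (by omega)) h.mem ?_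
    have := IsUnitSeries.pow hz e
    rwa [zpow_natCast, mul_pow, ← map_pow] at this

variable (A q) in
/-- `y` is `qᵐ` times a quotient of two series with nonzero reduction. -/
def HasOrd (y : LaurentSeries Qb) (m : ℕ) : Prop :=
  ∃ σ τ, (resData A).IsUnitSeries σ ∧ (resData A).IsUnitSeries τ ∧
    y * σ = (q : LaurentSeries Qb) ^ m * τ

theorem HasOrd.one : HasOrd A q 1 0 :=
  ⟨1, 1, (resData A).isUnitSeries_one, (resData A).isUnitSeries_one, by rw [pow_zero]⟩

theorem HasOrd.mul {y y' : LaurentSeries Qb} {m m' : ℕ} (h : HasOrd A q y m)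
    (h' : HasOrd A q y' m') : HasOrd A q (y * y') (m + m') := by
  obtain ⟨σ, τ, hσ, hτ, e⟩ := h
  obtain ⟨σ', τ', hσ', hτ', e'⟩ := h'
  refine ⟨σ * σ', τ * τ', hσ.mul hσ', hτ.mul hτ', ?_⟩
  rw [mul_mul_mul_comm, e, e', pow_add, mul_mul_mul_comm]

theorem HasOrd.pow {y : LaurentSeries Qb} {m : ℕ} (h : HasOrd A q y m) (n : ℕ) :
    HasOrd A q (y ^ n) (m * n) := by
  induction n with
  | zero => rw [pow_zero, mul_zero]; exact HasOrd.one
  | succ n ih => rw [pow_succ, mul_add_one]; exact ih.mul h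

theorem HasOrd.prod {ι : Type*} (s : Finset ι) {f : ι → LaurentSeries Qb} {m : ι → ℕ}
    (h : ∀ i ∈ s, HasOrd A q (f i) (m i)) : HasOrd A q (∏ i ∈ s, f i) (∑ i ∈ s, m i) := by
  classical
  induction s using Finset.induction_on with
  | empty => rw [Finset.prod_empty, Finset.sum_empty]; exact HasOrd.one
  | insert a s ha ih =>
    rw [Finset.prod_insert ha, Finset.sum_insert ha]
    exact (h a (Finset.mem_insert_self a s)).mul
      (ih fun i hi => h i (Finset.mem_insert_of_mem hi))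

theorem HasOrd.map {y : LaurentSeries Qb} {m : ℕ} (h : HasOrd A q y m)
    (φ : LaurentSeries Qb →+* LaurentSeries Qb)
    (hφ : ∀ σ, (resData A).IsUnitSeries σ → (resData A).IsUnitSeries (φ σ)) :
    HasOrd A q (φ y) m := by
  obtain ⟨σ, τ, hσ, hτ, e⟩ := h
  refine ⟨φ σ, φ τ, hφ σ hσ, hφ τ hτ, ?_⟩
  rw [← map_mul, e, map_mul, map_pow, map_natCast]

/-- Inertia preserves unit series. -/
theorem isUnitSeries_coeffMap {σ : Qb ≃ₐ[ℚ] Qb} (hσ : σ ∈ A.inertiaSubgroupIn ℚ)
    {y : LaurentSeries Qb} (hy : (resData A).IsUnitSeries y) :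
    (resData A).IsUnitSeries (coeffMap (σ : Qb →+* Qb) y) := by
  obtain ⟨h, e⟩ := redSeries_coeffMap hσ hy.mem
  exact ⟨h, e ▸ hy.2⟩

/-- Twisting by a `q`-th root of unity preserves unit series. -/
theorem isUnitSeries_twist (hA : A.LiesOverPrime q) (hq : q.Prime) [NeZero q] (a : ℕ)
    {y : LaurentSeries Qb} (hy : (resData A).IsUnitSeries y) :
    (resData A).IsUnitSeries (twist (zetaUnit q ^ a) y) := by
  obtain ⟨h, e⟩ := redSeries_twist (u := zetaUnit q ^ a) (fun n => by
      rw [← zpow_natCast (zetaUnit q), ← zpow_mul]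
      exact zetaUnit_zpow_sub_one hA hq _) hy.mem
  exact ⟨h, e ▸ hy.2⟩

variable {N : ℕ} [NeZero q] [NeZero N] (hA : A.LiesOverPrime q) (hq : q.Prime) (hqN : ¬ q ∣ N)

/-- The order on a component of a witnessed element. -/
theorem hasOrd_of_witness {i : Fin 3} {x s t : model A (q ^ 2 * N)}
    (hs : resHom hA hq hqN i s ≠ 0) (ht : resHom hA hq hqN i t ≠ 0) {e m : ℕ}
    (h : s * x ^ e = t * (q : model A (q ^ 2 * N)) ^ m) :
    HasOrd A q (compHom hq hqN i x ^ e) m := by
  refine ⟨_, _, isUnitSeries_of_resHom_ne hA hq hqN hs, isUnitSeries_of_resHom_ne hA hq hqN ht, ?_⟩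
  have h' := congrArg (fun z : model A (q ^ 2 * N) => compHom hq hqN i z) h
  simp only [Subring.coe_mul, SubmonoidClass.coe_pow, map_mul, map_pow, Subring.coe_natCast,
    map_natCast] at h'
  rw [mul_comm, h', mul_comm]

/-- An element whose expansion on component `i` is `qᵐ` times an integral series is `qᵐ` times a
quotient of model elements there. -/
theorem exists_div_witness {i : Fin 3} (y : model A (q ^ 2 * N)) (m : ℕ) {v : LaurentSeries Qb}
    (hv : v ∈ (resData A).intSeries) (h : compHom hq hqN i y = (q : LaurentSeries Qb) ^ m * v) :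
    ∃ t, killer A q N i ^ m * y = t * (q : model A (q ^ 2 * N)) ^ m ∧
      resHom hA hq hqN i t =
        resHom hA hq hqN i (killer A q N i ^ m) * (resData A).redSeries ⟨v, hv⟩ := by
  have hC : ∀ n : ℕ, (q : LaurentSeries Qb) ^ n = HahnSeries.C ((q : Qb) ^ n) := fun n => by
    rw [map_pow, map_natCast]
  have hint : ∀ (k : Fin 3) (z : model A (q ^ 2 * N)), compHom hq hqN k z ∈ (resData A).intSeries :=
    fun k z => compHom_mem_intSeries hA hq hqN k z.2
  obtain ⟨t, ht⟩ := natCast_pow_dvd_of_comp hA hq hqN (killer A q N i ^ m * y) m fun k => by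
    refine ⟨1, (resData A).isUnitSeries_one, ?_⟩
    simp only [mul_one, Subring.coe_mul, SubmonoidClass.coe_pow, map_mul, map_pow]
    rcases eq_or_ne k i with rfl | hk
    · exact ⟨_, mul_mem (pow_mem (hint k (killer A q N k)) m) hv, by
        rw [h, map_natCast, mul_left_comm]⟩
    · obtain ⟨z, hz, hz'⟩ := qDiv_killer (N := N) hA hq hqN hk
      exact ⟨_, mul_mem (pow_mem hz m) (hint k y), by rw [hz', mul_pow, mul_assoc]⟩
  refine ⟨t, ht.trans (mul_comm _ _), ?_⟩
  have hkey : compHom hq hqN i t =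
      compHom hq hqN i (killer A q N i ^ m : model A (q ^ 2 * N)) * v := by
    have hq0 : (q : LaurentSeries Qb) ^ m ≠ 0 := by
      rw [hC]; exact HahnSeries.C_ne_zero (pow_ne_zero _ (Nat.cast_ne_zero.mpr hq.ne_zero))
    refine mul_left_cancel₀ hq0 ?_
    have ht' := congrArg (fun z : model A (q ^ 2 * N) => compHom hq hqN i z) ht
    simp only [Subring.coe_mul, SubmonoidClass.coe_pow, map_mul, map_pow, Subring.coe_natCast,
      map_natCast] at ht'
    rw [← ht', h, SubmonoidClass.coe_pow, map_pow, mul_left_comm]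
  rw [resHom_apply, resHom_apply, ← map_mul]
  exact redSeries_congr hkey _ _

/-- Witnesses from an order. -/
theorem exists_witness_of_hasOrd {i : Fin 3} (y : model A (q ^ 2 * N)) {e m : ℕ} (he : e ≠ 0)
    (h : HasOrd A q (compHom hq hqN i y ^ e) (m * e)) :
    ∃ s t, resHom hA hq hqN i s ≠ 0 ∧ resHom hA hq hqN i t ≠ 0 ∧
      s * y = t * (q : model A (q ^ 2 * N)) ^ m := by
  obtain ⟨L, ϖ, hd, hL⟩ := exists_discrete_comp (N := N) hA hq hqN
  obtain ⟨σ, τ, hσ, hτ, hy⟩ := h
  have hqm : ((q : Qb) ^ m) ≠ 0 := pow_ne_zero _ (Nat.cast_ne_zero.mpr hq.ne_zero)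
  set v := HahnSeries.C ((q : Qb) ^ m)⁻¹ * compHom hq hqN i y with hv
  have hyv : compHom hq hqN i y = (q : LaurentSeries Qb) ^ m * v := by
    rw [hv, ← map_natCast (HahnSeries.C : Qb →+* LaurentSeries Qb), ← map_pow, ← mul_assoc,
      ← map_mul, mul_inv_cancel₀ hqm, map_one, one_mul]
  have hvL : v ∈ ResidueData.overSubfield L := by
    refine mul_mem (ResidueData.mem_overSubfield.mpr fun n => ?_)
      ((hL _ (levelField_of_mem_model y.2)).1 i)
    by_cases hn : n = 0
    · subst hn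
      rw [HahnSeries.C_apply, HahnSeries.coeff_single_same]
      exact inv_mem (pow_mem (_root_.natCast_mem L q) m)
    · rw [HahnSeries.C_apply, HahnSeries.coeff_single_of_ne hn]
      exact zero_mem _
  have hvb : HahnSeries.C ((q : Qb) ^ m) * v ∈ (resData A).intSeries := by
    rw [map_pow, map_natCast, ← hyv]
    exact compHom_mem_intSeries hA hq hqN i y.2
  have hve : v ^ e * σ = τ := by
    refine mul_left_cancel₀ (a := (q : LaurentSeries Qb) ^ (m * e)) (pow_ne_zero (m * e) ?_) ?_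
    · rw [← map_natCast (HahnSeries.C : Qb →+* LaurentSeries Qb)]
      exact HahnSeries.C_ne_zero (Nat.cast_ne_zero.mpr hq.ne_zero)
    · rw [← hy]
      conv_rhs => rw [hyv, mul_pow, ← pow_mul, mul_assoc]
  have hvi : v ^ e ∈ (resData A).intSeries :=
    hd.mem_of_mul_mem (pow_mem hvL e) (pow_ne_zero e hqm)
      (by rw [map_pow, ← mul_pow]; exact pow_mem hvb e) hσ (hve ▸ hτ.mem)
  have hvu : (resData A).IsUnitSeries v := by
    refine isUnitSeries_of_pow hd hvL hqm hvb he ⟨hvi, fun h0 => hτ.2 ?_⟩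
    rw [show (⟨τ, hτ.mem⟩ : (resData A).intSeries) = ⟨_, hvi⟩ * ⟨σ, hσ.mem⟩ from
      Subtype.ext hve.symm, map_mul, h0, zero_mul]
  obtain ⟨t, ht, htres⟩ := exists_div_witness hA hq hqN y m hvu.mem hyv
  have hs : resHom hA hq hqN i (killer A q N i ^ m) ≠ 0 := by
    rw [map_pow]; exact pow_ne_zero _ (resHom_killer_ne hA hq hqN i)
  exact ⟨_, t, hs, htres ▸ mul_ne_zero hs hvu.2, ht⟩

include hA in
/-- The nontrivial conjugates over level `qN` are the inertia conjugates of the middle expansion. -/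
theorem exists_alphaConj_eq (x : model A (q ^ 2 * N)) {a : Fin q} (ha : (a : ℕ) ≠ 0) :
    ∃ σ ∈ A.inertiaSubgroupIn ℚ, σ (zetaUnit q : Qb) = ((zetaUnit q ^ (a : ℕ) : Qbˣ) : Qb) ∧
      alphaConj hq hqN ModCurveGenus.iotaC (zetaUnit q) (zetaUnit_pow q) (zetaUnit_ne_one hq) a
        (x : modularFunctionFieldBar (q ^ 2 * N)) =
        coeffMap (σ : Qb →+* Qb) (compHom hq hqN 1 x) := by
  obtain ⟨σ, hσ, hσu⟩ := exists_inertia_zetaUnit hA hq
    (fun hd => ha (Nat.eq_zero_of_dvd_of_lt hd a.2))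
  refine ⟨σ, hσ, hσu, ?_⟩
  have e := coeffMap_midHom hq hqN ModCurveGenus.iotaC (zetaUnit q) (zetaUnit q ^ (a : ℕ))
    (zetaUnit_pow q) (zetaUnit_ne_one hq) (unit_pow_eq_one (zetaUnit_pow q) a)
    (unit_pow_ne_one hq (zetaUnit_pow q) (zetaUnit_ne_one hq) ha a.2) σ hσu
    (x : modularFunctionFieldBar (q ^ 2 * N))
  rw [show arithmeticRingAut (modularFunctionFieldFull (q ^ 2 * N)) σ
      (x : modularFunctionFieldBar (q ^ 2 * N)) = x from
    Subtype.ext (coeffMap_levelField hσ (levelField_of_mem_model x.2))] at e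
  rw [alphaConj, dif_neg ha, compHom_one, middle, e]

/-- The expansion at `∞` of the norm, split off. -/
theorem compHom_zero_normLevel (x : model A (q ^ 2 * N)) :
    compHom hq hqN 0 (normLevel A hq hqN x) =
      compHom hq hqN 0 x * ∏ a ∈ Finset.univ.erase (⟨0, hq.pos⟩ : Fin q),
        alphaConj hq hqN ModCurveGenus.iotaC (zetaUnit q) (zetaUnit_pow q) (zetaUnit_ne_one hq) a
          (x : modularFunctionFieldBar (q ^ 2 * N)) := by
  rw [compHom_zero, coe_normLevel, coe_normFun hq hqN, compHom_zero,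
    ← Finset.mul_prod_erase _ _ (Finset.mem_univ (⟨0, hq.pos⟩ : Fin q))]
  congr 1

theorem compHom_one_normLevel (x : model A (q ^ 2 * N)) :
    compHom hq hqN 1 (normLevel A hq hqN x) = compHom hq hqN 0 (normLevel A hq hqN x) := by
  rw [compHom_one, compHom_zero, coe_normLevel, normFun]
  exact (middle_alphaIncl hq hqN _).trans (coe_alphaIncl q N _).symm

/-- Orders of the norm on the outer components. -/
theorem normLevel_ord (x : model A (q ^ 2 * N)) (a b c : ℕ)
    (ha : ∃ s t, resHom hA hq hqN 0 s ≠ 0 ∧ resHom hA hq hqN 0 t ≠ 0 ∧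
      s * x = t * (q : model A (q ^ 2 * N)) ^ a)
    (hb : ∃ s t, resHom hA hq hqN 1 s ≠ 0 ∧ resHom hA hq hqN 1 t ≠ 0 ∧
      s * x ^ (q - 1) = t * (q : model A (q ^ 2 * N)) ^ b)
    (hc : ∃ s t, resHom hA hq hqN 2 s ≠ 0 ∧ resHom hA hq hqN 2 t ≠ 0 ∧
      s * x = t * (q : model A (q ^ 2 * N)) ^ c) :
    (∃ s t, resHom hA hq hqN 0 s ≠ 0 ∧ resHom hA hq hqN 0 t ≠ 0 ∧
      s * normLevel A hq hqN x = t * (q : model A (q ^ 2 * N)) ^ (a + b)) ∧
    ∃ s t, resHom hA hq hqN 2 s ≠ 0 ∧ resHom hA hq hqN 2 t ≠ 0 ∧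
      s * normLevel A hq hqN x = t * (q : model A (q ^ 2 * N)) ^ (q * c) := by
  obtain ⟨s, t, hs, ht, hsa⟩ := ha
  obtain ⟨s', t', hs', ht', hsb⟩ := hb
  obtain ⟨s'', t'', hs'', ht'', hsc⟩ := hc
  have hq1 : q - 1 ≠ 0 := by have := hq.two_le; omega
  constructor
  · refine exists_witness_of_hasOrd hA hq hqN _ hq1 ?_
    rw [compHom_zero_normLevel hq hqN x, mul_pow, ← Finset.prod_pow, add_mul]
    refine HasOrd.mul ((?_ : HasOrd A q (compHom hq hqN 0 x) a).pow _) ?_
    · simpa using hasOrd_of_witness hA hq hqN (e := 1) hs ht (by rwa [pow_one])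
    have hconst : b * (q - 1) =
        ∑ a ∈ Finset.univ.erase (⟨0, hq.pos⟩ : Fin q), b := by
      rw [Finset.sum_const, Finset.card_erase_of_mem (Finset.mem_univ _), Finset.card_univ,
        Fintype.card_fin, smul_eq_mul, mul_comm]
    rw [hconst]
    refine HasOrd.prod _ fun d hd => ?_
    obtain ⟨σ, hσ, -, e⟩ := exists_alphaConj_eq hA hq hqN x (a := d)
      (fun h => Finset.ne_of_mem_erase hd (Fin.ext h))
    rw [e, ← map_pow]
    exact (hasOrd_of_witness hA hq hqN hs' ht' hsb).map _ fun _ => isUnitSeries_coeffMap hσ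
  · refine exists_witness_of_hasOrd hA hq hqN _ one_ne_zero ?_
    have hprod : compHom hq hqN 2 (normLevel A hq hqN x) =
        ∏ d : Fin q, twist (zetaUnit q ^ (d : ℕ)) (compHom hq hqN 2 x) := by
      rw [compHom_two, coe_normLevel, atkin_normFun hq hqN]
      rfl
    rw [pow_one, mul_one, hprod]
    have hconst : q * c = ∑ _d : Fin q, c := by simp
    rw [hconst]
    refine HasOrd.prod _ fun d _ => ?_
    refine HasOrd.map ?_ _ fun _ => isUnitSeries_twist hA hq _
    simpa using hasOrd_of_witness hA hq hqN (e := 1) hs'' ht'' (by rwa [pow_one])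

/-- `∏ (ζ^a - 1)` over `a ≠ 0`. -/
theorem prod_zeta_sub_one :
    (-1 : Qb) ^ (q - 1) * ∏ a ∈ Finset.univ.erase (⟨0, hq.pos⟩ : Fin q),
      (((zetaUnit q ^ (a : ℕ) : Qbˣ) : Qb) - 1) = q := by
  have hu : IsPrimitiveRoot (zetaUnit q : Qb) (q - 1 + 1) := by
    rw [Nat.sub_add_cancel hq.one_le]
    exact IsPrimitiveRoot.coe_units_iff.mpr (zetaUnit_primitive q)
  have hprod := hu.prod_pow_sub_one_eq_order
  rw [show ((q - 1 : ℕ) : Qb) + 1 = (q : Qb) by
    rw [Nat.cast_sub hq.one_le, Nat.cast_one, sub_add_cancel]] at hprod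
  refine Eq.trans ?_ hprod
  congr 1
  set g : ℕ → Qb := fun a => if a = 0 then 1 else (zetaUnit q : Qb) ^ a - 1 with hg
  have h1 : (∏ a ∈ Finset.univ.erase (⟨0, hq.pos⟩ : Fin q),
      (((zetaUnit q ^ (a : ℕ) : Qbˣ) : Qb) - 1)) = ∏ a : Fin q, g a := by
    rw [← Finset.mul_prod_erase Finset.univ (fun a : Fin q => g a) (Finset.mem_univ ⟨0, hq.pos⟩),
      show g ((⟨0, hq.pos⟩ : Fin q) : ℕ) = 1 from if_pos rfl, one_mul]
    refine Finset.prod_congr rfl fun a ha => ?_
    rw [hg]
    dsimp only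
    rw [if_neg (fun h => Finset.ne_of_mem_erase ha (Fin.ext h)), Units.val_pow_eq_pow_val]
  rw [h1, Fin.prod_univ_eq_prod_range g q]
  conv_lhs => rw [show q = q - 1 + 1 from (Nat.sub_add_cancel hq.one_le).symm]
  rw [Finset.prod_range_succ', show g 0 = 1 from if_pos rfl, mul_one]
  exact Finset.prod_congr rfl fun k _ => if_neg (Nat.succ_ne_zero k)

/-- The residue of the norm divided by `q` when the middle order is one. -/
theorem exists_normLevel_div {x s b : model A (q ^ 2 * N)} (hx : resHom hA hq hqN 0 x ≠ 0)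
    (hs : resHom hA hq hqN 1 s ≠ 0) (hb : resHom hA hq hqN 1 b ≠ 0)
    (h : s * x ^ (q - 1) = (q : model A (q ^ 2 * N)) * b) {i : Fin 3} (hi : i ≠ 2) :
    ∃ s' b', resHom hA hq hqN i s' ≠ 0 ∧
      s' * normLevel A hq hqN x = (q : model A (q ^ 2 * N)) * b' ∧
      resHom hA hq hqN i b' * resHom hA hq hqN 1 s =
        -(resHom hA hq hqN i s' * resHom hA hq hqN 0 x * resHom hA hq hqN 1 b) := by
  classical
  have hq1 : q - 1 ≠ 0 := by have := hq.two_le; omega
  have hq0 : (q : Qb) ≠ 0 := Nat.cast_ne_zero.mpr hq.ne_zero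
  have hqs : (q : LaurentSeries Qb) ≠ 0 := by
    rw [← map_natCast (HahnSeries.C : Qb →+* LaurentSeries Qb)]
    exact HahnSeries.C_ne_zero hq0
  obtain ⟨L, ϖ, hd, hζ, hL⟩ := exists_discrete_comp_zeta (N := N) hA hq hqN
  obtain ⟨δ, hδ, hπ⟩ := exists_zeta_pow_div (A := A) hA hq
  set p : Qb := (zetaUnit q : Qb) - 1 with hp
  have hp0 : p ≠ 0 := zeta_sub_one_ne_zero hq
  set μ := HahnSeries.C p⁻¹ * compHom hq hqN 1 x with hμ
  have hxμ : compHom hq hqN 1 x = HahnSeries.C p * μ := by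
    rw [hμ, ← mul_assoc, ← map_mul, mul_inv_cancel₀ hp0, map_one, one_mul]
  have hu_s := isUnitSeries_of_resHom_ne hA hq hqN hs
  have hu_b := isUnitSeries_of_resHom_ne hA hq hqN hb
  have h' : compHom hq hqN 1 s * compHom hq hqN 1 x ^ (q - 1) =
      (q : LaurentSeries Qb) * compHom hq hqN 1 b := by
    have := congrArg (fun z : model A (q ^ 2 * N) => compHom hq hqN 1 z) h
    simpa only [Subring.coe_mul, SubmonoidClass.coe_pow, map_mul, map_pow, Subring.coe_natCast,
      map_natCast] using this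
  have hμe : HahnSeries.C (δ : Qb) * (μ ^ (q - 1) * compHom hq hqN 1 s) = compHom hq hqN 1 b := by
    refine mul_left_cancel₀ hqs ?_
    rw [← h']
    conv_rhs => rw [hxμ, mul_pow, ← map_pow, hπ, map_mul, map_natCast]
    ring
  have hμL : μ ∈ ResidueData.overSubfield L := by
    refine mul_mem (ResidueData.mem_overSubfield.mpr fun n => ?_)
      ((hL _ (levelField_of_mem_model x.2)).1 1)
    by_cases hn : n = 0
    · subst hn
      rw [HahnSeries.C_apply, HahnSeries.coeff_single_same]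
      exact inv_mem (sub_mem hζ (one_mem L))
    · rw [HahnSeries.C_apply, HahnSeries.coeff_single_of_ne hn]
      exact zero_mem _
  have hμb : HahnSeries.C p * μ ∈ (resData A).intSeries :=
    hxμ ▸ compHom_mem_intSeries hA hq hqN 1 x.2
  have hδu : (resData A).IsUnitSeries (HahnSeries.C (δ : Qb)) := by
    refine ⟨(resData A).C_mem_intSeries δ.2, ?_⟩
    rw [(resData A).redSeries_C δ]
    exact HahnSeries.C_ne_zero (by
      show IsLocalRing.residue A δ ≠ 0
      rw [hδ]
      exact neg_ne_zero.mpr one_ne_zero)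
  have hμi : μ ^ (q - 1) ∈ (resData A).intSeries :=
    hd.mem_of_mul_mem (pow_mem hμL _) (pow_ne_zero (q - 1) hp0)
      (by rw [map_pow, ← mul_pow]; exact pow_mem hμb _) (hu_s.mul hδu)
      (by rw [← mul_assoc, mul_comm]; exact hμe ▸ hu_b.mem)
  have hμres : -((resData A).redSeries ⟨_, hμi⟩ * resHom hA hq hqN 1 s) =
      resHom hA hq hqN 1 b := by
    rw [resHom_apply, resHom_apply]
    have e : (resData A).redSeries (⟨_, (resData A).C_mem_intSeries δ.2⟩ *
        (⟨_, hμi⟩ * ⟨_, compHom_mem_intSeries hA hq hqN 1 s.2⟩)) =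
        (resData A).redSeries ⟨_, compHom_mem_intSeries hA hq hqN 1 b.2⟩ :=
      redSeries_congr hμe _ _
    rw [← e, map_mul, map_mul, (resData A).redSeries_C δ,
      show (resData A).π δ = -1 from hδ, map_neg, map_one, neg_one_mul]
  have hμu : (resData A).IsUnitSeries μ := by
    refine isUnitSeries_of_pow hd hμL hp0 hμb hq1 ⟨hμi, fun h0 => hb ?_⟩
    rw [← hμres, h0, zero_mul, neg_zero]
  -- the expansion at `∞` of the norm
  set i₀ : Fin q := ⟨0, hq.pos⟩ with hi₀
  have hterm : ∀ a : Fin q, ∃ v : (resData A).intSeries,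
      (resData A).redSeries v = (resData A).redSeries ⟨μ, hμu.mem⟩ ∧
      (a ≠ i₀ → alphaConj hq hqN ModCurveGenus.iotaC (zetaUnit q) (zetaUnit_pow q)
        (zetaUnit_ne_one hq) a (x : modularFunctionFieldBar (q ^ 2 * N)) =
        HahnSeries.C (((zetaUnit q ^ (a : ℕ) : Qbˣ) : Qb) - 1) * (v : LaurentSeries Qb)) := by
    intro a
    by_cases ha : a = i₀
    · exact ⟨⟨μ, hμu.mem⟩, rfl, fun h => absurd ha h⟩
    obtain ⟨σ, hσ, hσu, e⟩ := exists_alphaConj_eq hA hq hqN x (a := a) (fun h => ha (Fin.ext h))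
    obtain ⟨hm, hres⟩ := redSeries_coeffMap hσ hμu.mem
    refine ⟨⟨_, hm⟩, hres, fun _ => ?_⟩
    rw [e, hxμ, map_mul, coeffMap_C, hp, RingHom.coe_coe, map_sub, map_one, hσu]
  choose v hvres hval using hterm
  have hint0 := compHom_mem_intSeries hA hq hqN 0 x.2
  set V : (resData A).intSeries := (-1) ^ (q - 1) *
      (⟨_, hint0⟩ * ∏ a ∈ Finset.univ.erase i₀, v a) with hV
  have hN0 : compHom hq hqN 0 (normLevel A hq hqN x) = (q : LaurentSeries Qb) ^ 1 * V := by
    rw [compHom_zero_normLevel hq hqN x, Finset.prod_congr rfl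
      (fun a ha => hval a (Finset.ne_of_mem_erase ha)), Finset.prod_mul_distrib, ← map_prod, hV,
      pow_one]
    have hz := prod_zeta_sub_one (q := q) hq
    have hsq : ((-1 : Qb) ^ (q - 1)) * (-1) ^ (q - 1) = 1 := by
      rw [← mul_pow, neg_one_mul, neg_neg, one_pow]
    have hz' : (∏ a ∈ Finset.univ.erase i₀, (((zetaUnit q ^ (a : ℕ) : Qbˣ) : Qb) - 1)) =
        (q : Qb) * (-1) ^ (q - 1) := by
      rw [← hz, mul_comm, ← mul_assoc, hsq, one_mul]
    rw [hz', map_mul, map_natCast, map_pow, map_neg, map_one]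
    simp only [Subring.coe_mul, SubmonoidClass.coe_pow, NegMemClass.coe_neg, OneMemClass.coe_one,
      SubmonoidClass.coe_finsetProd]
    ring
  have hVres : (resData A).redSeries V * resHom hA hq hqN 1 s =
      -(resHom hA hq hqN 0 x * resHom hA hq hqN 1 b) := by
    have hC : (-1 : LaurentSeries (IsLocalRing.ResidueField A)) ^ (q - 1) = 1 := by
      rcases hq.eq_two_or_odd' with h2 | hodd
      · subst h2
        have h2 : (2 : IsLocalRing.ResidueField A) = 0 := by
          exact_mod_cast residue_natCast_self hA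
        have h3 : (2 : LaurentSeries (IsLocalRing.ResidueField A)) = 0 := by
          rw [← map_ofNat HahnSeries.C 2, h2, map_zero]
        rw [show 2 - 1 = 1 from rfl, pow_one]
        linear_combination -h3
      · exact (Nat.Odd.sub_odd hodd odd_one).neg_one_pow
    have hμpow : (resData A).redSeries ⟨_, hμi⟩ = (resData A).redSeries ⟨μ, hμu.mem⟩ ^ (q - 1) :=
      (map_pow (resData A).redSeries ⟨μ, hμu.mem⟩ (q - 1))
    have hV1 : (resData A).redSeries V =
        (resData A).redSeries ⟨_, hint0⟩ * (resData A).redSeries ⟨μ, hμu.mem⟩ ^ (q - 1) := by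
      rw [hV, map_mul, map_mul, map_pow, map_neg, map_one, hC, one_mul, map_prod,
        Finset.prod_congr rfl fun a _ => hvres a, Finset.prod_const,
        Finset.card_erase_of_mem (Finset.mem_univ _), Finset.card_univ, Fintype.card_fin]
    rw [hV1, ← hμres, resHom_apply hA hq hqN 0 x]
    generalize (resData A).redSeries ⟨_, hμi⟩ = P at hμpow ⊢
    rw [← hμpow, mul_neg, neg_neg, mul_assoc]
  have hNi : compHom hq hqN i (normLevel A hq hqN x) = (q : LaurentSeries Qb) ^ 1 * V := by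
    rw [← hN0]
    fin_cases i
    · rfl
    · exact compHom_one_normLevel hq hqN x
    · exact absurd rfl hi
  obtain ⟨b', hb', hres⟩ := exists_div_witness hA hq hqN (normLevel A hq hqN x) 1 V.2 hNi
  refine ⟨killer A q N i, b', resHom_killer_ne hA hq hqN i, ?_, ?_⟩
  · rw [pow_one, pow_one] at hb'
    exact hb'.trans (mul_comm _ _)
  · rw [hres, pow_one, mul_assoc, hVres]
    ring

end Fermat.Agent.CarayolFF
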