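import Fermat.Agent.CarayolFF.Witness
import Fermat.Agent.ModularFunctionField.Descent

/-!
# A family adapted to the three components

`basisFun` has `ψ(N) + (q - 1) ψ(N) + q² ψ(N)` members.  A combination of them with coefficients
in `W[j]` whose three expansions are divisible by `q` has all coefficients divisible by `q`.
-/

set_option autoImplicit false

noncomputable section

open ModularCurve IntermediateField Polynomial
open Fermat.Agent.ModularFunctionField
open Fermat.Agent.Carayol Fermat.Agent.KummerReduction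

namespace Fermat.Agent.CarayolFF

local notation "Qb" => AlgebraicClosure ℚ

variable (A : ValuationSubring Qb) (q N : ℕ) [NeZero q] [NeZero N]

/-- Reduction of the constants. -/
def wRes : unramInt A →+* IsLocalRing.ResidueField A :=
  (IsLocalRing.residue A).comp
    ((unramInt A).subtype.codRestrict A fun c => (mem_unramInt_iff.mp c.2).1)

/-- The constants in the model. -/
def constModel (M : ℕ) [NeZero M] : unramInt A →+* model A M :=
  ((algebraMap Qb (modularFunctionFieldBar M)).comp (unramInt A).subtype).codRestrict _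
    fun c => algebraMap_mem_model c.2

/-- The polynomials in `j(τ)` with coefficients in `W`, inside the model. -/
def polyEl : Polynomial (unramInt A) →+* model A (q ^ 2 * N) :=
  Polynomial.eval₂RingHom (constModel A (q ^ 2 * N)) (jAt A q N 0)

theorem jAt_zero_eq :
    ((jAt A q N 0 : model A (q ^ 2 * N)) : modularFunctionFieldBar (q ^ 2 * N)) =
      jElem (q ^ 2 * N) := by
  refine Subtype.ext ?_
  show qExpand Qb (q ^ ((0 : Fin 3) : ℕ)) jBar = jBar
  rw [qExpand_congr (M := q ^ ((0 : Fin 3) : ℕ)) (K := 1) (pow_zero q), qExpand_one_apply]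

theorem coe_polyEl (P : Polynomial (unramInt A)) :
    ((polyEl A q N P : model A (q ^ 2 * N)) : modularFunctionFieldBar (q ^ 2 * N)) =
      aeval (jElem (q ^ 2 * N)) (P.map (unramInt A).subtype) := by
  show (model A (q ^ 2 * N)).subtype (eval₂ _ _ P) = _
  rw [Polynomial.hom_eval₂, Polynomial.aeval_def, Polynomial.eval₂_map]
  exact congrArg (fun y => eval₂ _ y P) (jAt_zero_eq A q N)

theorem jTop_mem_model (A : ValuationSubring Qb) (N : ℕ) [NeZero N] :
    ModCurveGenus.gen N (ModCurveGenus.topD N) ∈ model A N := by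
  refine mem_model_of_integral (genS_mem_levelField _ _) ?_
  show IsIntegral _ (coeffEmb Qb (qExpand ℚ N jq))
  rw [coeffEmb, coeffMap_qExpand']
  exact isIntegral_qExpand_jBar _ N

/-- `j(Nτ) ^ a`. -/
def lowBasis (a : Fin (dedekindPsi N)) : model A N :=
  ⟨_, jTop_mem_model A N⟩ ^ (a : ℕ)

variable {A q N}

omit [NeZero q] in
theorem coe_redModel_lowBasis (hA : A.LiesOverPrime q) (hq : q.Prime) (a : Fin (dedekindPsi N)) :
    (redModel hA hq (lowBasis A N a) : LaurentSeries (IsLocalRing.ResidueField A)) =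
      jqNModC (IsLocalRing.ResidueField A) N ^ (a : ℕ) := by
  rw [lowBasis, map_pow, SubmonoidClass.coe_pow, coe_redModel]
  congr 1
  have h : jqModC Qb ∈ (resData A).intSeries :=
    (resData A).mem_intSeries.mpr fun n => by
      rw [← jBar_eq]; exact jBar_coeff_mem A.toSubring n
  rw [jqNModC, ← redSeries_jqModC h, ← redSeries_qExpand _ N h]
  refine redSeries_congr ?_ _ _
  show coeffEmb Qb (qExpand ℚ N jq) = _
  rw [coeffEmb, coeffMap_qExpand', ← jqModC_rat, coeffMap_jqC]

omit [NeZero q] in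
/-- The reductions of the low basis are independent over `k[j]`. -/
theorem eq_zero_of_sum_lowBasis (hA : A.LiesOverPrime q) (hq : q.Prime) (hqN : ¬ q ∣ N)
    (Q : Fin (dedekindPsi N) → Polynomial (IsLocalRing.ResidueField A))
    (h : ∑ a, aeval (jqModC (IsLocalRing.ResidueField A)) (Q a) *
      (redModel hA hq (lowBasis A N a) : LaurentSeries (IsLocalRing.ResidueField A)) = 0) :
    ∀ a, Q a = 0 := by
  set k := IsLocalRing.ResidueField A
  have hN : (N : k) ≠ 0 := by
    have := charP_residue hA hq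
    rw [Ne, CharP.cast_eq_zero_iff k q]
    exact hqN
  have hmem : ∀ P : Polynomial k, aeval (jqModC k) P ∈ jField k := fun P => by
    induction P using Polynomial.induction_on' with
    | add P₁ P₂ h₁ h₂ => rw [map_add]; exact add_mem h₁ h₂
    | monomial i c =>
      rw [aeval_monomial]
      exact mul_mem ((jField k).algebraMap_mem c)
        (pow_mem (IntermediateField.mem_adjoin_simple_self k _) i)
  have hli := Fintype.linearIndependent_iff.mp (linearIndependent_pow_jqNModC (K := k) (N := N) hN)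
    (fun a => ⟨_, hmem (Q a)⟩) (by
      simp only [IntermediateField.smul_def]
      simpa [coe_redModel_lowBasis] using h)
  intro a
  have h0 : aeval (jqModC k) (Q a) = 0 := congrArg Subtype.val (hli a)
  refine evalJT_injective (R := k) 1 ?_
  rw [map_zero, evalJT_eq, qExpand_one_apply, ← h0, aeval_def]
  congr 1
  refine RingHom.ext fun c => ?_
  rw [algebraMap_laurentSeries_eq_single]
  rfl

variable (A q N) in
/-- Index set of the adapted family. -/
abbrev BasisIdx : Type :=
  Fin (dedekindPsi N) ⊕ (Fin (q - 1) × Fin (dedekindPsi N)) ⊕ (Fin (q ^ 2) × Fin (dedekindPsi N))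

variable (A q N) in
/-- The adapted family. -/
def basisFun : BasisIdx q N → model A (q ^ 2 * N)
  | .inl a => sep A q N 2 * sep A q N 1 ^ (q - 1) * raiseModel A q N 0 (lowBasis A N a)
  | .inr (.inl (e, a)) => sep A q N 0 * sep A q N 2 * sep A q N 1 ^ (e : ℕ) *
      raiseModel A q N 0 (lowBasis A N a)
  | .inr (.inr (m, a)) => sep A q N 0 * sep A q N 1 ^ (q - 1) *
      raiseModel A q N 2 (lowBasis A N a) * jAt A q N 2 ^ (m : ℕ)

variable (A q N) in
/-- A combination with coefficients in `W[j]`. -/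
def comb (P : BasisIdx q N → Polynomial (unramInt A)) : model A (q ^ 2 * N) :=
  ∑ x, polyEl A q N (P x) * basisFun A q N x

/-- Reductions of the scalars. -/
theorem resHom_polyEl (hA : A.LiesOverPrime q) (hq : q.Prime) (hqN : ¬ q ∣ N) (i : Fin 3)
    (P : Polynomial (unramInt A)) :
    resHom hA hq hqN i (polyEl A q N P) =
      aeval (resHom hA hq hqN i (jAt A q N 0)) (P.map (wRes A)) := by
  show resHom hA hq hqN i (eval₂ _ _ P) = _
  rw [Polynomial.hom_eval₂, aeval_def, Polynomial.eval₂_map]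
  congr 1
  refine RingHom.ext fun c => ?_
  rw [RingHom.comp_apply, RingHom.comp_apply, algebraMap_laurentSeries_eq_single, resHom_apply,
    ← HahnSeries.C_apply]
  refine (redSeries_congr (y := HahnSeries.C (c : Qb)) ?_ _
    ((resData A).C_mem_intSeries (mem_unramInt_iff.mp c.2).1)).trans
    ((resData A).redSeries_C ⟨(c : Qb), (mem_unramInt_iff.mp c.2).1⟩ _)
  show compHom hq hqN i (algebraMap Qb _ (c : Qb)) = _
  rw [AlgHom.commutes, algebraMap_laurentSeries_eq_single]
  rfl

omit [NeZero q] in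
/-- A polynomial with zero reduction is divisible by `q`. -/
theorem exists_eq_C_mul_of_map_eq_zero (hA : A.LiesOverPrime q) (hq : q.Prime)
    {P : Polynomial (unramInt A)} (h : P.map (wRes A) = 0) :
    ∃ P' : Polynomial (unramInt A), P = Polynomial.C (q : unramInt A) * P' := by
  refine (Polynomial.C_dvd_iff_dvd_coeff _ _).mpr fun n => ?_
  rw [← Ideal.mem_span_singleton, Local.mem_span_natCast_iff hA hq]
  have h1 := congrArg (fun Q : Polynomial (IsLocalRing.ResidueField A) => Q.coeff n) h
  simp only [Polynomial.coeff_map, Polynomial.coeff_zero] at h1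
  exact (A.valuation_lt_one_iff _).mp ((IsLocalRing.residue_eq_zero_iff _).mp h1)

theorem qDiv_polyEl (hA : A.LiesOverPrime q) (hq : q.Prime) (hqN : ¬ q ∣ N) (i : Fin 3)
    {P : Polynomial (unramInt A)} (h : P.map (wRes A) = 0) (y : model A (q ^ 2 * N)) :
    QDiv A q (compHom hq hqN i (polyEl A q N P * y : model A (q ^ 2 * N))) := by
  obtain ⟨P', rfl⟩ := exists_eq_C_mul_of_map_eq_zero hA hq h
  refine ⟨_, compHom_mem_intSeries hA hq hqN i ((polyEl A q N P' * y).2), ?_⟩
  rw [map_mul, mul_assoc, Subring.coe_mul, map_mul]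
  congr 1
  rw [polyEl, Polynomial.coe_eval₂RingHom, Polynomial.eval₂_C]
  show compHom hq hqN i (algebraMap Qb _ ((q : unramInt A) : Qb)) = _
  rw [AlgHom.commutes, algebraMap_laurentSeries_eq_single, Subring.coe_natCast]
  rfl

theorem resHom_eq_zero_of_qDiv (hA : A.LiesOverPrime q) (hq : q.Prime) (hqN : ¬ q ∣ N) {i : Fin 3}
    {y : model A (q ^ 2 * N)} (h : QDiv A q (compHom hq hqN i y)) :
    resHom hA hq hqN i y = 0 := h.redSeries_eq_zero hA _

theorem map_eq_zero_inl (hA : A.LiesOverPrime q) (hq : q.Prime) (hqN : ¬ q ∣ N)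
    (P : BasisIdx q N → Polynomial (unramInt A))
    (h : resHom hA hq hqN 0 (comb A q N P) = 0) (a : Fin (dedekindPsi N)) :
    (P (.inl a)).map (wRes A) = 0 := by
  obtain ⟨a0, -⟩ := resHom_jAt (N := N) hA hq hqN
  have h0 : qExpand (IsLocalRing.ResidueField A) (q ^ ((0 : Fin 3) : ℕ)) =
      RingHom.id (LaurentSeries (IsLocalRing.ResidueField A)) := RingHom.ext fun x => by
    rw [qExpand_congr (M := q ^ ((0 : Fin 3) : ℕ)) (K := 1) (pow_zero q), qExpand_one_apply,
      RingHom.id_apply]
  simp only [comb, map_sum, map_add, map_mul, Fintype.sum_sum_type, basisFun, map_pow,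
    resHom_sep_self hA hq hqN 0, zero_mul, mul_zero, Finset.sum_const_zero, add_zero,
    resHom_zero_raiseModel, h0, RingHom.id_apply, resHom_polyEl hA hq hqN, a0] at h
  set c := resHom hA hq hqN 0 (sep A q N 2) * resHom hA hq hqN 0 (sep A q N 1) ^ (q - 1)
  have hc : c ≠ 0 := mul_ne_zero (resHom_sep_ne hA hq hqN (by decide))
    (pow_ne_zero _ (resHom_sep_ne hA hq hqN (by decide)))
  refine eq_zero_of_sum_lowBasis hA hq hqN (fun a => (P (.inl a)).map (wRes A)) ?_ a
  refine mul_left_cancel₀ hc ?_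
  rw [mul_zero, ← h, Finset.mul_sum]
  exact Finset.sum_congr rfl fun a _ => by ring

theorem map_eq_zero_inr (hA : A.LiesOverPrime q) (hq : q.Prime) (hqN : ¬ q ∣ N)
    (P : BasisIdx q N → Polynomial (unramInt A))
    (h : resHom hA hq hqN 2 (comb A q N P) = 0) (m : Fin (q ^ 2)) (a : Fin (dedekindPsi N)) :
    (P (.inr (.inr (m, a)))).map (wRes A) = 0 := by
  obtain ⟨-, -, a2, -, -, b2⟩ := resHom_jAt (N := N) hA hq hqN
  have h0 : qExpand (IsLocalRing.ResidueField A) (q ^ ((Fin.rev 2 : Fin 3) : ℕ)) =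
      RingHom.id (LaurentSeries (IsLocalRing.ResidueField A)) := RingHom.ext fun x => by
    rw [qExpand_congr (M := q ^ ((Fin.rev 2 : Fin 3) : ℕ)) (K := 1) (by simp [Fin.rev]),
      qExpand_one_apply, RingHom.id_apply]
  simp only [comb, map_sum, map_add, map_mul, Fintype.sum_sum_type, basisFun, map_pow,
    resHom_sep_self hA hq hqN 2, zero_mul, mul_zero, Finset.sum_const_zero, zero_add,
    resHom_two_raiseModel, h0, RingHom.id_apply, resHom_polyEl hA hq hqN, a2, b2] at h
  set J := jqModC (IsLocalRing.ResidueField A)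
  set Q : Fin (q ^ 2) → Fin (dedekindPsi N) → Polynomial (IsLocalRing.ResidueField A) :=
    fun m a => (P (.inr (.inr (m, a)))).map (wRes A)
  set c := resHom hA hq hqN 2 (sep A q N 0) * resHom hA hq hqN 2 (sep A q N 1) ^ (q - 1)
  have hc : c ≠ 0 := mul_ne_zero (resHom_sep_ne hA hq hqN (by decide))
    (pow_ne_zero _ (resHom_sep_ne hA hq hqN (by decide)))
  set R : Fin (dedekindPsi N) → Polynomial (IsLocalRing.ResidueField A) :=
    fun a => ∑ m : Fin (q ^ 2), expand _ (q ^ 2) (Q m a) * X ^ (m : ℕ)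
  have hR : ∀ a, R a = 0 := by
    refine eq_zero_of_sum_lowBasis hA hq hqN R ?_
    refine mul_left_cancel₀ hc ?_
    rw [mul_zero, ← h, Finset.mul_sum, Fintype.sum_prod_type, Finset.sum_comm]
    refine Finset.sum_congr rfl fun a _ => ?_
    simp only [R, map_sum, map_mul, map_pow, aeval_X, expand_aeval, Finset.sum_mul, Finset.mul_sum]
    exact Finset.sum_congr rfl fun m _ => by ring
  refine Polynomial.ext fun i => ?_
  have h1 := congrArg (fun S : Polynomial (IsLocalRing.ResidueField A) =>
    S.coeff (q ^ 2 * i + m)) (hR a)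
  simp only [R, Polynomial.coeff_zero, finsetSum_coeff, coeff_mul_X_pow'] at h1
  rw [Finset.sum_eq_single m (fun m' _ hm' => ?_) (fun h => absurd (Finset.mem_univ m) h)] at h1
  · rw [if_pos (Nat.le_add_left _ _), Nat.add_sub_cancel_right,
      coeff_expand_mul' (Nat.pos_of_ne_zero (pow_ne_zero 2 (NeZero.ne q)))] at h1
    rw [Polynomial.coeff_zero]
    exact h1
  · split
    · rw [coeff_expand (Nat.pos_of_ne_zero (pow_ne_zero 2 (NeZero.ne q))), if_neg]
      rintro ⟨c, hc⟩
      refine hm' (Fin.ext ?_)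
      have e : q ^ 2 * i + (m : ℕ) = q ^ 2 * c + (m' : ℕ) := by omega
      have := congrArg (· % (q ^ 2)) e
      simp only [Nat.mul_add_mod, Nat.mod_eq_of_lt m.2, Nat.mod_eq_of_lt m'.2] at this
      exact this.symm
    · rfl

variable (A q N) in
/-- The part of a combination in degree `e` on the middle component. -/
def midPart (P : BasisIdx q N → Polynomial (unramInt A)) (e : Fin (q - 1)) :
    model A (q ^ 2 * N) :=
  sep A q N 0 * sep A q N 2 *
    ∑ a, polyEl A q N (P (.inr (.inl (e, a)))) * raiseModel A q N 0 (lowBasis A N a)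

theorem map_eq_zero_mid_of_resHom (hA : A.LiesOverPrime q) (hq : q.Prime) (hqN : ¬ q ∣ N)
    (P : BasisIdx q N → Polynomial (unramInt A)) (e : Fin (q - 1))
    (h : resHom hA hq hqN 1 (midPart A q N P e) = 0) (a : Fin (dedekindPsi N)) :
    (P (.inr (.inl (e, a)))).map (wRes A) = 0 := by
  obtain ⟨-, a1, -⟩ := resHom_jAt (N := N) hA hq hqN
  have h0 : qExpand (IsLocalRing.ResidueField A) (q ^ ((0 : Fin 3) : ℕ)) =
      RingHom.id (LaurentSeries (IsLocalRing.ResidueField A)) := RingHom.ext fun x => by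
    rw [qExpand_congr (M := q ^ ((0 : Fin 3) : ℕ)) (K := 1) (pow_zero q), qExpand_one_apply,
      RingHom.id_apply]
  simp only [midPart, map_mul, map_sum,
    resHom_one_raiseModel hA hq hqN (show (0 : Fin 3) ≠ 2 by decide), h0, RingHom.id_apply,
    resHom_polyEl hA hq hqN, a1, mul_eq_zero, resHom_sep_ne hA hq hqN (show (1 : Fin 3) ≠ 0 by decide),
    resHom_sep_ne hA hq hqN (show (1 : Fin 3) ≠ 2 by decide), false_or] at h
  exact eq_zero_of_sum_lowBasis hA hq hqN (fun a => (P (.inr (.inl (e, a)))).map (wRes A)) h a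

theorem qDiv_midPart_of_map (hA : A.LiesOverPrime q) (hq : q.Prime) (hqN : ¬ q ∣ N)
    (P : BasisIdx q N → Polynomial (unramInt A)) (e : Fin (q - 1))
    (h : ∀ a, (P (.inr (.inl (e, a)))).map (wRes A) = 0) :
    QDiv A q (middle hq hqN (midPart A q N P e)) := by
  rw [midPart, Subring.coe_mul, map_mul, AddSubmonoidClass.coe_finsetSum, map_sum]
  exact (QDiv.sum fun a _ => qDiv_polyEl hA hq hqN 1 (h a) _).mul_left
    (compHom_mem_intSeries hA hq hqN 1 (sep A q N 0 * sep A q N 2).2)

/-- The shape of a combination, in any commutative ring. -/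
theorem sum_split_shape {R : Type*} [CommRing R] {α β γ : Type*} [Fintype α] [Fintype β] [Fintype γ]
    (s0 s1 s2 y : R) (t : ℕ) (ε : β → ℕ) (μ : γ → ℕ) (p r r' : α → R) (p' : β → α → R)
    (p'' : γ → α → R) :
    ∑ a, p a * (s2 * s1 ^ t * r a) +
      (∑ x : β × α, p' x.1 x.2 * (s0 * s2 * s1 ^ ε x.1 * r x.2) +
        ∑ x : γ × α, p'' x.1 x.2 * (s0 * s1 ^ t * r' x.2 * y ^ μ x.1)) =
    s1 ^ t * (∑ a, p a * (s2 * r a) + ∑ x : γ × α, p'' x.1 x.2 * (s0 * r' x.2 * y ^ μ x.1)) +
      ∑ b, s1 ^ ε b * (s0 * s2 * ∑ a, p' b a * r a) := by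
  have h1 : ∑ x : β × α, p' x.1 x.2 * (s0 * s2 * s1 ^ ε x.1 * r x.2) =
      ∑ b, s1 ^ ε b * (s0 * s2 * ∑ a, p' b a * r a) := by
    rw [Fintype.sum_prod_type]
    refine Finset.sum_congr rfl fun b _ => ?_
    rw [Finset.mul_sum, Finset.mul_sum]
    exact Finset.sum_congr rfl fun a _ => by ring
  rw [h1, mul_add, Finset.mul_sum, Finset.mul_sum, add_left_comm, add_comm]
  congr 1
  congr 1 <;> exact Finset.sum_congr rfl fun a _ => by ring

variable (A q N) in
/-- The part of a combination outside the middle component. -/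
def outerPart (P : BasisIdx q N → Polynomial (unramInt A)) : model A (q ^ 2 * N) :=
  ∑ a, polyEl A q N (P (.inl a)) * (sep A q N 2 * raiseModel A q N 0 (lowBasis A N a)) +
    ∑ x : Fin (q ^ 2) × Fin (dedekindPsi N), polyEl A q N (P (.inr (.inr x))) *
      (sep A q N 0 * raiseModel A q N 2 (lowBasis A N x.2) * jAt A q N 2 ^ (x.1 : ℕ))

theorem comb_eq (P : BasisIdx q N → Polynomial (unramInt A)) :
    comb A q N P = sep A q N 1 ^ (q - 1) * outerPart A q N P +
      ∑ e : Fin (q - 1), sep A q N 1 ^ (e : ℕ) * midPart A q N P e := by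
  rw [comb, Fintype.sum_sum_type, Fintype.sum_sum_type]
  exact sum_split_shape (R := model A (q ^ 2 * N)) (sep A q N 0) (sep A q N 1) (sep A q N 2)
    (jAt A q N 2) (q - 1) (fun e : Fin (q - 1) => (e : ℕ)) (fun m : Fin (q ^ 2) => (m : ℕ))
    (fun a => polyEl A q N (P (.inl a))) (fun a => raiseModel A q N 0 (lowBasis A N a))
    (fun a => raiseModel A q N 2 (lowBasis A N a))
    (fun e a => polyEl A q N (P (.inr (.inl (e, a)))))
    (fun m a => polyEl A q N (P (.inr (.inr (m, a)))))

/-- The middle parts reduce to zero one after the other. -/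
theorem resHom_midPart_eq_zero (hA : A.LiesOverPrime q) (hq : q.Prime) (hqN : ¬ q ∣ N)
    (P : BasisIdx q N → Polynomial (unramInt A))
    (h : QDiv A q (middle hq hqN (comb A q N P))) (e : Fin (q - 1)) :
    resHom hA hq hqN 1 (midPart A q N P e) = 0 := by
  obtain ⟨η, hη, hmid⟩ := exists_middle_sep_one (N := N) hA hq hqN
  set v : Qb := (zetaUnit q : Qb) - 1 with hv
  have hv0 : v ≠ 0 := zeta_sub_one_ne_zero hq
  have hvA : v ∈ A := A.nonunits_le (zeta_sub_one_mem_nonunits hA hq)
  obtain ⟨ε, -, hε⟩ := exists_zeta_rel hA hq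
  have hmidint : ∀ x : model A (q ^ 2 * N), middle hq hqN x ∈ (resData A).intSeries :=
    fun x => compHom_mem_intSeries hA hq hqN 1 x.2
  -- only the middle parts survive
  have hsum : QDiv A q (∑ e' : Fin (q - 1),
      HahnSeries.C (v ^ (e' : ℕ)) * η ^ (e' : ℕ) * middle hq hqN (midPart A q N P e')) := by
    rw [comb_eq, Subring.coe_add, Subring.coe_mul, map_add, map_mul] at h
    have h' := h.add ((qDiv_middle_sep_one hA hq hqN).mul_right (hmidint (outerPart A q N P))).neg
    rw [add_neg_cancel_comm, AddSubmonoidClass.coe_finsetSum, map_sum] at h'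
    convert h' using 1
    refine Finset.sum_congr rfl fun e' _ => ?_
    simp only [Subring.coe_mul, map_mul, SubmonoidClass.coe_pow, map_pow, hmid, mul_pow]
  induction he : (e : ℕ) using Nat.strong_induction_on generalizing e with
  | _ n ih =>
    subst he
    have hlow : QDiv A q (∑ e' ∈ Finset.univ.filter (fun e' : Fin (q - 1) => e' < e),
        HahnSeries.C (v ^ (e' : ℕ)) * η ^ (e' : ℕ) * middle hq hqN (midPart A q N P e')) := by
      refine QDiv.sum fun e' he' => QDiv.mul_left
        (mul_mem ((resData A).C_mem_intSeries (pow_mem hvA _)) (pow_mem hη.mem _)) ?_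
      refine qDiv_midPart_of_map hA hq hqN P e' fun a => map_eq_zero_mid_of_resHom hA hq hqN P e'
        (ih (e' : ℕ) (Finset.mem_filter.mp he').2 e' rfl) a
    rw [← Finset.sum_filter_add_sum_filter_not Finset.univ (fun e' : Fin (q - 1) => e' < e)] at hsum
    have hhigh := hsum.add hlow.neg
    rw [add_neg_cancel_comm] at hhigh
    obtain ⟨z, hz, hzeq⟩ := hhigh
    set S := Finset.univ.filter (fun e' : Fin (q - 1) => ¬ e' < e) with hS
    -- divide by `v ^ e`
    have hdiv : ∑ e' ∈ S, HahnSeries.C (v ^ ((e' : ℕ) - e)) * η ^ (e' : ℕ) *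
        middle hq hqN (midPart A q N P e') =
        HahnSeries.C (v ^ (q - 1 - (e : ℕ)) * (ε : Qb)) * z := by
      have hC : (HahnSeries.C (v ^ (e : ℕ)) : LaurentSeries Qb) ≠ 0 :=
        HahnSeries.C_ne_zero (pow_ne_zero _ hv0)
      refine mul_left_cancel₀ hC ?_
      rw [← mul_assoc (HahnSeries.C (v ^ (e : ℕ))), ← map_mul, ← mul_assoc, ← pow_add,
        Nat.add_sub_cancel' e.2.le, ← hε, ← hzeq, Finset.mul_sum]
      refine Finset.sum_congr rfl fun e' he' => ?_
      rw [← mul_assoc, ← mul_assoc, ← map_mul, ← pow_add,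
        Nat.add_sub_cancel' (not_lt.mp (Finset.mem_filter.mp he').2)]
    -- reduce
    have hqv : v ^ (q - 1 - (e : ℕ)) * (ε : Qb) ∈ A.nonunits := by
      rw [ValuationSubring.mem_nonunits_iff, map_mul]
      refine mul_lt_one_of_lt_of_le ?_ ((A.valuation_le_one_iff _).mpr ε.2)
      rw [map_pow]
      exact pow_lt_one₀ zero_le (A.mem_nonunits_iff.mp (zeta_sub_one_mem_nonunits hA hq))
        (by have := e.2; omega)
    set T : Fin (q - 1) → (resData A).intSeries := fun e' =>
      ⟨_, (resData A).C_mem_intSeries (pow_mem hvA ((e' : ℕ) - e))⟩ * ⟨η, hη.mem⟩ ^ (e' : ℕ) *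
        ⟨_, hmidint (midPart A q N P e')⟩
    have hred : (resData A).redSeries (∑ e' ∈ S, T e') = 0 := by
      have heq : (∑ e' ∈ S, T e') = (⟨_, (resData A).C_mem_intSeries (A.nonunits_le hqv)⟩ :
          (resData A).intSeries) * ⟨z, hz⟩ := by
        refine Subtype.ext ?_
        rw [AddSubmonoidClass.coe_finsetSum, Subring.coe_mul, ← hdiv]
        exact Finset.sum_congr rfl fun e' _ => rfl
      rw [heq, map_mul, (resData A).redSeries_C ⟨_, A.nonunits_le hqv⟩,
        ((resData A).π_eq_zero ⟨_, A.nonunits_le hqv⟩).mpr hqv, map_zero, zero_mul]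
    rw [map_sum, Finset.sum_eq_single e (fun e' he' hne => ?_)
      (fun hn => absurd (Finset.mem_filter.mpr ⟨Finset.mem_univ e, lt_irrefl e⟩) hn)] at hred
    · simp only [T, map_mul, (resData A).redSeries_C ⟨_, pow_mem hvA ((e : ℕ) - e)⟩] at hred
      rw [map_pow (resData A).redSeries] at hred
      rw [show ((resData A).π ⟨v ^ ((e : ℕ) - e), pow_mem hvA _⟩) = 1 by
        simp only [Nat.sub_self, pow_zero]
        exact map_one _, map_one, one_mul, mul_eq_zero] at hred
      exact hred.resolve_left (pow_ne_zero _ hη.2)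
    · have hpos : (e' : ℕ) - e ≠ 0 := by
        have h1 := (Finset.mem_filter.mp he').2
        have h2 : (e' : ℕ) ≠ e := fun h => hne (Fin.ext h)
        rw [Fin.lt_def] at h1
        omega
      simp only [T, map_mul, (resData A).redSeries_C ⟨_, pow_mem hvA ((e' : ℕ) - e)⟩]
      rw [((resData A).π_eq_zero ⟨v ^ ((e' : ℕ) - e), pow_mem hvA _⟩).mpr ?_, map_zero, zero_mul,
        zero_mul]
      show v ^ ((e' : ℕ) - e) ∈ A.nonunits
      rw [ValuationSubring.mem_nonunits_iff, map_pow]
      exact pow_lt_one₀ zero_le (A.mem_nonunits_iff.mp (zeta_sub_one_mem_nonunits hA hq)) hpos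

/-- If all three expansions of a combination are divisible by `q`, so are all coefficients. -/
theorem map_eq_zero_of_qDiv (hA : A.LiesOverPrime q) (hq : q.Prime) (hqN : ¬ q ∣ N)
    (P : BasisIdx q N → Polynomial (unramInt A))
    (h : ∀ i, QDiv A q (compHom hq hqN i (comb A q N P))) (x : BasisIdx q N) :
    (P x).map (wRes A) = 0 := by
  rcases x with a | ⟨e, a⟩ | ⟨m, a⟩
  · exact map_eq_zero_inl hA hq hqN P (resHom_eq_zero_of_qDiv hA hq hqN (h 0)) a
  · exact map_eq_zero_mid_of_resHom hA hq hqN P e (resHom_midPart_eq_zero hA hq hqN P (h 1) e) a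
  · exact map_eq_zero_inr hA hq hqN P (resHom_eq_zero_of_qDiv hA hq hqN (h 2)) m a

end Fermat.Agent.CarayolFF
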