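import Fermat.Agent.CarayolFF.Embeddings
import Fermat.Agent.Carayol.Local.Inertia
import Fermat.Agent.Carayol.Local.Series

/-!
# Coefficients of the images of the level `M` field under the embeddings over `j`

The generators go to series with coefficients in `ℤ[ζ_M]`, hence every function with constants in
the inertia field goes to a quotient of bounded series over one finite extension of that field.
-/

set_option autoImplicit false

noncomputable section

open ModularCurve IntermediateField Polynomial
open Fermat.Agent.ModularFunctionField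
open Fermat.Agent.Carayol Fermat.Agent.KummerReduction

namespace Fermat.Agent.CarayolFF

local notation "Qb" => AlgebraicClosure ℚ

variable {M : ℕ} [NeZero M]

/-- The expansion of `j(eτ)` has integral coefficients. -/
theorem qExpand_jBar_coeff_mem (O : Subring Qb) (e : ℕ) [NeZero e] (n : ℤ) :
    (qExpand Qb e jBar).coeff n ∈ O := by
  rw [jBar, coeffEmb, ← jqModC_rat, coeffMap_jqC,
    ← coeffMap_jqC (Int.castRingHom Qb), ← coeffMap_qExpand', coeffMap_coeff]
  exact intCast_mem O _

theorem jBar_coeff_mem (O : Subring Qb) (n : ℤ) : jBar.coeff n ∈ O := by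
  have h := qExpand_jBar_coeff_mem O 1 n
  rwa [qExpand_one_apply] at h

/-- The images of the generators have coefficients in any ring containing the `M`th roots of
unity. -/
theorem emb_gen_coeff_mem (O : Subring Qb) (hO : ∀ z : Qb, z ^ M = 1 → z ∈ O) (ι : Emb M)
    (d : ModCurveGenus.Dvs M) (n : ℤ) : (ι.1 (ModCurveGenus.gen M d)).coeff n ∈ O := by
  obtain ⟨k, hk⟩ := d.dvd
  have : NeZero k := ⟨right_ne_zero_of_mul (hk ▸ NeZero.ne M)⟩
  obtain ⟨z, hz⟩ := HasEnoughRootsOfUnity.exists_primitiveRoot Qb M
  set u := (hz.isUnit (NeZero.ne M)).unit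
  have hu : IsPrimitiveRoot u M := hz.isUnit_unit (NeZero.ne M)
  let g : ℤ[X] →+* baseJ M :=
    Polynomial.eval₂RingHom (Int.castRingHom _) ⟨jElem M, mem_adjoin_simple_self Qb _⟩
  set P := (modularPoly d.1).map g with hP
  have hg : ∀ ι : Emb M, (ι.1.toRingHom.comp (baseJ M).val.toRingHom).comp g = evalPhi M Qb := by
    intro ι
    refine Polynomial.ringHom_ext' (Subsingleton.elim _ _) ?_
    rw [RingHom.comp_apply, Polynomial.coe_eval₂RingHom, Polynomial.eval₂_X, evalPhi_eq_evalAt,
      evalAt, Polynomial.coe_eval₂RingHom, Polynomial.eval₂_X]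
    refine ι.2.trans ?_
    rw [jBar, coeffEmb, ← jqModC_rat, coeffMap_jqC]
    rfl
  -- the generator is a root of `P`, as seen through the identity embedding
  have hroot : eval₂ (baseJ M).val.toRingHom (ModCurveGenus.gen M d) P = 0 := by
    apply (idEmb M).1.toRingHom.injective
    rw [map_zero, Polynomial.hom_eval₂, hP, Polynomial.eval₂_map, hg, ← Polynomial.eval_map,
      modularPoly_map_level hu hk.symm, Polynomial.eval_prod]
    refine Finset.prod_eq_zero (Finset.mem_univ Tri.top) ?_
    show eval (qExpand Qb M (coeffEmb Qb (qExpand ℚ d.1 jq))) _ = 0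
    rw [jRoot_top, Polynomial.eval_sub, Polynomial.eval_X, Polynomial.eval_C, sub_eq_zero,
      coeffEmb, coeffMap_qExpand', ← jqModC_rat, coeffMap_jqC, qExpand_qExpand]
    exact qExpand_congr (by rw [mul_assoc, ← hk, mul_comm]) _
  have h := congrArg ι.1.toRingHom hroot
  rw [map_zero, Polynomial.hom_eval₂, hP, Polynomial.eval₂_map, hg, ← Polynomial.eval_map,
    modularPoly_map_level hu hk.symm, Polynomial.eval_prod, Finset.prod_eq_zero_iff] at h
  obtain ⟨T, -, hT⟩ := h
  rw [Polynomial.eval_sub, Polynomial.eval_X, Polynomial.eval_C, sub_eq_zero] at hT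
  have hu' : IsPrimitiveRoot (u : Qb) M := IsPrimitiveRoot.coe_units_iff.mpr hu
  have hrange : ∀ x : Cyc M, cycHom (u : Qb) hu' x ∈ O := by
    intro x
    obtain ⟨p, rfl⟩ := AdjoinRoot.mk_surjective x
    rw [cycHom_mk]
    induction p using Polynomial.induction_on' with
    | add a b ha hb => rw [Polynomial.eval₂_add]; exact add_mem ha hb
    | monomial i a =>
      rw [Polynomial.eval₂_monomial]
      exact mul_mem (intCast_mem O a) (pow_mem (hO _ hu'.pow_eq_one) i)
  have hT' : ι.1 (ModCurveGenus.gen M d) =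
      coeffMap (cycHom (u : Qb) hu') (jRoot (cycUnit M) k T) := by
    rw [coeffMap_jRoot, map_cycUnit]
    exact hT
  rw [hT', coeffMap_coeff]
  exact hrange _

/-- Induction on the elements of `levelField E M` inside the function field. -/
theorem levelField_induction {E : IntermediateField ℚ Qb}
    (S : Subfield (modularFunctionFieldBar M)) (hC : ∀ c ∈ E, algebraMap Qb _ c ∈ S)
    (hgen : ∀ d, ModCurveGenus.gen M d ∈ S) {x : modularFunctionFieldBar M}
    (hx : (x : LaurentSeries Qb) ∈ levelField E M) : x ∈ S := by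
  have hle : levelField E M ≤ S.map (modularFunctionFieldBar M).val.toRingHom := by
    refine Subfield.closure_le.mpr (Set.union_subset ?_ ?_)
    · rintro _ ⟨c, hc, rfl⟩
      exact ⟨_, hC c hc, rfl⟩
    · rintro _ ⟨_, ⟨d, hd, hdM, rfl⟩, rfl⟩
      exact ⟨_, hgen ⟨d, Nat.mem_divisors.mpr ⟨hdM, NeZero.ne M⟩⟩, rfl⟩
  obtain ⟨y, hy, hyx⟩ := hle hx
  exact (Subtype.ext hyx : y = x) ▸ hy

variable {A : ValuationSubring Qb}

/-- The images of `levelField E M` are quotients of bounded series over any discretely valued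
field containing `E` and the `M`th roots of unity. -/
theorem emb_mem_fracOver {L : Subfield Qb} {ϖ : Qb} (hd : (resData A).Discrete L ϖ)
    (hEL : (inertiaField A).toSubfield ≤ L) (hζ : ∀ z : Qb, z ^ M = 1 → z ∈ L) (ι : Emb M)
    {x : modularFunctionFieldBar M}
    (hx : (x : LaurentSeries Qb) ∈ levelField (inertiaField A) M) :
    ι.1 x ∈ (resData A).fracOver L ϖ ((resData A).A.nonunits_le hd.nonunit) := by
  set hϖ := (resData A).A.nonunits_le hd.nonunit
  refine levelField_induction (((resData A).fracOver L ϖ hϖ).comap ι.1.toRingHom)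
    (fun c hc => ?_) (fun d => ?_) hx
  · rw [Subfield.mem_comap]
    show ι.1 (algebraMap Qb _ c) ∈ _
    rw [AlgHom.commutes, algebraMap_laurentSeries_eq_single, ← HahnSeries.C_apply]
    refine Subfield.subset_closure ⟨ResidueData.mem_overSubfield.mpr fun n => ?_, ?_⟩
    · by_cases hn : n = 0
      · subst hn; simpa [HahnSeries.C_apply] using hEL hc
      · simp [HahnSeries.C_apply, HahnSeries.coeff_single_of_ne hn]
    · obtain ⟨j, hj⟩ := hd.archimedean c
      refine ⟨j, ?_⟩
      rw [← map_mul, mul_comm]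
      exact (resData A).C_mem_intSeries hj
  · refine Subfield.subset_closure ?_
    have h := emb_gen_coeff_mem (M := M) (Local.intOver (resData A) L) (fun z hz =>
      ⟨FlatBound.mem_of_pow_eq_one (Nat.pos_of_ne_zero (NeZero.ne M)) hz, hζ z hz⟩) ι d
    refine ⟨ResidueData.mem_overSubfield.mpr fun n => (h n).2, 0, ?_⟩
    rw [pow_zero, map_one, one_mul]
    exact (resData A).mem_intSeries.mpr fun n => (h n).1

/-- One finite extension of the inertia field serves all embeddings. -/
theorem exists_discrete_fracOver {q : ℕ} (hA : A.LiesOverPrime q) (hq : q.Prime)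
    (S : Finset Qb) :
    ∃ (L : Subfield Qb) (ϖ : Qb) (hd : (resData A).Discrete L ϖ),
      (inertiaField A).toSubfield ≤ L ∧ (∀ z : Qb, z ^ M = 1 → z ∈ L) ∧ (∀ c ∈ S, c ∈ L) ∧
      ∀ (ι : Emb M) (x : modularFunctionFieldBar M),
        (x : LaurentSeries Qb) ∈ levelField (inertiaField A) M →
          ι.1 x ∈ (resData A).fracOver L ϖ ((resData A).A.nonunits_le hd.nonunit) := by
  classical
  obtain ⟨L, hfin, hL⟩ := Local.exists_finite_extension (A := A)
    ((nthRoots M (1 : Qb)).toFinset ∪ S)
  obtain ⟨ϖ, hd⟩ := Local.exists_discrete hA hq L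
  have hEL : (inertiaField A).toSubfield ≤ L.toSubfield := fun c hc =>
    L.algebraMap_mem ⟨c, hc⟩
  have hζ : ∀ z : Qb, z ^ M = 1 → z ∈ L.toSubfield := fun z hz =>
    hL z (Finset.mem_union_left _
      (Multiset.mem_toFinset.mpr ((mem_nthRoots (Nat.pos_of_ne_zero (NeZero.ne M))).mpr hz)))
  exact ⟨L.toSubfield, ϖ, hd, hEL, hζ, fun c hc => hL c (Finset.mem_union_right _ hc),
    fun ι x hx => emb_mem_fracOver hd hEL hζ ι hx⟩

end Fermat.Agent.CarayolFF
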