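import Fermat.Agent.CarayolFF.Span

/-!
# The three components of the special fibre of the model of level `q²N`

Every prime of the model containing `q` contains one of the three kernels, these are incomparable,
`P20` is unramified over `q`, `P11` has ramification at most `q - 1`, and divisibility by `q` is
detected on the components.
-/

set_option autoImplicit false

noncomputable section

open ModularCurve IntermediateField Polynomial
open Fermat.Agent.ModularFunctionField
open Fermat.Agent.Carayol Fermat.Agent.KummerReduction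

namespace Fermat.Agent.CarayolFF

local notation "Qb" => AlgebraicClosure ℚ

variable {A : ValuationSubring Qb} {q N : ℕ} [NeZero q] [NeZero N]

theorem isUnitSeries_of_resHom_ne (hA : A.LiesOverPrime q) (hq : q.Prime) (hqN : ¬ q ∣ N)
    {i : Fin 3} {x : model A (q ^ 2 * N)} (h : resHom hA hq hqN i x ≠ 0) :
    (resData A).IsUnitSeries (compHom hq hqN i x) :=
  ⟨compHom_mem_intSeries hA hq hqN i x.2, h⟩

/-- On the outer components a zero reduction means divisibility by `q`. -/
theorem qDiv_of_resHom_eq_zero (hA : A.LiesOverPrime q) (hq : q.Prime) (hqN : ¬ q ∣ N) {i : Fin 3}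
    (hi : i ≠ 1) {x : model A (q ^ 2 * N)} (h : resHom hA hq hqN i x = 0) :
    QDiv A q (compHom hq hqN i x) := by
  refine qDiv_of_redSeries_eq_zero hA hq (compHom_mem_intSeries hA hq hqN i x.2) (fun n => ?_) h
  fin_cases i
  · exact coeff_mem_of_mem_levelField (levelField_of_mem_model x.2) n
  · exact absurd rfl hi
  · exact coeff_mem_of_mem_levelField (atkin_mem_levelField hq hqN (levelField_of_mem_model x.2)) n

/-- Elements of the model have a relation with denominator a unit on all components. -/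
theorem exists_relation_model (hA : A.LiesOverPrime q) (hq : q.Prime) (hqN : ¬ q ∣ N)
    (x : model A (q ^ 2 * N)) :
    ∃ (D : Polynomial (unramInt A)) (P : BasisIdx q N → Polynomial (unramInt A)),
      D.map (wRes A) ≠ 0 ∧ polyEl A q N D * x = comb A q N P := by
  obtain ⟨D, P, hrel, hne⟩ := exists_relation_W hA hq hqN (levelField_of_mem_model x.2)
  have hrel' : polyEl A q N D * x = comb A q N P := Subtype.ext hrel
  refine ⟨D, P, fun hD => ?_, hrel'⟩
  refine hne.elim (fun h' => h' hD) fun ⟨y, hy⟩ => hy (map_eq_zero_of_qDiv hA hq hqN P ?_ y)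
  intro i
  rw [← hrel']
  exact qDiv_polyEl hA hq hqN i hD x

theorem resHom_polyEl_ne_zero (hA : A.LiesOverPrime q) (hq : q.Prime) (hqN : ¬ q ∣ N) (i : Fin 3)
    {D : Polynomial (unramInt A)} (h : D.map (wRes A) ≠ 0) :
    resHom hA hq hqN i (polyEl A q N D) ≠ 0 := by
  obtain ⟨a0, a1, a2, -⟩ := resHom_jAt (N := N) hA hq hqN
  set k := IsLocalRing.ResidueField A
  have htr : ∀ P : Polynomial k, aeval (jqModC k) P = 0 → P = 0 := fun P hP => by
    refine evalJT_injective (R := k) 1 ?_
    rw [map_zero, evalJT_eq, qExpand_one_apply, ← hP, aeval_def]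
    congr 1
    refine RingHom.ext fun c => ?_
    rw [algebraMap_laurentSeries_eq_single]
    rfl
  rw [resHom_polyEl]
  intro h0
  fin_cases i
  · exact h (htr _ (a0 ▸ h0))
  · exact h (htr _ (a1 ▸ h0))
  · refine h ?_
    have h1 : aeval (jqModC k ^ q ^ 2) (D.map (wRes A)) = 0 := a2 ▸ h0
    rw [← expand_aeval (q ^ 2)] at h1
    exact (expand_eq_zero (Nat.pos_of_ne_zero (pow_ne_zero 2 (NeZero.ne q)))).mp (htr _ h1)

/-- The middle reduction only sees the middle part of degree `0`. -/
theorem resHom_one_comb (hA : A.LiesOverPrime q) (hq : q.Prime) (hqN : ¬ q ∣ N)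
    (P : BasisIdx q N → Polynomial (unramInt A)) (e₀ : Fin (q - 1)) (he₀ : (e₀ : ℕ) = 0) :
    resHom hA hq hqN 1 (comb A q N P) = resHom hA hq hqN 1 (midPart A q N P e₀) := by
  have hq1 : q - 1 ≠ 0 := by have := hq.two_le; omega
  rw [comb_eq, map_add, map_mul, map_pow, resHom_sep_self, zero_pow hq1, zero_mul, zero_add, map_sum,
    Finset.sum_eq_single e₀ (fun e _ he => ?_) (fun h => absurd (Finset.mem_univ _) h)]
  · rw [map_mul, map_pow, he₀, pow_zero, one_mul]
  · rw [map_mul, map_pow, resHom_sep_self,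
      zero_pow (fun h => he (Fin.ext (h.trans he₀.symm))), zero_mul]

/-- On the middle component a zero reduction means divisibility of the `q - 1` power by `q`. -/
theorem qDiv_pow_of_resHom_one_eq_zero (hA : A.LiesOverPrime q) (hq : q.Prime) (hqN : ¬ q ∣ N)
    {x : model A (q ^ 2 * N)} (h : resHom hA hq hqN 1 x = 0) :
    QDiv A q (compHom hq hqN 1 (x : modularFunctionFieldBar (q ^ 2 * N)) ^ (q - 1)) := by
  obtain ⟨D, P, hD, hrel⟩ := exists_relation_model hA hq hqN x
  obtain ⟨η, hη, hmid⟩ := exists_middle_sep_one (N := N) hA hq hqN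
  obtain ⟨ε, -, hε⟩ := exists_zeta_rel hA hq
  obtain ⟨δ, -, hδ⟩ := exists_zeta_pow_div hA hq
  obtain ⟨L, ϖ, hd, hL⟩ := exists_discrete_comp (N := N) hA hq hqN
  set v : Qb := (zetaUnit q : Qb) - 1
  have hvA : v ∈ A := A.nonunits_le (zeta_sub_one_mem_nonunits hA hq)
  have hint : ∀ y : model A (q ^ 2 * N), middle hq hqN y ∈ (resData A).intSeries :=
    fun y => compHom_mem_intSeries hA hq hqN 1 y.2
  have h2 := hq.two_le
  set e₀ : Fin (q - 1) := ⟨0, by omega⟩
  have h0 : resHom hA hq hqN 1 (midPart A q N P e₀) = 0 := by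
    rw [← resHom_one_comb hA hq hqN P e₀ rfl, ← hrel, map_mul, h, mul_zero]
  -- the combination is `v` times an integral series
  obtain ⟨z₀, hz₀, hz₀'⟩ := qDiv_midPart_of_map hA hq hqN P e₀
    (fun a => map_eq_zero_mid_of_resHom hA hq hqN P e₀ h0 a)
  obtain ⟨z, hz, hcomb⟩ : ∃ z ∈ (resData A).intSeries,
      middle hq hqN (comb A q N P) = HahnSeries.C v * z := by
    refine ⟨HahnSeries.C (v ^ (q - 2)) * η ^ (q - 1) * middle hq hqN (outerPart A q N P) +
      ∑ e, (if e = e₀ then HahnSeries.C (v ^ (q - 2) * (ε : Qb)) * z₀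
        else HahnSeries.C (v ^ ((e : ℕ) - 1)) * η ^ (e : ℕ) * middle hq hqN (midPart A q N P e)),
      add_mem (mul_mem (mul_mem ((resData A).C_mem_intSeries (pow_mem hvA _))
        (pow_mem hη.mem _)) (hint _)) (sum_mem fun e _ => ?_), ?_⟩
    · split
      · exact mul_mem ((resData A).C_mem_intSeries (mul_mem (pow_mem hvA _) ε.2)) hz₀
      · exact mul_mem (mul_mem ((resData A).C_mem_intSeries (pow_mem hvA _)) (pow_mem hη.mem _))
          (hint _)
    rw [comb_eq, Subring.coe_add, Subring.coe_mul, map_add, map_mul,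
      AddSubmonoidClass.coe_finsetSum, map_sum, mul_add, Finset.mul_sum]
    have hpow : ∀ n : ℕ, n ≠ 0 → HahnSeries.C v * HahnSeries.C (v ^ (n - 1)) =
        (HahnSeries.C v : LaurentSeries Qb) ^ n := fun n hn => by
      rw [← map_mul, ← pow_succ', Nat.sub_add_cancel (Nat.one_le_iff_ne_zero.mpr hn), map_pow]
    congr 1
    · rw [SubmonoidClass.coe_pow, map_pow, hmid, mul_pow, ← mul_assoc, ← mul_assoc,
        ← hpow (q - 1) (by omega), show q - 1 - 1 = q - 2 by omega]
    · refine Finset.sum_congr rfl fun e _ => ?_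
      rw [Subring.coe_mul, map_mul, SubmonoidClass.coe_pow, map_pow, hmid, mul_pow]
      by_cases he : e = e₀
      · subst he
        have hqv : (q : Qb) = v * (v ^ (q - 2) * (ε : Qb)) := by
          rw [hε, ← mul_assoc, ← pow_succ', show q - 2 + 1 = q - 1 by omega]
        rw [if_pos rfl, show ((e₀ : Fin (q - 1)) : ℕ) = 0 from rfl, pow_zero, pow_zero, one_mul,
          one_mul, hz₀', hqv, map_mul, mul_assoc]
      · rw [if_neg he, ← mul_assoc, ← mul_assoc, hpow]
        intro h'
        exact he (Fin.ext h')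
  -- divide by the denominator
  have hC : (HahnSeries.C (q : Qb) : LaurentSeries Qb) ≠ 0 :=
    HahnSeries.C_ne_zero (Nat.cast_ne_zero.mpr hq.ne_zero)
  set y := HahnSeries.C (q : Qb)⁻¹ * compHom hq hqN 1 (x : modularFunctionFieldBar (q ^ 2 * N)) ^
    (q - 1) with hy
  have hy' : compHom hq hqN 1 (x : modularFunctionFieldBar (q ^ 2 * N)) ^ (q - 1) =
      HahnSeries.C (q : Qb) * y := by
    rw [hy, ← mul_assoc, ← map_mul, mul_inv_cancel₀ (Nat.cast_ne_zero.mpr hq.ne_zero), map_one,
      one_mul]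
  refine ⟨y, ?_, hy'⟩
  refine hd.mem_of_mul_mem ?_ (Nat.cast_ne_zero.mpr hq.ne_zero : (q : Qb) ≠ 0) ?_
    (isUnitSeries_of_resHom_ne hA hq hqN (i := 1)
      (x := polyEl A q N D ^ (q - 1)) (by
        rw [map_pow]; exact pow_ne_zero _ (resHom_polyEl_ne_zero hA hq hqN 1 hD))) ?_
  · refine mul_mem (ResidueData.mem_overSubfield.mpr fun n => ?_)
      (pow_mem ((hL _ (levelField_of_mem_model x.2)).1 1) _)
    by_cases hn : n = 0
    · subst hn
      rw [HahnSeries.C_apply, HahnSeries.coeff_single_same]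
      exact inv_mem (_root_.natCast_mem L q)
    · rw [HahnSeries.C_apply, HahnSeries.coeff_single_of_ne hn]
      exact zero_mem _
  · rw [← hy']
    exact pow_mem (compHom_mem_intSeries hA hq hqN 1 x.2) _
  · rw [SubmonoidClass.coe_pow, map_pow, hy, mul_assoc, ← mul_pow, mul_comm (compHom hq hqN 1 _),
      ← map_mul, ← Subring.coe_mul, hrel, compHom_one, hcomb, mul_pow, ← map_pow, hδ, map_mul,
      mul_assoc (HahnSeries.C (q : Qb)), ← mul_assoc, ← map_mul,
      inv_mul_cancel₀ (Nat.cast_ne_zero.mpr hq.ne_zero : (q : Qb) ≠ 0), map_one, one_mul]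
    exact mul_mem ((resData A).C_mem_intSeries δ.2) (pow_mem hz _)

variable (A q N) in
/-- The product of the separating functions of the other components. -/
def killer (i : Fin 3) : model A (q ^ 2 * N) :=
  (if i = 0 then 1 else sep A q N 0) * (if i = 1 then 1 else sep A q N 1 ^ (q - 1)) *
    if i = 2 then 1 else sep A q N 2

theorem resHom_killer_ne (hA : A.LiesOverPrime q) (hq : q.Prime) (hqN : ¬ q ∣ N) (i : Fin 3) :
    resHom hA hq hqN i (killer A q N i) ≠ 0 := by
  rw [killer, map_mul, map_mul]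
  refine mul_ne_zero (mul_ne_zero ?_ ?_) ?_ <;> split
  all_goals first
    | (rw [map_one]; exact one_ne_zero)
    | (rw [map_pow]; exact pow_ne_zero _ (resHom_sep_ne hA hq hqN (by assumption)))
    | exact resHom_sep_ne hA hq hqN (by assumption)

theorem qDiv_killer (hA : A.LiesOverPrime q) (hq : q.Prime) (hqN : ¬ q ∣ N) {i k : Fin 3}
    (h : k ≠ i) : QDiv A q (compHom hq hqN k (killer A q N i)) := by
  have hint : ∀ y : model A (q ^ 2 * N), compHom hq hqN k y ∈ (resData A).intSeries :=
    fun y => compHom_mem_intSeries hA hq hqN k y.2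
  simp only [killer, Subring.coe_mul, map_mul]
  by_cases hk : k = 1
  · subst hk
    simp only [compHom_one] at hint ⊢
    rw [if_neg (Ne.symm h)]
    exact ((qDiv_middle_sep_one hA hq hqN).mul_left (hint _)).mul_right (hint _)
  by_cases hk0 : k = 0
  · subst hk0
    rw [if_neg (Ne.symm h)]
    exact ((qDiv_compHom_sep hA hq hqN hk).mul_right (hint _)).mul_right (hint _)
  · have hk2 : k = 2 := by omega
    subst hk2
    rw [if_neg (Ne.symm h) (t := (1 : model A (q ^ 2 * N))) (e := sep A q N 2)]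
    exact (qDiv_compHom_sep hA hq hqN hk).mul_left (mul_mem (hint _) (hint _))

/-- Divisibility by a power of `q` from divisibility on the components. -/
theorem natCast_pow_dvd_of_components (hA : A.LiesOverPrime q) (hq : q.Prime) (hqN : ¬ q ∣ N)
    (b : model A (q ^ 2 * N)) (m : ℕ)
    (h : ∀ i, ∃ s, resHom hA hq hqN i s ≠ 0 ∧ (q : model A (q ^ 2 * N)) ^ m ∣ s * b) :
    (q : model A (q ^ 2 * N)) ^ m ∣ b := by
  refine natCast_pow_dvd_of_comp hA hq hqN b m fun i => ?_
  obtain ⟨s, hs, c, hc⟩ := h i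
  refine ⟨_, isUnitSeries_of_resHom_ne hA hq hqN hs, _, compHom_mem_intSeries hA hq hqN i c.2, ?_⟩
  rw [mul_comm, ← map_mul, ← Subring.coe_mul, hc, Subring.coe_mul, map_mul, SubmonoidClass.coe_pow,
    map_pow, Subring.coe_natCast, map_natCast, map_pow, map_natCast]

/-- `q ∣ b` is detected on the components. -/
theorem natCast_dvd_of_components (hA : A.LiesOverPrime q) (hq : q.Prime) (hqN : ¬ q ∣ N)
    (b : model A (q ^ 2 * N))
    (h : ∀ i, ∃ s, resHom hA hq hqN i s ≠ 0 ∧ (q : model A (q ^ 2 * N)) ∣ s * b) :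
    (q : model A (q ^ 2 * N)) ∣ b := by
  simpa using natCast_pow_dvd_of_components hA hq hqN b 1 (by simpa using h)

/-- `q ∣ b` from the three expansions. -/
theorem natCast_dvd_of_qDiv (hA : A.LiesOverPrime q) (hq : q.Prime) (hqN : ¬ q ∣ N)
    (b : model A (q ^ 2 * N)) (h : ∀ i, QDiv A q (compHom hq hqN i b)) :
    (q : model A (q ^ 2 * N)) ∣ b := by
  have h1 := natCast_pow_dvd_of_comp hA hq hqN b 1 fun i => ?_
  · simpa using h1
  obtain ⟨z, hz, hz'⟩ := h i
  exact ⟨1, (resData A).isUnitSeries_one, z, hz, by rw [pow_one, mul_one]; exact hz'⟩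

/-- `P20` and `P02` are unramified over `q`. -/
theorem exists_dvd_of_resHom_eq_zero (hA : A.LiesOverPrime q) (hq : q.Prime) (hqN : ¬ q ∣ N)
    {i : Fin 3} (hi : i ≠ 1) {x : model A (q ^ 2 * N)} (h : resHom hA hq hqN i x = 0) :
    ∃ s, resHom hA hq hqN i s ≠ 0 ∧ (q : model A (q ^ 2 * N)) ∣ s * x := by
  refine ⟨killer A q N i, resHom_killer_ne hA hq hqN i,
    natCast_dvd_of_qDiv hA hq hqN _ fun k => ?_⟩
  rw [Subring.coe_mul, map_mul]
  rcases eq_or_ne k i with rfl | hk
  · exact (qDiv_of_resHom_eq_zero hA hq hqN hi h).mul_left (compHom_mem_intSeries hA hq hqN k (killer A q N k).2)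
  · exact (qDiv_killer hA hq hqN hk).mul_right (compHom_mem_intSeries hA hq hqN k x.2)

/-- `P11` has ramification at most `q - 1`. -/
theorem exists_dvd_pow_of_resHom_one_eq_zero (hA : A.LiesOverPrime q) (hq : q.Prime)
    (hqN : ¬ q ∣ N) {x : model A (q ^ 2 * N)} (h : resHom hA hq hqN 1 x = 0) :
    ∃ s, resHom hA hq hqN 1 s ≠ 0 ∧ (q : model A (q ^ 2 * N)) ∣ s * x ^ (q - 1) := by
  refine ⟨killer A q N 1, resHom_killer_ne hA hq hqN 1,
    natCast_dvd_of_qDiv hA hq hqN _ fun k => ?_⟩
  rw [Subring.coe_mul, map_mul]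
  rcases eq_or_ne k 1 with rfl | hk
  · rw [SubmonoidClass.coe_pow, map_pow]
    exact (qDiv_pow_of_resHom_one_eq_zero hA hq hqN h).mul_left
      (compHom_mem_intSeries hA hq hqN 1 (killer A q N 1).2)
  · exact (qDiv_killer hA hq hqN hk).mul_right
      (compHom_mem_intSeries hA hq hqN k (x ^ (q - 1)).2)

/-- Every prime containing `q` contains one of the three kernels. -/
theorem exists_ker_le (hA : A.LiesOverPrime q) (hq : q.Prime) (hqN : ¬ q ∣ N)
    (p : Ideal (model A (q ^ 2 * N))) (hp : p.IsPrime) (hqp : (q : model A (q ^ 2 * N)) ∈ p) :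
    ∃ i, RingHom.ker (resHom hA hq hqN i) ≤ p := by
  by_contra hcon
  push Not at hcon
  choose x hx hxp using fun i => SetLike.not_le_iff_exists.mp (hcon i)
  set y := x 0 * x 1 * x 2
  have hy : y ∉ p := fun h => (hp.mem_or_mem h).elim
    (fun h' => (hp.mem_or_mem h').elim (hxp 0) (hxp 1)) (hxp 2)
  have hres : ∀ i, resHom hA hq hqN i y = 0 := fun i => by
    have h0 : resHom hA hq hqN i (x i) = 0 := hx i
    simp only [y, map_mul]
    fin_cases i <;> simp_all
  refine hy (hp.mem_of_pow_mem (q - 1) (Ideal.mem_of_dvd p ?_ hqp))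
  refine natCast_dvd_of_qDiv hA hq hqN _ fun i => ?_
  rw [SubmonoidClass.coe_pow, map_pow]
  rcases eq_or_ne i 1 with rfl | hi
  · exact qDiv_pow_of_resHom_one_eq_zero hA hq hqN (hres 1)
  · obtain ⟨r, hr⟩ : ∃ r, q - 1 = r + 1 := ⟨q - 2, by have := hq.two_le; omega⟩
    rw [hr, pow_succ]
    exact (qDiv_of_resHom_eq_zero hA hq hqN hi (hres i)).mul_left
      (pow_mem (compHom_mem_intSeries hA hq hqN i y.2) _)

/-- The three kernels are incomparable. -/
theorem eq_of_ker_le (hA : A.LiesOverPrime q) (hq : q.Prime) (hqN : ¬ q ∣ N) {i j : Fin 3}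
    (h : RingHom.ker (resHom hA hq hqN i) ≤ RingHom.ker (resHom (N := N) hA hq hqN j)) : i = j := by
  by_contra hne
  exact resHom_sep_ne hA hq hqN (Ne.symm hne) (h (resHom_sep_self hA hq hqN i))

end Fermat.Agent.CarayolFF
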