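import Fermat.Agent.CarayolFF.Bounded
import Fermat.Agent.ModularFunctionField.Base
import Mathlib.FieldTheory.Minpoly.IsIntegrallyClosed

/-!
# The affine model through the embeddings over `j`

An element of `levelField E M` lies in the model exactly when it is integral over `Qb[j]` and all
its embedded expansions are integral series.
-/

set_option autoImplicit false

noncomputable section

open ModularCurve IntermediateField Polynomial
open Fermat.Agent.ModularFunctionField
open Fermat.Agent.Carayol Fermat.Agent.KummerReduction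

namespace Fermat.Agent.CarayolFF

local notation "Qb" => AlgebraicClosure ℚ

variable {M : ℕ} [NeZero M]

/-! ### Galois conjugation of embeddings -/

theorem coeffMap_coeffEmb (σ : Qb ≃ₐ[ℚ] Qb) (x : LaurentSeries ℚ) :
    coeffMap (σ : Qb →+* Qb) (coeffEmb Qb x) = coeffEmb Qb x := by
  ext n
  rw [coeffMap_coeff, coeffEmb_coeff]
  exact σ.commutes _

theorem coeffMap_qExpand_jBar (σ : Qb ≃ₐ[ℚ] Qb) (e : ℕ) [NeZero e] :
    coeffMap (σ : Qb →+* Qb) (qExpand Qb e jBar) = qExpand Qb e jBar := by
  rw [coeffMap_qExpand', jBar, coeffMap_coeffEmb]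

/-- The coefficientwise conjugate of an embedding. -/
def conjEmb (σ : Qb ≃ₐ[ℚ] Qb) (ι : Emb M) : Emb M :=
  ⟨{ ((coeffMap (σ : Qb →+* Qb)).comp ι.1.toRingHom).comp
        ((arithmeticRingAut (modularFunctionFieldFull M) σ).symm.toRingHom) with
      commutes' := fun c => by
        show coeffMap (σ : Qb →+* Qb)
          (ι.1 ((arithmeticRingAut (modularFunctionFieldFull M) σ).symm (algebraMap Qb _ c))) = _
        rw [show (arithmeticRingAut (modularFunctionFieldFull M) σ).symm (algebraMap Qb _ c) =
            algebraMap Qb _ (σ.symm c) from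
          (RingEquiv.symm_apply_eq _).mpr (by
            rw [arithmeticRingAut_algebraMap, AlgEquiv.apply_symm_apply]),
          AlgHom.commutes, coeffMap_algebraMap]
        exact congrArg _ (σ.apply_symm_apply c) },
    by
      show coeffMap (σ : Qb →+* Qb)
        (ι.1 ((arithmeticRingAut (modularFunctionFieldFull M) σ).symm (jElem M))) = _
      rw [show (arithmeticRingAut (modularFunctionFieldFull M) σ).symm (jElem M) = jElem M from
          (RingEquiv.symm_apply_eq _).mpr (Subtype.ext (coeffMap_coeffEmb σ jq).symm),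
        ι.2, coeffMap_qExpand_jBar]⟩

theorem conjEmb_apply (σ : Qb ≃ₐ[ℚ] Qb) (ι : Emb M) (x : modularFunctionFieldBar M) :
    (conjEmb σ ι).1 (arithmeticRingAut (modularFunctionFieldFull M) σ x) =
      coeffMap (σ : Qb →+* Qb) (ι.1 x) := by
  show coeffMap (σ : Qb →+* Qb) (ι.1 _) = _
  rw [RingEquiv.toRingHom_eq_coe, RingEquiv.coe_toRingHom, RingEquiv.symm_apply_apply]

theorem conjEmb_bijective (σ : Qb ≃ₐ[ℚ] Qb) : Function.Bijective (conjEmb (M := M) σ) := by
  refine Finite.injective_iff_bijective.mp fun ι ι' h => Subtype.ext (AlgHom.ext fun x => ?_)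
  apply coeffMap_injective (σ : Qb →+* Qb) σ.injective
  rw [← conjEmb_apply, ← conjEmb_apply, h]

/-- The product polynomial of a function fixed by `σ` is fixed by `σ`. -/
theorem map_prod_emb_of_fixed (σ : Qb ≃ₐ[ℚ] Qb) {x : modularFunctionFieldBar M}
    (hx : coeffMap (σ : Qb →+* Qb) (x : LaurentSeries Qb) = x) :
    (∏ ι : Emb M, (X - C (ι.1 x))).map (coeffMap (σ : Qb →+* Qb)) =
      ∏ ι : Emb M, (X - C (ι.1 x)) := by
  rw [Polynomial.map_prod]
  refine Fintype.prod_bijective _ (conjEmb_bijective σ) _ _ fun ι => ?_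
  rw [Polynomial.map_sub, map_X, map_C, ← conjEmb_apply,
    show arithmeticRingAut (modularFunctionFieldFull M) σ x = x from Subtype.ext hx]

variable {A : ValuationSubring Qb}

omit [NeZero M] in
/-- Inertia fixes the expansions of `levelField (inertiaField A) M`. -/
theorem coeffMap_levelField {σ : Qb ≃ₐ[ℚ] Qb} (hσ : σ ∈ A.inertiaSubgroupIn ℚ)
    {x : LaurentSeries Qb} (hx : x ∈ levelField (inertiaField A) M) :
    coeffMap (σ : Qb →+* Qb) x = x := by
  have hle : levelField (inertiaField A) M ≤
      (coeffMap (σ : Qb →+* Qb)).eqLocusField (RingHom.id _) := by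
    refine Subfield.closure_le.mpr (Set.union_subset ?_ ?_)
    · rintro _ ⟨c, hc, rfl⟩
      show coeffMap (σ : Qb →+* Qb) (algebraMap Qb _ c) = algebraMap Qb _ c
      rw [coeffMap_algebraMap]
      exact congrArg _ (Local.mem_inertiaField_iff.mp hc σ hσ)
    · rintro _ ⟨y, -, rfl⟩
      exact coeffMap_coeffEmb σ y
  exact hle hx

/-! ### Polynomials in `j` -/

theorem coeff_jBar_pow_self (n : ℕ) : ((jBar : LaurentSeries Qb) ^ n).coeff (-(n : ℤ)) = 1 := by
  rw [jBar, ← map_pow, coeffEmb_coeff, coeff_jq_pow_self, map_one]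

theorem coeff_jBar_pow_of_lt {n : ℕ} {m : ℤ} (hm : m < -(n : ℤ)) :
    ((jBar : LaurentSeries Qb) ^ n).coeff m = 0 := by
  rw [jBar, ← map_pow, coeffEmb_coeff, coeff_jq_pow_of_lt hm, map_zero]

theorem coeff_aeval_jBar (P : Qb[X]) (n : ℤ) :
    (aeval jBar P).coeff n =
      ∑ i ∈ Finset.range (P.natDegree + 1), P.coeff i * (jBar ^ i : LaurentSeries Qb).coeff n := by
  rw [aeval_eq_sum_range, HahnSeries.coeff_sum]
  refine Finset.sum_congr rfl fun i _ => ?_
  rw [Algebra.smul_def, algebraMap_laurentSeries_eq_single, ← HahnSeries.C_apply,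
    ResidueData.coeff_C_mul]

/-- A polynomial in `j` with coefficients of its expansion in a subring has coefficients there. -/
theorem coeff_mem_of_aeval_jBar (O : Subring Qb) (P : Qb[X])
    (h : ∀ n, (aeval jBar P).coeff n ∈ O) (i : ℕ) : P.coeff i ∈ O := by
  induction hd : P.natDegree using Nat.strong_induction_on generalizing P with
  | _ d ih =>
    subst hd
    by_cases hP : P = 0
    · subst hP; simp [zero_mem]
    have hlc : P.leadingCoeff ∈ O := by
      have h1 := h (-(P.natDegree : ℤ))
      rw [coeff_aeval_jBar, Finset.sum_range_succ, coeff_jBar_pow_self, mul_one,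
        Finset.sum_eq_zero (fun j hj => by
          rw [coeff_jBar_pow_of_lt (by have := Finset.mem_range.mp hj; omega), mul_zero]),
        zero_add] at h1
      exact h1
    have hpow : ∀ (m : ℕ) (n : ℤ), ((jBar : LaurentSeries Qb) ^ m).coeff n ∈ O := by
      intro m n
      rw [jBar, ← map_pow, ← jqModC_rat, ← coeffMap_jqC (Int.castRingHom ℚ), ← map_pow,
        coeffEmb_coeff, coeffMap_coeff]
      rw [eq_intCast, map_intCast]
      exact intCast_mem O _
    by_cases hi : i = P.natDegree
    · subst hi; exact hlc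
    rcases Nat.eq_zero_or_pos P.natDegree with h0 | h0
    · rw [coeff_eq_zero_of_natDegree_lt (by omega)]; exact zero_mem _
    have hlt : P.eraseLead.natDegree < P.natDegree := by
      rcases P.eraseLead_natDegree_lt_or_eraseLead_eq_zero with h' | h'
      · exact h'
      · rw [h', natDegree_zero]; exact h0
    have := ih _ hlt P.eraseLead (fun n => ?_) rfl
    · rwa [eraseLead_coeff_of_ne i hi] at this
    · rw [show P.eraseLead = P - Polynomial.C P.leadingCoeff * X ^ P.natDegree from
          (self_sub_C_mul_X_pow P).symm, map_sub, map_mul, aeval_C, map_pow, aeval_X,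
        HahnSeries.coeff_sub, algebraMap_laurentSeries_eq_single, ← HahnSeries.C_apply,
        ResidueData.coeff_C_mul]
      exact sub_mem (h n) (mul_mem hlc (hpow _ n))

theorem aeval_jBar_mem_jPolyRing (O : Subring Qb) (P : Qb[X]) (h : ∀ i, P.coeff i ∈ O) :
    aeval jBar P ∈ jPolyRing O := by
  rw [aeval_eq_sum_range]
  refine sum_mem fun i _ => ?_
  rw [Algebra.smul_def]
  exact mul_mem (Subring.subset_closure (Or.inl ⟨_, h i, rfl⟩))
    (pow_mem (Subring.subset_closure (Set.mem_union_right _ rfl) : jBar ∈ jPolyRing O) i)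

/-! ### The criterion -/

variable (M) in
/-- Integrality over `Qb[j]`. -/
def IsPolyIntegral (x : modularFunctionFieldBar M) : Prop :=
  (aeval (R := Qb) (jElem M)).toRingHom.IsIntegralElem x

theorem emb_comp_aeval (ι : Emb M) :
    ι.1.toRingHom.comp (aeval (R := Qb) (jElem M)).toRingHom = evalJT Qb M := by
  refine Polynomial.ringHom_ext (fun c => ?_) ?_
  · show ι.1 (aeval (jElem M) (Polynomial.C c)) = _
    rw [aeval_C, AlgHom.commutes, evalJT_C, algebraMap_laurentSeries_eq_single]
    rfl
  · show ι.1 (aeval (jElem M) (X : Qb[X])) = _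
    rw [aeval_X, ι.2, evalJT_X, jT, jBar, coeffEmb, ← jqModC_rat, coeffMap_jqC]

theorem evalJT_eq_qExpand (P : Qb[X]) : evalJT Qb M P = qExpand Qb M (aeval jBar P) := by
  rw [← emb_comp_aeval (idEmb M), RingHom.comp_apply]
  show qExpand Qb M ((aeval (jElem M) P : modularFunctionFieldBar M) : LaurentSeries Qb) = _
  congr 1
  rw [← IntermediateField.coe_val, ← Polynomial.aeval_algHom_apply]
  rfl

theorem bigJ_mem_baseField (c : baseJ M) : bigJ M c ∈ baseField Qb M := by
  have h : (baseJ M).map (idEmb M).1 = baseField Qb M := by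
    rw [IntermediateField.adjoin_map, Set.image_singleton, (idEmb M).2, baseField, jT, jBar,
      coeffEmb, ← jqModC_rat, coeffMap_jqC]
  exact h ▸ ⟨c, c.2, rfl⟩

/-- If `x` is integral over `Qb[j]`, the coefficients of its characteristic polynomial are
polynomials in `j`. -/
theorem exists_charPolyJ_coeff_eq {x : modularFunctionFieldBar M} (hx : IsPolyIntegral M x)
    (n : ℕ) : ∃ P : Qb[X],
      (((charPolyJ M x).coeff n : modularFunctionFieldBar M) : LaurentSeries Qb) =
        aeval jBar P := by
  let _ : Algebra Qb[X] (LaurentSeries Qb) := (evalJT Qb M).toAlgebra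
  let S := integralClosure Qb[X] (LaurentSeries Qb)
  have hroots : ∀ ι : Emb M, ι.1 x ∈ S := by
    intro ι
    obtain ⟨P, hP, hPx⟩ := hx
    refine ⟨P, hP, ?_⟩
    have h := congrArg ι.1.toRingHom hPx
    rwa [map_zero, Polynomial.hom_eval₂, emb_comp_aeval] at h
  have hmem : bigJ M ((charPolyJ M x).coeff n) ∈ S := by
    have h : (∏ ι : Emb M, (X - C (⟨_, hroots ι⟩ : S))).map S.val.toRingHom =
        (charPolyJ M x).map (bigJ M : baseJ M →+* LaurentSeries Qb) := by
      rw [charPolyJ_map, Polynomial.map_prod]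
      exact Finset.prod_congr rfl fun ι _ => by rw [Polynomial.map_sub, map_X, map_C]; rfl
    have h' := congrArg (fun p : Polynomial (LaurentSeries Qb) => p.coeff n) h
    simp only [Polynomial.coeff_map] at h'
    exact h' ▸ ((∏ ι : Emb M, (X - C (⟨_, hroots ι⟩ : S))).coeff n).2
  obtain ⟨P, hP⟩ := mem_range_of_isIntegralElem (bigJ_mem_baseField _) hmem
  exact ⟨P, qExpand_injective M (hP.symm.trans (evalJT_eq_qExpand P))⟩

/-- An element of `levelField E M` integral over `Qb[j]` with integral expansions under all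
embeddings lies in the model. -/
theorem mem_model_of_emb {x : modularFunctionFieldBar M}
    (hx : (x : LaurentSeries Qb) ∈ levelField (inertiaField A) M) (hint : IsPolyIntegral M x)
    (hι : ∀ ι : Emb M, ι.1 x ∈ (resData A).intSeries) : x ∈ model A M := by
  refine (mem_model_iff A M).mpr ⟨hx, ?_⟩
  set v := (modularFunctionFieldBar M).val.toRingHom.comp (baseJ M).val.toRingHom
  set p := (charPolyJ M x).map v with hp
  have hcoeff : ∀ n, p.coeff n ∈ jPolyRing (unramInt A) := by
    intro n
    obtain ⟨P, hP⟩ := exists_charPolyJ_coeff_eq hint n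
    rw [hp, Polynomial.coeff_map]
    show (((charPolyJ M x).coeff n : modularFunctionFieldBar M) : LaurentSeries Qb) ∈ _
    rw [hP]
    refine aeval_jBar_mem_jPolyRing _ _ (coeff_mem_of_aeval_jBar _ P fun m => ?_)
    have hc : (∏ ι : Emb M, (X - C (ι.1 x))).coeff n = qExpand Qb M (aeval jBar P) := by
      rw [← charPolyJ_map, Polynomial.coeff_map, ← hP]; rfl
    refine mem_unramInt_iff.mpr ⟨?_, fun σ hσ => ?_⟩
    · have hlift : ∏ ι : Emb M, (X - C (ι.1 x)) =
          (∏ ι : Emb M, (X - C (⟨_, hι ι⟩ : (resData A).intSeries))).map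
            (resData A).intSeries.subtype := by
        rw [Polynomial.map_prod]
        exact Finset.prod_congr rfl fun ι _ => by rw [Polynomial.map_sub, map_X, map_C]; rfl
      have h' : qExpand Qb M (aeval jBar P) ∈ (resData A).intSeries := by
        rw [← hc, hlift, Polynomial.coeff_map]
        exact SetLike.coe_mem _
      have := (resData A).mem_intSeries.mp h' ((M : ℤ) * m)
      rwa [qExpand_coeff_mul] at this
    · have h := congrArg (fun p : Polynomial (LaurentSeries Qb) => p.coeff n)
        (map_prod_emb_of_fixed σ (coeffMap_levelField hσ hx))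
      simp only [Polynomial.coeff_map, hc, coeffMap_qExpand'] at h
      have h2 := congrArg (fun y : LaurentSeries Qb => y.coeff m) (qExpand_injective M h)
      simp only [coeffMap_coeff] at h2
      exact h2
  refine ⟨p.toSubring _ fun c hc => ?_, ((monic_toSubring _ _ _).mpr ((charPolyJ_monic x).map v)),
    ?_⟩
  · obtain ⟨n, -, rfl⟩ := mem_coeffs_iff.mp hc
    exact hcoeff n
  · show eval₂ (jPolyRing (unramInt A)).subtype (x : LaurentSeries Qb) _ = 0
    rw [← Polynomial.eval_map]
    erw [map_toSubring]
    rw [hp, Polynomial.eval_map]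
    show eval₂ _ ((modularFunctionFieldBar M).val.toRingHom x) _ = 0
    rw [← Polynomial.hom_eval₂]
    show (modularFunctionFieldBar M).val.toRingHom (aeval x (charPolyJ M x)) = 0
    rw [charPolyJ_eval, map_zero]

theorem jPolyRing_le_range (O : Subring Qb) :
    jPolyRing O ≤ ((aeval (R := Qb) jBar).toRingHom.comp (mapRingHom O.subtype)).range := by
  refine Subring.closure_le.mpr (Set.union_subset ?_ ?_)
  · rintro _ ⟨c, hc, rfl⟩
    exact ⟨Polynomial.C ⟨c, hc⟩, by simp⟩
  · rintro _ rfl
    exact ⟨X, by simp⟩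

/-- An element of the model is a root of a monic polynomial over `W[j]`, as seen in the function
field. -/
theorem exists_poly_of_mem_model {x : modularFunctionFieldBar M} (hx : x ∈ model A M) :
    ∃ Q : Polynomial (Polynomial (unramInt A)), Q.Monic ∧
      eval₂ ((aeval (R := Qb) (jElem M)).toRingHom.comp (mapRingHom (unramInt A).subtype)) x Q
        = 0 := by
  obtain ⟨P, hP, hPx⟩ := ((mem_model_iff A M).mp hx).2
  set g := (aeval (R := Qb) jBar).toRingHom.comp (mapRingHom (unramInt A).subtype) with hg
  have hlift : P.map (jPolyRing (unramInt A)).subtype ∈ Polynomial.lifts g := by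
    rw [Polynomial.lifts_iff_coeff_lifts]
    intro n
    rw [Polynomial.coeff_map]
    exact jPolyRing_le_range _ (P.coeff n).2
  obtain ⟨Q, hQ, -, hQm⟩ := Polynomial.lifts_and_degree_eq_and_monic hlift (hP.map _)
  refine ⟨Q, hQm, (modularFunctionFieldBar M).val.toRingHom.injective ?_⟩
  rw [map_zero, Polynomial.hom_eval₂]
  have hcomp : (modularFunctionFieldBar M).val.toRingHom.comp
      ((aeval (R := Qb) (jElem M)).toRingHom.comp (mapRingHom (unramInt A).subtype)) = g := by
    rw [hg, ← RingHom.comp_assoc]
    congr 1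
    refine Polynomial.ringHom_ext (fun c => ?_) ?_
    · show ((aeval (R := Qb) (jElem M) (Polynomial.C c) : modularFunctionFieldBar M) :
        LaurentSeries Qb) = aeval jBar (Polynomial.C c)
      rw [aeval_C, aeval_C]
      rfl
    · show ((aeval (R := Qb) (jElem M) (X : Qb[X]) : modularFunctionFieldBar M) :
        LaurentSeries Qb) = aeval jBar (X : Qb[X])
      rw [aeval_X, aeval_X]
      rfl
  rw [hcomp, ← Polynomial.eval_map, hQ, Polynomial.eval_map]
  exact hPx

theorem isPolyIntegral_of_mem_model {x : modularFunctionFieldBar M} (hx : x ∈ model A M) :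
    IsPolyIntegral M x := by
  obtain ⟨Q, hQ, hQx⟩ := exists_poly_of_mem_model hx
  exact ⟨Q.map (mapRingHom (unramInt A).subtype), hQ.map _, by rw [Polynomial.eval₂_map]; exact hQx⟩

theorem levelField_of_mem_model {x : modularFunctionFieldBar M} (hx : x ∈ model A M) :
    (x : LaurentSeries Qb) ∈ levelField (inertiaField A) M := ((mem_model_iff A M).mp hx).1

/-- Elements of the model have integral expansions under all embeddings. -/
theorem emb_mem_intSeries_of_model {q : ℕ} (hA : A.LiesOverPrime q) (hq : q.Prime)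
    {x : modularFunctionFieldBar M} (hx : x ∈ model A M) (ι : Emb M) :
    ι.1 x ∈ (resData A).intSeries := by
  obtain ⟨L, ϖ, hd, hEL, -, -, hfrac⟩ := exists_discrete_fracOver (M := M) hA hq ∅
  obtain ⟨Q, hQ, hQx⟩ := exists_poly_of_mem_model hx
  refine Local.mem_intSeries_of_isIntegral hd (hfrac ι x (levelField_of_mem_model hx)) ?_
  set h := (evalJT Qb M).comp (mapRingHom (unramInt A).subtype) with hh
  have hmem : ∀ P, h P ∈ Local.seriesOver (resData A) L := by
    intro P
    induction P using Polynomial.induction_on' with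
    | add P₁ P₂ h₁ h₂ => rw [map_add]; exact add_mem h₁ h₂
    | monomial i c =>
      rw [hh, RingHom.comp_apply, coe_mapRingHom, Polynomial.map_monomial,
        ← Polynomial.C_mul_X_pow_eq_monomial, map_mul, map_pow, evalJT_C, evalJT_X]
      refine mul_mem ((Local.mem_seriesOver _).mpr fun n => ?_)
        (pow_mem ((Local.mem_seriesOver _).mpr fun n => ?_) i)
      · by_cases hn : n = 0
        · subst hn
          obtain ⟨hcA, hcE⟩ := mem_unramInt_iff.mp c.2
          exact ⟨by simpa [HahnSeries.C_apply, resData] using hcA, by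
            simpa [HahnSeries.C_apply] using hEL (Local.mem_inertiaField_iff.mpr hcE)⟩
        · simp [HahnSeries.C_apply, HahnSeries.coeff_single_of_ne hn]
      · rw [jT, ← coeffMap_jqC (Int.castRingHom Qb), ← coeffMap_qExpand', coeffMap_coeff]
        exact ⟨intCast_mem _ _, intCast_mem _ _⟩
  refine ⟨Q.map (h.codRestrict _ hmem), hQ.map _, ?_⟩
  rw [Polynomial.eval₂_map]
  show eval₂ h (ι.1 x) Q = 0
  have := congrArg ι.1.toRingHom hQx
  rwa [map_zero, Polynomial.hom_eval₂, ← RingHom.comp_assoc, emb_comp_aeval] at this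

end Fermat.Agent.CarayolFF
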