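import Fermat.Agent.Carayol.Model
import Fermat.Agent.CarayolFF.NormProd
import Fermat.Agent.ModCurveGenus.Branches
import Fermat.Agent.Gamma0Cosets.Index
import Fermat.Agent.ModularFunctionField.Compat
import Mathlib.RingTheory.RootsOfUnity.AlgebraicallyClosed

/-!
# The embeddings of the function field of level `M` over `j`

`Emb M` has `[F : Qb(j)] = ψ(M)` elements; the product over them of `ι x` is the norm to `Qb(j)`,
and the product of the `X - ι x` is a polynomial over `Qb(j)`.
-/

set_option autoImplicit false

noncomputable section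

open ModularCurve IntermediateField Polynomial
open Fermat.Agent.ModularFunctionField
open Fermat.Agent.Carayol

namespace Fermat.Agent.CarayolFF

local notation "Qb" => AlgebraicClosure ℚ

variable (M : ℕ) [NeZero M]

/-- The substitution `q ↦ s ^ M` as an algebra homomorphism. -/
def qExpandHom : LaurentSeries Qb →ₐ[Qb] LaurentSeries Qb where
  __ := qExpand Qb M
  commutes' r := by
    show qExpand Qb M (algebraMap Qb (LaurentSeries Qb) r) = _
    rw [algebraMap_laurentSeries_eq_single, qExpand_single, mul_zero]

theorem qExpandHom_apply (x : LaurentSeries Qb) : qExpandHom M x = qExpand Qb M x := rfl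

/-- The embedding `f(τ) ↦ f(Mτ)` in the parameter `s`. -/
def idEmb : Emb M := ⟨(qExpandHom M).comp (modularFunctionFieldBar M).val, rfl⟩

/-- `Qb(j)` inside the function field of level `M`. -/
abbrev baseJ : IntermediateField Qb (modularFunctionFieldBar M) := Qb⟮jElem M⟯

theorem jEl_eq_jElem : ModCurveGenus.jEl M = jElem M :=
  Subtype.ext (congrArg (coeffEmb Qb) (qExpand_one_apply jq))

theorem baseJ_eq : baseJ M = Qb⟮ModCurveGenus.jEl M⟯ := by rw [jEl_eq_jElem]

instance finiteDimensional_baseJ : FiniteDimensional (baseJ M) (modularFunctionFieldBar M) := by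
  rw [baseJ_eq]; exact ModCurveGenus.finiteDimensional_FN M

/-- `[F : Qb(j)] = ψ(M)` at level `M`. -/
theorem finrank_baseJ : Module.finrank (baseJ M) (modularFunctionFieldBar M) = dedekindPsi M := by
  rw [baseJ_eq, ModCurveGenus.finrank_eq, ← Nat.card_eq_fintype_card]
  exact Gamma0Cosets.card_cosets M

instance charZero_baseJ : CharZero (baseJ M) :=
  charZero_of_injective_algebraMap (algebraMap Qb (baseJ M)).injective

instance isSeparable_baseJ : Algebra.IsSeparable (baseJ M) (modularFunctionFieldBar M) :=
  Algebra.IsSeparable.of_integral _ _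

variable {M}

/-- All embeddings agree on `Qb(j)`. -/
theorem emb_base (ι : Emb M) (c : baseJ M) :
    ι.1 (c : modularFunctionFieldBar M) =
      qExpand Qb M ((c : modularFunctionFieldBar M) : LaurentSeries Qb) := by
  have h : ι.1.comp (baseJ M).val = (idEmb M).1.comp (baseJ M).val := by
    refine algHom_ext_of_eq_adjoin Qb rfl fun x hx => ?_
    obtain rfl := Set.mem_singleton_iff.mp hx
    exact ι.2
  exact DFunLike.congr_fun h c

variable (M)

/-- The common restriction of the embeddings to `Qb(j)`. -/
def bigJ : baseJ M →ₐ[Qb] LaurentSeries Qb := (idEmb M).1.comp (baseJ M).val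

theorem bigJ_apply (c : baseJ M) :
    bigJ M c = qExpand Qb M ((c : modularFunctionFieldBar M) : LaurentSeries Qb) := rfl

/-- `Laurent` series as an algebra over `Qb(j)` through `bigJ`. -/
abbrev bigJAlgebra : Algebra (baseJ M) (LaurentSeries Qb) := (bigJ M).toRingHom.toAlgebra

/-- `Emb M` as the embeddings over `Qb(j)`. -/
def embEquiv :
    letI := bigJAlgebra M
    Emb M ≃ (modularFunctionFieldBar M →ₐ[baseJ M] LaurentSeries Qb) :=
  letI := bigJAlgebra M
  { toFun := fun ι => { ι.1.toRingHom with commutes' := fun c => emb_base ι c }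
    invFun := fun σ =>
      ⟨{ σ.toRingHom with
          commutes' := fun r =>
            (σ.commutes (algebraMap Qb (baseJ M) r)).trans ((bigJ M).commutes r) },
        σ.commutes ⟨jElem M, mem_adjoin_simple_self Qb _⟩⟩
    left_inv := fun _ => rfl
    right_inv := fun _ => rfl }

/-- The generators `j(dτ)` have split minimal polynomials. -/
theorem splits_minpoly_gen (d : ModCurveGenus.Dvs M) :
    letI := bigJAlgebra M
    ((minpoly (baseJ M) (ModCurveGenus.gen M d)).map
      (algebraMap (baseJ M) (LaurentSeries Qb))).Splits := by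
  let := bigJAlgebra M
  obtain ⟨k, hk⟩ := d.dvd
  have : NeZero k := ⟨right_ne_zero_of_mul (hk ▸ NeZero.ne M)⟩
  obtain ⟨z, hz⟩ := HasEnoughRootsOfUnity.exists_primitiveRoot Qb M
  have hu : IsPrimitiveRoot (hz.isUnit (NeZero.ne M)).unit M := hz.isUnit_unit (NeZero.ne M)
  let g : ℤ[X] →+* baseJ M :=
    Polynomial.eval₂RingHom (Int.castRingHom _) ⟨jElem M, mem_adjoin_simple_self Qb _⟩
  have hg : (algebraMap (baseJ M) (LaurentSeries Qb)).comp g = evalPhi M Qb := by
    refine Polynomial.ringHom_ext' (Subsingleton.elim _ _) ?_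
    rw [RingHom.comp_apply, Polynomial.coe_eval₂RingHom, Polynomial.eval₂_X, evalPhi_eq_evalAt]
    show bigJ M _ = evalAt Qb (jT Qb M) X
    rw [evalAt, Polynomial.coe_eval₂RingHom, Polynomial.eval₂_X, bigJ_apply]
    show qExpand Qb M (coeffEmb Qb jq) = qExpand Qb M (jqModC Qb)
    rw [coeffEmb, ← jqModC_rat, coeffMap_jqC]
  set P := (modularPoly d.1).map g with hP
  have hsplit : P.map (algebraMap (baseJ M) (LaurentSeries Qb)) =
      ∏ T : Tri d.1, (X - C (jRoot (hz.isUnit (NeZero.ne M)).unit k T)) := by
    rw [hP, Polynomial.map_map, hg, modularPoly_map_level hu hk.symm]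
  have hroot : aeval (ModCurveGenus.gen M d) P = 0 := by
    apply (idEmb M).1.toRingHom.injective
    rw [map_zero, aeval_def, Polynomial.hom_eval₂]
    show eval₂ (algebraMap (baseJ M) (LaurentSeries Qb))
      (qExpand Qb M (coeffEmb Qb (qExpand ℚ d.1 jq))) P = 0
    rw [← Polynomial.eval_map, hsplit, Polynomial.eval_prod]
    refine Finset.prod_eq_zero (Finset.mem_univ Tri.top) ?_
    rw [jRoot_top, Polynomial.eval_sub, Polynomial.eval_X, Polynomial.eval_C, sub_eq_zero,
      coeffEmb, coeffMap_qExpand', ← jqModC_rat, coeffMap_jqC, qExpand_qExpand]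
    exact qExpand_congr (by rw [mul_assoc, ← hk, mul_comm]) _
  refine Polynomial.Splits.of_dvd ?_ ((monic_prod_of_monic _ _ fun T _ => monic_X_sub_C _).ne_zero)
    (hsplit ▸ Polynomial.map_dvd _ (minpoly.dvd _ _ hroot))
  exact Polynomial.Splits.prod fun T _ => Polynomial.Splits.X_sub_C _

/-- All minimal polynomials over `Qb(j)` split in Laurent series. -/
theorem splits_minpoly (x : modularFunctionFieldBar M) :
    letI := bigJAlgebra M
    ((minpoly (baseJ M) x).map (algebraMap (baseJ M) (LaurentSeries Qb))).Splits := by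
  let := bigJAlgebra M
  refine IntermediateField.splits_of_mem_adjoin (baseJ M) (modularFunctionFieldBar M) (S := Set.range (ModCurveGenus.gen M))
    (fun y ⟨d, hd⟩ => hd ▸ ⟨IsIntegral.of_finite _ _, splits_minpoly_gen M d⟩) ?_
  set G := adjoin (baseJ M) (Set.range (ModCurveGenus.gen M))
  have hev : ∀ p, ModCurveGenus.ev M p ∈ G := by
    intro p
    induction p using MvPolynomial.induction_on with
    | C c =>
      rw [ModCurveGenus.ev, MvPolynomial.aeval_C,
        IsScalarTower.algebraMap_apply Qb (baseJ M) (modularFunctionFieldBar M)]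
      exact G.algebraMap_mem _
    | add p q hp hq => rw [map_add]; exact add_mem hp hq
    | mul_X p d hp =>
      rw [map_mul, show ModCurveGenus.ev M (MvPolynomial.X d) = ModCurveGenus.gen M d from
        MvPolynomial.aeval_X _ d]
      exact mul_mem hp (subset_adjoin _ _ ⟨d, rfl⟩)
  obtain ⟨r, s, -, rfl⟩ := ModCurveGenus.exists_frac M x
  exact div_mem (hev r) (hev s)

/-- The number of embeddings is the degree over `Qb(j)`. -/
theorem natCard_emb_finrank :
    Nat.card (Emb M) = Module.finrank (baseJ M) (modularFunctionFieldBar M) := by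
  let := bigJAlgebra M
  rw [Nat.card_congr (embEquiv M)]
  exact AlgHom.natCard_of_splits _ _ _ (splits_minpoly M)

instance finite_emb : Finite (Emb M) := by
  refine Nat.finite_of_card_ne_zero ?_
  rw [natCard_emb_finrank]
  exact Module.finrank_pos.ne'

instance fintype_emb : Fintype (Emb M) := Fintype.ofFinite _

variable {M}

/-- The product of all conjugates is the norm to `Qb(j)`. -/
theorem prod_emb_eq_norm (x : modularFunctionFieldBar M) :
    ∏ ι : Emb M, ι.1 x = bigJ M (Algebra.norm (baseJ M) x) := by
  classical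
  let e := Fintype.equivFin (Emb M)
  have hn : Module.finrank (baseJ M) (modularFunctionFieldBar M) = Fintype.card (Emb M) := by
    rw [← natCard_emb_finrank, Nat.card_eq_fintype_card]
  let i₀ := e (idEmb M)
  have h := norm_eq_prod hn i₀ (fun i => ((e.symm i).1).toRingHom)
    (fun i j hij => e.symm.injective (Subtype.ext (AlgHom.coe_ringHom_injective hij)))
    (fun i z => (emb_base (e.symm i) z).trans (emb_base (e.symm i₀) z).symm) x
  rw [Fintype.prod_equiv e (fun ι => ι.1 x) (fun i => (e.symm i).1.toRingHom x)
    fun ι => by simp, ← h]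
  exact emb_base (e.symm i₀) _

variable (M) in
/-- The characteristic polynomial over `Qb(j)`. -/
def charPolyJ (x : modularFunctionFieldBar M) : Polynomial (baseJ M) :=
  LinearMap.charpoly (Algebra.lmul (baseJ M) (modularFunctionFieldBar M) x)

theorem charPolyJ_monic (x : modularFunctionFieldBar M) : (charPolyJ M x).Monic :=
  LinearMap.charpoly_monic _

/-- Its roots under `bigJ` are the conjugates. -/
theorem charPolyJ_map (x : modularFunctionFieldBar M) :
    (charPolyJ M x).map (bigJ M : baseJ M →+* LaurentSeries Qb) =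
      ∏ ι : Emb M, (X - C (ι.1 x)) := by
  refine Polynomial.eq_of_infinite_eval_eq _ _
    ((Set.infinite_range_of_injective (bigJ M).toRingHom.injective).mono ?_)
  rintro _ ⟨c, rfl⟩
  show eval ((bigJ M : baseJ M →+* LaurentSeries Qb) c) _ =
    eval ((bigJ M : baseJ M →+* LaurentSeries Qb) c) _
  rw [Polynomial.eval_map, Polynomial.eval₂_at_apply, charPolyJ, LinearMap.eval_charpoly,
    ← AlgHom.commutes (Algebra.lmul (baseJ M) (modularFunctionFieldBar M)) c, ← map_sub,
    ← Algebra.norm_apply, Polynomial.eval_prod]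
  show bigJ M (Algebra.norm (baseJ M) _) = _
  rw [← prod_emb_eq_norm]
  refine Finset.prod_congr rfl fun ι _ => ?_
  rw [eval_sub, eval_X, eval_C, map_sub]
  exact congrArg (· - ι.1 x) (emb_base ι c)

/-- Symmetric functions of the conjugates lie in `qExpand M` of `Qb(j)`. -/
theorem exists_coeff_prod_emb (x : modularFunctionFieldBar M) (n : ℕ) :
    ∃ c : baseJ M, (∏ ι : Emb M, (X - C (ι.1 x))).coeff n =
      qExpand Qb M ((c : modularFunctionFieldBar M) : LaurentSeries Qb) :=
  ⟨(charPolyJ M x).coeff n, by rw [← charPolyJ_map, Polynomial.coeff_map]; rfl⟩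

theorem charPolyJ_eval (x : modularFunctionFieldBar M) : aeval x (charPolyJ M x) = 0 := by
  have h := LinearMap.aeval_self_charpoly (Algebra.lmul (baseJ M) (modularFunctionFieldBar M) x)
  rw [Polynomial.aeval_algHom_apply] at h
  exact Algebra.lmul_injective (h.trans (map_zero _).symm)

end Fermat.Agent.CarayolFF
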