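import Fermat.Agent.CarayolFF.JScaled
import Mathlib.NumberTheory.Divisors

/-!
# The middle conjugates and the Atkin–Lehner involution of the field of level `q²N`
-/

set_option autoImplicit false

noncomputable section

open ModularCurve
open scoped Real
open Fermat.Agent.ModularFunctionField

namespace Fermat.Agent.CarayolFF

variable (L : Type*) [Field L] [Algebra ℚ L]

/-- Base change of an adjoined field is the field adjoined by the images. -/
theorem laurentBaseChange_adjoin (S : Set (LaurentSeries ℚ)) :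
    laurentBaseChange L (IntermediateField.adjoin ℚ S) =
      IntermediateField.adjoin L (coeffEmb L '' S) := by
  refine le_antisymm ?_ ?_
  · rw [laurentBaseChange, IntermediateField.adjoin_le_iff]
    rintro _ ⟨y, hy, rfl⟩
    show coeffEmb L y ∈ IntermediateField.adjoin L (coeffEmb L '' S)
    induction hy using IntermediateField.adjoin_induction with
    | mem x hx => exact IntermediateField.subset_adjoin L _ ⟨x, hx, rfl⟩
    | algebraMap c =>
      have : coeffEmb L (algebraMap ℚ (LaurentSeries ℚ) c) =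
          algebraMap L (LaurentSeries L) (algebraMap ℚ L c) := by
        rw [algebraMap_apply_eq_single, algebraMap_laurentSeries_eq_single]
        exact coeffMap_single _ _ _
      rw [this]
      exact IntermediateField.algebraMap_mem _ _
    | add x y _ _ hx hy => rw [map_add]; exact add_mem hx hy
    | inv x _ hx => rw [map_inv₀]; exact inv_mem hx
    | mul x y _ _ hx hy => rw [map_mul]; exact mul_mem hx hy
  · refine IntermediateField.adjoin.mono L _ _ (Set.image_mono ?_)
    exact IntermediateField.subset_adjoin ℚ S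

theorem coeffEmb_qExpand_jq (e : ℕ) [NeZero e] :
    coeffEmb L (qExpand ℚ e jq) = qExpand L e (jqModC L) := by
  rw [coeffEmb, coeffMap_qExpand', ← jqModC_rat, coeffMap_jqC]

/-- The image of the divisor expansions of level `M`. -/
theorem laurentBaseChange_full (M : ℕ) :
    laurentBaseChange L (modularFunctionFieldFull M) =
      IntermediateField.adjoin L
        {x | ∃ (e : ℕ) (_ : NeZero e), e ∣ M ∧ x = qExpand L e (jqModC L)} := by
  rw [modularFunctionFieldFull, laurentBaseChange_adjoin]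
  congr 1
  ext x
  constructor
  · rintro ⟨_, ⟨e, he, hdvd, rfl⟩, rfl⟩
    exact ⟨e, he, hdvd, coeffEmb_qExpand_jq L e⟩
  · rintro ⟨e, he, hdvd, rfl⟩
    exact ⟨qExpand ℚ e jq, ⟨e, he, hdvd, rfl⟩, coeffEmb_qExpand_jq L e⟩

variable {q N : ℕ} [NeZero q] [NeZero N]

/-- The field of level `q²N` is generated by the `gen`. -/
theorem field_eq_adjoin_gen (hq : q.Prime) :
    laurentBaseChange L (modularFunctionFieldFull (q ^ 2 * N)) =
      IntermediateField.adjoin L (Set.range (gen (N := N) q L)) := by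
  rw [laurentBaseChange_full]
  congr 1
  ext x
  constructor
  · rintro ⟨e, he, hdvd, rfl⟩
    obtain ⟨a, b, ha, hb, rfl⟩ := Nat.dvd_mul.mp hdvd
    obtain ⟨i, hi, rfl⟩ := (Nat.dvd_prime_pow hq).mp ha
    have hi3 : i < 3 := by omega
    have : NeZero b := ⟨ne_zero_of_dvd_ne_zero (NeZero.ne N) hb⟩
    have : NeZero (b * q ^ i) := ⟨mul_ne_zero (NeZero.ne b) (pow_ne_zero _ (NeZero.ne q))⟩
    exact ⟨(⟨i, hi3⟩, ⟨b, hb⟩), qExpand_congr (K := q ^ i * b) (M := b * q ^ i) (mul_comm _ _) _⟩
  · rintro ⟨⟨i, d, hd⟩, rfl⟩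
    refine ⟨d * q ^ (i : ℕ), instNeZeroLvl (q := q) (i, ⟨d, hd⟩), ?_, rfl⟩
    rw [mul_comm (q ^ 2) N]
    exact mul_dvd_mul hd (pow_dvd_pow q (by have := i.isLt; omega))

/-- `gen x` lies in the field of level `q²N`. -/
theorem gen_mem (hq : q.Prime) (x : Idx N) :
    gen q L x ∈ laurentBaseChange L (modularFunctionFieldFull (q ^ 2 * N)) := by
  rw [field_eq_adjoin_gen L hq]; exact IntermediateField.subset_adjoin L _ ⟨x, rfl⟩

variable {L}

/-- A field embedding from transport data for the generators. -/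
def levelHom (hq : q.Prime) (ι : L →+* ℂ) {F : Idx N → UpperHalfPlane → ℂ}
    {g : UpperHalfPlane → UpperHalfPlane} {s' : Idx N → LaurentSeries L}
    (H : TransportData ι 1 1 F g (gen q L) s') :
    laurentBaseChange L (modularFunctionFieldFull (q ^ 2 * N)) →ₐ[L] LaurentSeries L :=
  H.fieldHom.comp (IntermediateField.equivOfEq (field_eq_adjoin_gen L hq)).toAlgHom

theorem levelHom_gen (hq : q.Prime) (ι : L →+* ℂ) {F : Idx N → UpperHalfPlane → ℂ}
    {g : UpperHalfPlane → UpperHalfPlane} {s' : Idx N → LaurentSeries L}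
    (H : TransportData ι 1 1 F g (gen q L) s') (x : Idx N) :
    levelHom hq ι H ⟨gen q L x, gen_mem L hq x⟩ = s' x :=
  H.fieldHom_apply x

/-- Existence of the middle conjugate attached to a nontrivial `q`-th root of unity. -/
theorem exists_midHom (hq : q.Prime) (hqN : ¬ q ∣ N) (ι : L →+* ℂ) (u : Lˣ) (hu : u ^ q = 1)
    (hu1 : u ≠ 1) :
    ∃ σ : laurentBaseChange L (modularFunctionFieldFull (q ^ 2 * N)) →ₐ[L] LaurentSeries L,
      ∀ x : Idx N, σ ⟨gen q L x, gen_mem L hq x⟩ = genMid q u x := by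
  have hprim : IsPrimitiveRoot (ι u) q := by
    have : IsPrimitiveRoot u q := by
      rw [IsPrimitiveRoot.iff_orderOf]
      have := Fact.mk hq
      exact orderOf_eq_prime hu hu1
    exact (IsPrimitiveRoot.coe_units_iff.mpr this).map_of_injective ι.injective
  obtain ⟨k, hkq, hk⟩ := (Complex.isPrimitiveRoot_iff _ q (NeZero.ne q)).mp hprim
  obtain ⟨hcop, hk⟩ := hk
  have hc : IsCoprime ((N * k : ℕ) : ℤ) (q : ℤ) := by
    rw [Nat.isCoprime_iff_coprime]
    exact Nat.Coprime.mul_left ((hq.coprime_iff_not_dvd.mpr hqN).symm) hcop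
  obtain ⟨m, r, hmr⟩ := hc
  exact ⟨levelHom hq ι (transportData_mid ι u (k := (k : ℤ)) (m := m)
      ⟨r, by push_cast at hmr; linear_combination -hmr⟩
      (by rw [← hk]; congr 1; push_cast; ring)),
    fun x => levelHom_gen hq ι _ x⟩

/-- The middle conjugate attached to `u` (junk the inclusion). -/
def midHom (hq : q.Prime) (hqN : ¬ q ∣ N) (ι : L →+* ℂ) (u : Lˣ) (hu : u ^ q = 1) (hu1 : u ≠ 1) :
    laurentBaseChange L (modularFunctionFieldFull (q ^ 2 * N)) →ₐ[L] LaurentSeries L :=
  (exists_midHom hq hqN ι u hu hu1).choose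

theorem midHom_gen (hq : q.Prime) (hqN : ¬ q ∣ N) (ι : L →+* ℂ) (u : Lˣ) (hu : u ^ q = 1)
    (hu1 : u ≠ 1) (x : Idx N) :
    midHom hq hqN ι u hu hu1 ⟨gen q L x, gen_mem L hq x⟩ = genMid q u x :=
  (exists_midHom hq hqN ι u hu hu1).choose_spec x

/-- Existence of the Atkin–Lehner automorphism at `q²`. -/
theorem exists_flipHom (hq : q.Prime) (hqN : ¬ q ∣ N) (ι : L →+* ℂ) :
    ∃ w : laurentBaseChange L (modularFunctionFieldFull (q ^ 2 * N)) →ₐ[L]
        laurentBaseChange L (modularFunctionFieldFull (q ^ 2 * N)),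
      (∀ x : Idx N, (w ⟨gen q L x, gen_mem L hq x⟩ : LaurentSeries L) = genFlip q L x) ∧
      w.comp w = AlgHom.id L _ := by
  have hc : IsCoprime ((q ^ 2 : ℕ) : ℤ) (N : ℤ) := by
    rw [Nat.isCoprime_iff_coprime]
    exact (hq.coprime_iff_not_dvd.mpr hqN).pow_left 2
  obtain ⟨δ, b, hdb⟩ := hc
  have H := transportData_flip (L := L) (N := N) ι (q := q) (β := -b) (δ := δ)
    (by push_cast at hdb; linear_combination hdb)
  set F := laurentBaseChange L (modularFunctionFieldFull (q ^ 2 * N))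
  set w₀ := levelHom hq ι H
  have hval : ∀ x : Idx N, w₀ ⟨gen q L x, gen_mem L hq x⟩ = genFlip q L x :=
    fun x => levelHom_gen hq ι H x
  have hmem : ∀ z : F, w₀ z ∈ F := by
    rintro ⟨z, hz⟩
    have hz' : z ∈ IntermediateField.adjoin L (Set.range (gen (N := N) q L)) :=
      (field_eq_adjoin_gen (N := N) L hq) ▸ hz
    have key : IntermediateField.adjoin L (Set.range (gen (N := N) q L)) ≤
        (F.comap w₀).map F.val := by
      rw [IntermediateField.adjoin_le_iff]
      rintro _ ⟨x, rfl⟩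
      refine ⟨⟨gen q L x, gen_mem L hq x⟩, ?_, rfl⟩
      show w₀ _ ∈ F
      rw [hval]
      exact gen_mem L hq _
    obtain ⟨y, hy, hyz⟩ := key hz'
    have : y = ⟨z, hz⟩ := Subtype.ext hyz
    exact this ▸ hy
  refine ⟨w₀.codRestrict F.toSubalgebra hmem, fun x => hval x, ?_⟩
  refine IntermediateField.algHom_ext_of_eq_adjoin L (field_eq_adjoin_gen L hq) fun x hx => ?_
  obtain ⟨i, rfl⟩ := hx
  have h1 : (w₀.codRestrict F.toSubalgebra hmem) ⟨gen q L i, gen_mem L hq i⟩ =
      (⟨gen q L (Fin.rev i.1, i.2), gen_mem L hq _⟩ : F) := Subtype.ext (hval i)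
  apply Subtype.ext
  show w₀ ((w₀.codRestrict F.toSubalgebra hmem) ⟨gen q L i, gen_mem L hq i⟩) = gen q L i
  rw [h1, hval]
  simp [genFlip]

/-- The Atkin–Lehner automorphism at `q²`. -/
def flipHom (hq : q.Prime) (hqN : ¬ q ∣ N) (ι : L →+* ℂ) :
    laurentBaseChange L (modularFunctionFieldFull (q ^ 2 * N)) →ₐ[L]
      laurentBaseChange L (modularFunctionFieldFull (q ^ 2 * N)) :=
  (exists_flipHom hq hqN ι).choose

theorem flipHom_gen (hq : q.Prime) (hqN : ¬ q ∣ N) (ι : L →+* ℂ) (x : Idx N) :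
    (flipHom hq hqN ι ⟨gen q L x, gen_mem L hq x⟩ : LaurentSeries L) = genFlip q L x :=
  (exists_flipHom hq hqN ι).choose_spec.1 x

/-- The Atkin–Lehner automorphism is an involution. -/
theorem flipHom_flipHom (hq : q.Prime) (hqN : ¬ q ∣ N) (ι : L →+* ℂ)
    (z : laurentBaseChange L (modularFunctionFieldFull (q ^ 2 * N))) :
    flipHom hq hqN ι (flipHom hq hqN ι z) = z :=
  DFunLike.congr_fun (exists_flipHom hq hqN ι).choose_spec.2 z

end Fermat.Agent.CarayolFF
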