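import Fermat.Agent.ModularFunctionField.Twist
import Mathlib.RingTheory.Valuation.ValuationSubring
import Mathlib.RingTheory.Noetherian.Basic
import Mathlib.RingTheory.Finiteness.Finsupp
import Mathlib.FieldTheory.IntermediateField.Adjoin.Algebra

/-!
# Gauss valuations on Laurent series over a valued field

For a valuation ring `A` of a field `L` with residue field `k` we construct the valuation ring of
the Gauss valuation of quotients of series with integral coefficients, its residue map to `k((t))`,
and show that every nonzero element of a field generated by series with coefficients in a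
Noetherian subring of `A` is a scalar times a Gauss unit.
-/

set_option autoImplicit false

noncomputable section

open ModularCurve
open Fermat.Agent.ModularFunctionField

namespace Fermat.Agent.CarayolFF

universe u

variable {L : Type u} [Field L] (A : ValuationSubring L)

/-- Inclusion of series with integral coefficients. -/
def intIncl : LaurentSeries A →+* LaurentSeries L := coeffMap A.subtype

/-- Reduction of series with integral coefficients. -/
def intRed : LaurentSeries A →+* LaurentSeries (IsLocalRing.ResidueField A) :=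
  coeffMap (IsLocalRing.residue A)

theorem intIncl_injective : Function.Injective (intIncl A) :=
  coeffMap_injective _ Subtype.coe_injective

/-- The valuation ring of the Gauss valuation (inside the field of all Laurent series). -/
def gaussRing : Subring (LaurentSeries L) where
  carrier := {x | ∃ a b : LaurentSeries A, intRed A b ≠ 0 ∧ x * intIncl A b = intIncl A a}
  one_mem' := ⟨1, 1, by rw [map_one]; exact one_ne_zero, by simp⟩
  zero_mem' := ⟨0, 1, by rw [map_one]; exact one_ne_zero, by simp⟩
  mul_mem' := by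
    rintro x y ⟨a, b, hb, hx⟩ ⟨c, d, hd, hy⟩
    refine ⟨a * c, b * d, by rw [map_mul]; exact mul_ne_zero hb hd, ?_⟩
    rw [map_mul, map_mul, ← hx, ← hy]; ring
  add_mem' := by
    rintro x y ⟨a, b, hb, hx⟩ ⟨c, d, hd, hy⟩
    refine ⟨a * d + c * b, b * d, by rw [map_mul]; exact mul_ne_zero hb hd, ?_⟩
    rw [map_add, map_mul, map_mul, map_mul, ← hx, ← hy]; ring
  neg_mem' := by
    rintro x ⟨a, b, hb, hx⟩
    exact ⟨-a, b, hb, by rw [map_neg, ← hx]; ring⟩

theorem intIncl_mem (a : LaurentSeries A) : intIncl A a ∈ gaussRing A :=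
  ⟨a, 1, by rw [map_one]; exact one_ne_zero, by simp⟩

theorem intRed_congr {x : LaurentSeries L} {a b a' b' : LaurentSeries A}
    (hx : x * intIncl A b = intIncl A a) (hx' : x * intIncl A b' = intIncl A a') :
    intRed A a * intRed A b' = intRed A a' * intRed A b := by
  have h : a * b' = a' * b := intIncl_injective A (by rw [map_mul, map_mul, ← hx, ← hx']; ring)
  rw [← map_mul, ← map_mul, h]

/-- The residue, as a function. -/
def gaussResFun (x : gaussRing A) : LaurentSeries (IsLocalRing.ResidueField A) :=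
  intRed A x.2.choose / intRed A x.2.choose_spec.choose

theorem gaussResFun_eq {x : gaussRing A} {a b : LaurentSeries A} (hb : intRed A b ≠ 0)
    (hx : (x : LaurentSeries L) * intIncl A b = intIncl A a) :
    gaussResFun A x = intRed A a / intRed A b := by
  have h := x.2.choose_spec.choose_spec
  rw [gaussResFun, div_eq_div_iff h.1 hb]
  exact intRed_congr A h.2 hx

/-- The residue map of the Gauss valuation. -/
def gaussRes : gaussRing A →+* LaurentSeries (IsLocalRing.ResidueField A) where
  toFun := gaussResFun A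
  map_one' := by
    rw [gaussResFun_eq A (a := 1) (b := 1) (by rw [map_one]; exact one_ne_zero) (by simp)]
    simp
  map_zero' := by
    rw [gaussResFun_eq A (a := 0) (b := 1) (by rw [map_one]; exact one_ne_zero) (by simp)]
    simp
  map_mul' x y := by
    obtain ⟨a, b, hb, hx⟩ := x.2
    obtain ⟨c, d, hd, hy⟩ := y.2
    rw [gaussResFun_eq A hb hx, gaussResFun_eq A hd hy,
      gaussResFun_eq A (a := a * c) (b := b * d) (by rw [map_mul]; exact mul_ne_zero hb hd)
        (by rw [Subring.coe_mul, map_mul, map_mul, ← hx, ← hy]; ring)]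
    rw [map_mul, map_mul, div_mul_div_comm]
  map_add' x y := by
    obtain ⟨a, b, hb, hx⟩ := x.2
    obtain ⟨c, d, hd, hy⟩ := y.2
    rw [gaussResFun_eq A hb hx, gaussResFun_eq A hd hy,
      gaussResFun_eq A (a := a * d + c * b) (b := b * d) (by rw [map_mul]; exact mul_ne_zero hb hd)
        (by rw [Subring.coe_add, map_add, map_mul, map_mul, map_mul, ← hx, ← hy]; ring)]
    rw [map_add, map_mul, map_mul, map_mul, div_add_div _ _ hb hd]
    ring

theorem gaussRes_eq {x : gaussRing A} {a b : LaurentSeries A} (hb : intRed A b ≠ 0)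
    (hx : (x : LaurentSeries L) * intIncl A b = intIncl A a) :
    gaussRes A x = intRed A a / intRed A b :=
  gaussResFun_eq A hb hx

theorem mem_gaussRing_iff {x : LaurentSeries L} : x ∈ gaussRing A ↔
    ∃ a b : LaurentSeries A, intRed A b ≠ 0 ∧ x * intIncl A b = intIncl A a :=
  Iff.rfl

theorem gaussRes_mk {x : LaurentSeries L} (h : x ∈ gaussRing A) {a b : LaurentSeries A}
    (hb : intRed A b ≠ 0) (hx : x * intIncl A b = intIncl A a) :
    gaussRes A ⟨x, h⟩ = intRed A a / intRed A b :=
  gaussRes_eq A (x := ⟨x, h⟩) hb hx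

/-- The residue of an integral series is its reduction. -/
theorem gaussRes_intIncl (a : LaurentSeries A) :
    gaussRes A ⟨intIncl A a, intIncl_mem A a⟩ = intRed A a := by
  rw [gaussRes_eq A (a := a) (b := 1) (by rw [map_one]; exact one_ne_zero) (by simp)]
  simp

/-- Units of the Gauss valuation. -/
def IsGaussUnit (x : LaurentSeries L) : Prop :=
  ∃ h : x ∈ gaussRing A, gaussRes A ⟨x, h⟩ ≠ 0

variable {A}

theorem isGaussUnit_iff {x : LaurentSeries L} : IsGaussUnit A x ↔
    ∃ a b : LaurentSeries A, intRed A a ≠ 0 ∧ intRed A b ≠ 0 ∧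
      x * intIncl A b = intIncl A a := by
  constructor
  · rintro ⟨h, hne⟩
    obtain ⟨a, b, hb, hx⟩ := (mem_gaussRing_iff A).mp h
    rw [gaussRes_mk A h hb hx] at hne
    exact ⟨a, b, fun h => hne (by rw [h, zero_div]), hb, hx⟩
  · rintro ⟨a, b, ha, hb, hx⟩
    have hmem : x ∈ gaussRing A := (mem_gaussRing_iff A).mpr ⟨a, b, hb, hx⟩
    exact ⟨hmem, by rw [gaussRes_mk A hmem hb hx]; exact div_ne_zero ha hb⟩

theorem IsGaussUnit.mem {x : LaurentSeries L} (hx : IsGaussUnit A x) : x ∈ gaussRing A := hx.1

theorem IsGaussUnit.ne_zero {x : LaurentSeries L} (hx : IsGaussUnit A x) : x ≠ 0 := by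
  rintro rfl
  obtain ⟨h, hne⟩ := hx
  exact hne (map_zero (gaussRes A))

theorem IsGaussUnit.one : IsGaussUnit A (1 : LaurentSeries L) :=
  isGaussUnit_iff.mpr ⟨1, 1, by rw [map_one]; exact one_ne_zero, by rw [map_one]; exact one_ne_zero,
    by simp⟩

theorem IsGaussUnit.mul {x y : LaurentSeries L} (hx : IsGaussUnit A x) (hy : IsGaussUnit A y) :
    IsGaussUnit A (x * y) := by
  obtain ⟨a, b, ha, hb, hx⟩ := isGaussUnit_iff.mp hx
  obtain ⟨c, d, hc, hd, hy⟩ := isGaussUnit_iff.mp hy
  refine isGaussUnit_iff.mpr ⟨a * c, b * d, by rw [map_mul]; exact mul_ne_zero ha hc,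
    by rw [map_mul]; exact mul_ne_zero hb hd, ?_⟩
  rw [map_mul, map_mul, ← hx, ← hy]; ring

theorem IsGaussUnit.inv {x : LaurentSeries L} (hx : IsGaussUnit A x) : IsGaussUnit A x⁻¹ := by
  have hx0 := hx.ne_zero
  obtain ⟨a, b, ha, hb, hx⟩ := isGaussUnit_iff.mp hx
  refine isGaussUnit_iff.mpr ⟨b, a, hb, ha, ?_⟩
  rw [← hx, inv_mul_cancel_left₀ hx0]

theorem algebraMap_intIncl (c : A) :
    algebraMap L (LaurentSeries L) (c : L) = intIncl A (HahnSeries.C c) := by
  rw [intIncl, coeffMap_C, algebraMap_laurentSeries_eq_single, HahnSeries.C_apply]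
  rfl

theorem algebraMap_mem_gaussRing {c : L} (hc : c ∈ A) :
    algebraMap L (LaurentSeries L) c ∈ gaussRing A :=
  algebraMap_intIncl ⟨c, hc⟩ ▸ intIncl_mem A _

/-- A scalar multiple of a Gauss unit is integral only if the scalar is. -/
theorem mem_of_mul_isGaussUnit {c : L} {x : LaurentSeries L} (hx : IsGaussUnit A x)
    (h : algebraMap L (LaurentSeries L) c * x ∈ gaussRing A) : c ∈ A := by
  by_contra hc
  have hinv : c⁻¹ ∈ A := (A.mem_or_inv_mem c).resolve_left hc
  have hc0 : c ≠ 0 := fun h0 => hc (h0 ▸ A.zero_mem)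
  have hnu : IsLocalRing.residue A ⟨c⁻¹, hinv⟩ = 0 := by
    rw [IsLocalRing.residue_eq_zero_iff]
    refine fun hu => hc ?_
    obtain ⟨w, hw⟩ := hu.exists_right_inv
    have h1 : c⁻¹ * (w : L) = 1 := congrArg Subtype.val hw
    have h2 : (w : L) = c := by
      have := eq_inv_of_mul_eq_one_right h1
      rwa [inv_inv] at this
    exact h2 ▸ w.2
  obtain ⟨hxm, hxne⟩ := hx
  apply hxne
  have heq : (⟨x, hxm⟩ : gaussRing A) =
      ⟨algebraMap L (LaurentSeries L) c⁻¹, algebraMap_mem_gaussRing hinv⟩ * ⟨_, h⟩ :=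
    Subtype.ext (by
      show x = _ * (_ * x)
      rw [← mul_assoc, ← map_mul, inv_mul_cancel₀ hc0, map_one, one_mul])
  rw [heq, map_mul]
  refine mul_eq_zero_of_left ?_ _
  rw [show (⟨algebraMap L (LaurentSeries L) c⁻¹, algebraMap_mem_gaussRing hinv⟩ : gaussRing A) =
    ⟨intIncl A (HahnSeries.C ⟨c⁻¹, hinv⟩), intIncl_mem A _⟩ from
      Subtype.ext (algebraMap_intIncl ⟨c⁻¹, hinv⟩), gaussRes_intIncl, intRed, coeffMap_C, hnu,
    map_zero]

/-- The scalar in `c • unit` is unique up to units. -/
theorem valuation_eq_of_smul_unit {c c' : L} {x x' : LaurentSeries L} (hx : IsGaussUnit A x)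
    (hx' : IsGaussUnit A x')
    (h : algebraMap L (LaurentSeries L) c * x = algebraMap L (LaurentSeries L) c' * x') :
    A.valuation c = A.valuation c' := by
  have key : ∀ {c c' : L} {x x' : LaurentSeries L}, IsGaussUnit A x → IsGaussUnit A x' →
      algebraMap L (LaurentSeries L) c * x = algebraMap L (LaurentSeries L) c' * x' →
      A.valuation c ≤ A.valuation c' := by
    intro c c' x x' hx hx' h
    rcases eq_or_ne c' 0 with rfl | hc'
    · rw [map_zero, zero_mul, mul_eq_zero, or_iff_left hx.ne_zero, map_eq_zero] at h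
      rw [h]
    have hr : algebraMap L (LaurentSeries L) (c / c') * x = x' := by
      rw [map_div₀, div_mul_eq_mul_div, h, mul_div_cancel_left₀]
      rwa [map_ne_zero]
    have hmem := mem_of_mul_isGaussUnit hx (c := c / c') (hr ▸ hx'.mem)
    rw [← A.valuation_le_one_iff, map_div₀,
      div_le_one₀ (zero_lt_iff.mpr ((map_ne_zero _).mpr hc'))] at hmem
    exact hmem
  exact le_antisymm (key hx hx' h) (key hx' hx h.symm)

/-! ### Content of series with coefficients spanned by a Noetherian subring -/

section Content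

variable (A) (R₀ : Subring L)

/-- Laurent series with coefficients in a subring. -/
def coeffsIn : Subring (LaurentSeries L) where
  carrier := {x | ∀ n, x.coeff n ∈ R₀}
  one_mem' n := by
    rw [HahnSeries.coeff_one]; split <;> [exact one_mem _; exact zero_mem _]
  zero_mem' n := by simp
  add_mem' hx hy n := by rw [HahnSeries.coeff_add]; exact add_mem (hx n) (hy n)
  neg_mem' hx n := by rw [HahnSeries.coeff_neg]; exact neg_mem (hx n)
  mul_mem' hx hy n := by
    rw [HahnSeries.coeff_mul]
    exact sum_mem fun p _ => mul_mem (hx p.1) (hy p.2)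

/-- A combination of series over a Noetherian subring of `A` attains the maximum of the
valuations of its coefficients. -/
theorem exists_max_coeff (hR : R₀ ≤ A.toSubring) [IsNoetherianRing R₀] {ι : Type*} [Fintype ι]
    (c : ι → L) {s : ι → LaurentSeries L} (hs : ∀ i, s i ∈ coeffsIn R₀)
    (hne : ∑ i, algebraMap L (LaurentSeries L) (c i) * s i ≠ 0) :
    ∃ n₀ : ℤ, (∑ i, algebraMap L (LaurentSeries L) (c i) * s i).coeff n₀ ≠ 0 ∧
      ∀ n, A.valuation ((∑ i, algebraMap L (LaurentSeries L) (c i) * s i).coeff n) ≤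
        A.valuation ((∑ i, algebraMap L (LaurentSeries L) (c i) * s i).coeff n₀) := by
  classical
  set T := ∑ i, algebraMap L (LaurentSeries L) (c i) * s i with hT
  set vec : ℤ → ι → R₀ := fun n i => ⟨(s i).coeff n, hs i n⟩
  have hTn : ∀ n, T.coeff n = ∑ i, c i * ((vec n i : R₀) : L) := fun n => by
    rw [hT, HahnSeries.coeff_sum]
    refine Finset.sum_congr rfl fun i _ => ?_
    rw [algebraMap_laurentSeries_eq_single, HahnSeries.coeff_single_zero_mul]
  obtain ⟨S, hS, hspan⟩ :=
    (Submodule.fg_span_iff_fg_span_finset_subset (R := R₀) (Set.range vec)).mp (IsNoetherian.noetherian _)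
  let val : (ι → R₀) → A.ValueGroup := fun w => A.valuation (∑ i, c i * ((w i : R₀) : L))
  have hle : ∀ g : A.ValueGroup, (∀ w ∈ S, val w ≤ g) → ∀ n, A.valuation (T.coeff n) ≤ g := by
    intro g hg n
    have hmem : vec n ∈ Submodule.span R₀ (S : Set (ι → R₀)) :=
      hspan ▸ Submodule.subset_span ⟨n, rfl⟩
    rw [hTn]
    show val (vec n) ≤ g
    generalize vec n = w at hmem ⊢
    induction hmem using Submodule.span_induction with
    | mem x hx => exact hg x hx
    | zero => simp [val]
    | add x y _ _ hx hy =>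
      have : val (x + y) ≤ max (val x) (val y) := by
        simp only [val, Pi.add_apply, Subring.coe_add, mul_add, Finset.sum_add_distrib]
        exact A.valuation.map_add _ _
      exact this.trans (max_le hx hy)
    | smul r x _ hx =>
      have : val (r • x) = A.valuation (r : L) * val x := by
        simp only [val, Pi.smul_apply, smul_eq_mul, Subring.coe_mul]
        rw [← map_mul, Finset.mul_sum]
        congr 1
        exact Finset.sum_congr rfl fun i _ => by ring
      rw [this]
      exact (mul_le_of_le_one_left zero_le ((A.valuation_le_one_iff _).mpr (hR r.2))).trans hx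
  obtain ⟨m, hm⟩ : ∃ m, T.coeff m ≠ 0 := by
    by_contra hall
    push Not at hall
    exact hne (HahnSeries.ext (funext hall))
  have hSne : S.Nonempty := by
    by_contra hSe
    rw [Finset.not_nonempty_iff_eq_empty] at hSe
    have := hle 0 (fun w hw => absurd hw (by simp [hSe])) m
    exact hm ((map_eq_zero A.valuation).mp (le_antisymm this zero_le))
  obtain ⟨w, hw, hmax⟩ := S.exists_max_image val hSne
  obtain ⟨n₀, hn₀⟩ := hS hw
  have hall : ∀ n, A.valuation (T.coeff n) ≤ A.valuation (T.coeff n₀) := by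
    intro n
    refine (hle (val w) (fun x hx => hmax x hx) n).trans (le_of_eq ?_)
    rw [hTn n₀, hn₀]
  refine ⟨n₀, fun h0 => hm ?_, hall⟩
  have := hall m
  rw [h0, map_zero] at this
  exact (map_eq_zero A.valuation).mp (le_antisymm this zero_le)

/-- A series whose coefficient valuations attain a maximum is a scalar times a Gauss unit. -/
theorem exists_smul_unit_of_max {T : LaurentSeries L} {n₀ : ℤ} (h0 : T.coeff n₀ ≠ 0)
    (hmax : ∀ n, A.valuation (T.coeff n) ≤ A.valuation (T.coeff n₀)) :
    ∃ (c : L) (x : LaurentSeries L), c ≠ 0 ∧ IsGaussUnit A x ∧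
      T = algebraMap L (LaurentSeries L) c * x := by
  have hmem : ∀ n, T.coeff n / T.coeff n₀ ∈ A := fun n => by
    rw [← A.valuation_le_one_iff, map_div₀]
    exact (div_le_one₀ (zero_lt_iff.mpr ((map_ne_zero _).mpr h0))).mpr (hmax n)
  let a : LaurentSeries A :=
    { coeff := fun n => ⟨T.coeff n / T.coeff n₀, hmem n⟩
      isPWO_support' := T.isPWO_support.mono fun n hn h => hn (Subtype.ext (by simp [h])) }
  refine ⟨T.coeff n₀, intIncl A a, h0, ⟨intIncl_mem A a, ?_⟩, ?_⟩
  · rw [gaussRes_intIncl]
    intro h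
    have h1 : IsLocalRing.residue A (a.coeff n₀) = 0 := congrArg (fun x => x.coeff n₀) h
    rw [show a.coeff n₀ = 1 from Subtype.ext (by simp [a, h0]), map_one] at h1
    exact one_ne_zero h1
  · ext n
    rw [algebraMap_laurentSeries_eq_single, HahnSeries.coeff_single_zero_mul]
    show T.coeff n = T.coeff n₀ * (T.coeff n / T.coeff n₀)
    rw [mul_div_cancel₀ _ h0]

/-- Every nonzero element of the algebra generated by `S` is a scalar times a Gauss unit. -/
theorem exists_smul_unit_adjoin (hR : R₀ ≤ A.toSubring) [IsNoetherianRing R₀]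
    {S : Set (LaurentSeries L)} (hS : S ⊆ coeffsIn R₀) {f : LaurentSeries L}
    (hf : f ∈ Algebra.adjoin L S) (hf0 : f ≠ 0) :
    ∃ (c : L) (x : LaurentSeries L), c ≠ 0 ∧ IsGaussUnit A x ∧
      f = algebraMap L (LaurentSeries L) c * x := by
  replace hf : f ∈ Subalgebra.toSubmodule (Algebra.adjoin L S) := hf
  rw [Algebra.adjoin_eq_span] at hf
  obtain ⟨m, c, g, hsum⟩ := (@Submodule.mem_span_set' L (LaurentSeries L) _ _
    Algebra.toModule _ _).mp hf
  have hg : ∀ i, ((g i : LaurentSeries L)) ∈ coeffsIn R₀ := fun i =>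
    Submonoid.closure_le (S := (coeffsIn R₀).toSubmonoid).mpr hS (g i).2
  have heq : ∑ i, algebraMap L (LaurentSeries L) (c i) * (g i : LaurentSeries L) = f := by
    rw [← hsum]
    exact Finset.sum_congr rfl fun i _ => (Algebra.smul_def _ _).symm
  obtain ⟨n₀, h1, h2⟩ := exists_max_coeff A R₀ hR c hg (heq ▸ hf0)
  rw [heq] at h1 h2
  exact exists_smul_unit_of_max A h1 h2

/-- Every nonzero element of the field generated by `S` is a scalar times a Gauss unit. -/
theorem exists_smul_unit (hR : R₀ ≤ A.toSubring) [IsNoetherianRing R₀]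
    {S : Set (LaurentSeries L)} (hS : S ⊆ coeffsIn R₀) {f : LaurentSeries L}
    (hf : f ∈ IntermediateField.adjoin L S) (hf0 : f ≠ 0) :
    ∃ (c : L) (x : LaurentSeries L), c ≠ 0 ∧ IsGaussUnit A x ∧
      f = algebraMap L (LaurentSeries L) c * x := by
  obtain ⟨a, ha, b, hb, rfl⟩ := IntermediateField.mem_adjoin_iff_div.mp hf
  obtain ⟨ha0, hb0⟩ := div_ne_zero_iff.mp hf0
  obtain ⟨c, x, hc, hx, rfl⟩ := exists_smul_unit_adjoin A R₀ hR hS ha ha0
  obtain ⟨d, y, hd, hy, rfl⟩ := exists_smul_unit_adjoin A R₀ hR hS hb hb0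
  exact ⟨c / d, x * y⁻¹, div_ne_zero hc hd, hx.mul hy.inv, by
    rw [map_div₀, ← div_eq_mul_inv, div_mul_div_comm]⟩

end Content

/-! ### Compatibility with coefficientwise maps and twists -/

/-- A ring endomorphism of series preserving integrality and reduction up to `ρ`. -/
theorem gaussRes_map (φ : LaurentSeries L →+* LaurentSeries L)
    (φA : LaurentSeries A →+* LaurentSeries A)
    (ρ : LaurentSeries (IsLocalRing.ResidueField A) →+* LaurentSeries (IsLocalRing.ResidueField A))
    (h₁ : ∀ a, φ (intIncl A a) = intIncl A (φA a)) (h₂ : ∀ a, intRed A (φA a) = ρ (intRed A a))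
    {x : LaurentSeries L} (hx : x ∈ gaussRing A) :
    ∃ h : φ x ∈ gaussRing A, gaussRes A ⟨φ x, h⟩ = ρ (gaussRes A ⟨x, hx⟩) := by
  obtain ⟨a, b, hb, hab⟩ := (mem_gaussRing_iff A).mp hx
  have hb' : intRed A (φA b) ≠ 0 := by rw [h₂]; exact (map_ne_zero ρ).mpr hb
  have hab' : φ x * intIncl A (φA b) = intIncl A (φA a) := by rw [← h₁, ← h₁, ← map_mul, hab]
  have hmem : φ x ∈ gaussRing A := (mem_gaussRing_iff A).mpr ⟨φA a, φA b, hb', hab'⟩
  refine ⟨hmem, ?_⟩
  rw [gaussRes_mk A hmem hb' hab', gaussRes_mk A hx hb hab, h₂, h₂, map_div₀]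

/-- A twist by a unit congruent to `1` does not change the residue. -/
theorem twist_gaussRes {u : Lˣ} (hu : (u : L) ∈ A) (huinv : ((u⁻¹ : Lˣ) : L) ∈ A)
    (hures : IsLocalRing.residue A ⟨u, hu⟩ = 1) {x : LaurentSeries L} (hx : x ∈ gaussRing A) :
    ∃ h : twist u x ∈ gaussRing A, gaussRes A ⟨twist u x, h⟩ = gaussRes A ⟨x, hx⟩ := by
  let uA : Aˣ := ⟨⟨u, hu⟩, ⟨_, huinv⟩, Subtype.ext u.mul_inv, Subtype.ext u.inv_mul⟩
  refine gaussRes_map (twist u) (twist uA) (RingHom.id _) (fun a => ?_) (fun a => ?_) hx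
  · show twist u (coeffMap A.subtype a) = coeffMap A.subtype (twist uA a)
    rw [coeffMap_twist]
    congr 1
  · show coeffMap (IsLocalRing.residue A) (twist uA a) = intRed A a
    rw [coeffMap_twist]
    have : Units.map (IsLocalRing.residue A : A →* IsLocalRing.ResidueField A) uA = 1 :=
      Units.ext hures
    rw [this, twist_one]
    rfl

end Fermat.Agent.CarayolFF
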