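import Fermat.Agent.CarayolFF.Transport
import Fermat.Agent.ModularFunctionField.LevelOne
import Fermat.Prelude.Def_ModularCurve_LaurentCoeff
import Mathlib.RingTheory.RootsOfUnity.Complex

/-!
# The functions `τ ↦ j(eτ)` and their conjugates at level `q²N` over level `qN`
-/

set_option autoImplicit false

noncomputable section

open Filter UpperHalfPlane ModularCurve
open scoped Topology Manifold MatrixGroups Real
open Fermat.Agent.ModularFunctionField

namespace Fermat.Agent.CarayolFF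

/-- A real matrix of positive determinant as an element of `GL₂(ℝ)`. -/
def mobius (a b c d : ℝ) (h : 0 < a * d - b * c) : GL (Fin 2) ℝ :=
  Matrix.GeneralLinearGroup.mkOfDetNeZero !![a, b; c, d]
    (by rw [Matrix.det_fin_two_of]; exact h.ne')

theorem det_mobius (a b c d : ℝ) (h : 0 < a * d - b * c) : 0 < (mobius a b c d h).det.val := by
  rw [Matrix.GeneralLinearGroup.val_det_apply]
  simpa [mobius, Matrix.det_fin_two] using h

theorem coe_mobius_smul (a b c d : ℝ) (h : 0 < a * d - b * c) (τ : ℍ) :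
    ((mobius a b c d h • τ : ℍ) : ℂ) = ((a : ℂ) * τ + b) / ((c : ℂ) * τ + d) := by
  rw [coe_smul_of_det_pos (det_mobius a b c d h)]
  simp [num, denom, mobius]

theorem mdiff_comp_smul {f : ℍ → ℂ} (hf : MDiff f) (g : GL (Fin 2) ℝ) (hg : 0 < g.det.val) :
    MDiff (fun τ : ℍ => f (g • τ)) :=
  hf.comp (mdifferentiable_smul hg)

/-- `τ ↦ eτ`. -/
def scale (e : ℕ) [NeZero e] (τ : ℍ) : ℍ :=
  mobius e 0 0 1 (by simp [Nat.pos_of_ne_zero (NeZero.ne e)]) • τ

theorem coe_scale (e : ℕ) [NeZero e] (τ : ℍ) : ((scale e τ : ℍ) : ℂ) = (e : ℂ) * τ := by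
  rw [scale, coe_mobius_smul]; simp

/-- `τ ↦ j(eτ)`. -/
def jScaled (e : ℕ) [NeZero e] (τ : ℍ) : ℂ := jFun (scale e τ)

theorem mdiff_jScaled (e : ℕ) [NeZero e] : MDiff (jScaled e) :=
  mdiff_comp_smul mdiff_jFun _ (det_mobius ..)

/-- Evaluate `j` at equivalent points. -/
theorem jFun_eq_of_coe {a b c d : ℤ} (h : a * d - b * c = 1) (z w : ℍ)
    (hzw : (z : ℂ) * ((c : ℂ) * w + d) = (a : ℂ) * w + b) : jFun z = jFun w := by
  let γ : SL(2, ℤ) := ⟨!![a, b; c, d], by rw [Matrix.det_fin_two_of]; exact h⟩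
  have hz : z = γ • w := by
    ext
    have hne : (c : ℂ) * w + d ≠ 0 := by
      have := UpperHalfPlane.linear_ne_zero (cd := ![(c : ℝ), (d : ℝ)]) w (by
        intro h0
        have hc : c = 0 := by simpa using congrFun h0 0
        have hd : d = 0 := by simpa using congrFun h0 1
        simp [hc, hd] at h)
      simpa using this
    rw [coe_specialLinearGroup_apply]
    simp only [γ]
    rw [eq_div_iff (by simpa using hne)]
    simpa using hzw
  rw [hz, jFun_invariant]

/-- The expansion of `τ ↦ j(eτ + b)`. -/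
theorem hasExp_jFun_affine (e : ℕ) [NeZero e] (b : ℝ) (u : ℂˣ)
    (hu : (u : ℂ) = Complex.exp (2 * π * Complex.I * b)) :
    HasExp 1 (fun τ : ℍ => jFun (mobius e b 0 1 (by simp [Nat.pos_of_ne_zero (NeZero.ne e)]) • τ))
      (subst u e (jqModC ℂ)) := by
  refine hasExp_jFun.comp _ (tendsto_smul_atImInfty (by simp [mobius])) u e fun τ => ?_
  rw [coe_mobius_smul, hu]
  simp only [Function.Periodic.qParam, Nat.cast_one, Complex.ofReal_one, div_one,
    Complex.ofReal_zero, zero_mul, zero_add, Complex.ofReal_natCast]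
  rw [← Complex.exp_nat_mul, ← Complex.exp_add]
  congr 1
  ring

theorem hasExp_jScaled (e : ℕ) [NeZero e] : HasExp 1 (jScaled e) (qExpand ℂ e (jqModC ℂ)) := by
  have h := hasExp_jFun_affine e 0 1 (by simp)
  rw [subst_one] at h
  exact h

variable {L : Type*} [Field L] (ι : L →+* ℂ)

theorem coeffMap_qExpand_jqModC (e : ℕ) [NeZero e] :
    coeffMap ι (qExpand L e (jqModC L)) = qExpand ℂ e (jqModC ℂ) := by
  rw [coeffMap_qExpand', coeffMap_jqC]

theorem hasExp_jScaled' (e : ℕ) [NeZero e] :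
    HasExp 1 (jScaled e) (coeffMap ι (qExpand L e (jqModC L))) := by
  rw [coeffMap_qExpand_jqModC]; exact hasExp_jScaled e

variable (q N : ℕ) [NeZero q] [NeZero N]

/-- Index set of the divisors of `q²N`: pairs `(i, d)` standing for `d qⁱ`. -/
abbrev Idx : Type := Fin 3 × {d : ℕ // d ∣ N}

variable {q N}

instance instNeZeroDivisor (d : {d : ℕ // d ∣ N}) : NeZero d.1 :=
  ⟨ne_zero_of_dvd_ne_zero (NeZero.ne N) d.2⟩

instance instNeZeroLvl (x : Idx N) : NeZero (x.2.1 * q ^ (x.1 : ℕ)) :=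
  ⟨mul_ne_zero (NeZero.ne _) (pow_ne_zero _ (NeZero.ne q))⟩

variable (q) in
/-- The generators of the function field of level `q²N`. -/
def gen (L : Type*) [Field L] (x : Idx N) : LaurentSeries L :=
  qExpand L (x.2.1 * q ^ (x.1 : ℕ)) (jqModC L)

variable (q) in
/-- Their images under the middle conjugate attached to a `q`-th root of unity. -/
def genMid (u : Lˣ) (x : Idx N) : LaurentSeries L :=
  if x.1 = 2 then twist u (qExpand L x.2.1 (jqModC L)) else gen q L x

variable (q) in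
/-- Their images under the Atkin–Lehner involution at `q²`. -/
def genFlip (L : Type*) [Field L] (x : Idx N) : LaurentSeries L :=
  gen q L (Fin.rev x.1, x.2)

theorem twist_eq_subst (u : Lˣ) (d : ℕ) [NeZero d] :
    twist u (qExpand L d (jqModC L)) = subst (u ^ d) d (jqModC L) := by
  rw [subst_apply, twist_qExpand]

/-- The identity of expansions for the middle conjugate. -/
theorem transportData_mid (u : Lˣ) {k m : ℤ} (hdvd : (q : ℤ) ∣ 1 - N * m * k)
    (hu : ι u = Complex.exp (2 * π * Complex.I * k / q)) :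
    TransportData ι 1 1 (fun x : Idx N => jScaled (x.2.1 * q ^ (x.1 : ℕ)))
      (fun τ => mobius 1 0 (q * N * m : ℝ) 1 (by simp) • τ)
      (gen q L) (genMid q u) where
  ne_zero := one_ne_zero
  ne_zero' := one_ne_zero
  mdiff _ := mdiff_jScaled _
  mdiff_comp _ := mdiff_comp_smul (mdiff_jScaled _) _ (det_mobius ..)
  surj τ := ⟨(mobius 1 0 (q * N * m : ℝ) 1 (by simp))⁻¹ • τ, smul_inv_smul _ _⟩
  exp _ := hasExp_jScaled' ι _
  exp' := by
    rintro ⟨i, d, hd⟩
    obtain ⟨c, hc⟩ := hd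
    have : NeZero d := ⟨ne_zero_of_dvd_ne_zero (NeZero.ne N) ⟨c, hc⟩⟩
    have hd0 : (d : ℂ) ≠ 0 := Nat.cast_ne_zero.mpr (NeZero.ne d)
    have hq0 : (q : ℂ) ≠ 0 := Nat.cast_ne_zero.mpr (NeZero.ne q)
    have hN : (N : ℂ) = (d : ℂ) * c := by exact_mod_cast hc
    have hcoe : ∀ τ : ℍ, ((mobius 1 0 (q * N * m : ℝ) 1 (by simp) • τ : ℍ) : ℂ) *
        (((q : ℂ) * N * m) * τ + 1) = τ := fun τ => by
      have hne : ((q : ℂ) * N * m) * τ + 1 ≠ 0 := by
        have := UpperHalfPlane.linear_ne_zero (cd := ![((q * N * m : ℤ) : ℝ), (1 : ℝ)]) τ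
          (fun h0 => one_ne_zero (α := ℝ) (by simpa using congrFun h0 1))
        simpa using this
      rw [coe_mobius_smul]
      simp only [Complex.ofReal_one, Complex.ofReal_zero, Complex.ofReal_mul,
        Complex.ofReal_natCast, Complex.ofReal_intCast, one_mul, add_zero]
      rw [div_mul_cancel₀ _ hne]
    by_cases hi : i = 2
    · subst hi
      obtain ⟨r, hr⟩ := hdvd
      simp only [genMid, if_true]
      rw [twist_eq_subst, coeffMap_subst, coeffMap_jqC]
      refine (hasExp_jFun_affine d ((d : ℝ) * k / q) _ ?_).congr fun τ => ?_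
      · rw [map_pow, Units.val_pow_eq_pow_val, Units.coe_map, MonoidHom.coe_coe, hu,
          ← Complex.exp_nat_mul]
        congr 1; push_cast; ring
      · refine (jFun_eq_of_coe (a := q) (b := -(d * k)) (c := c * m) (d := r) ?_ _ _ ?_).symm
        · linear_combination -hr - m * k * (by exact_mod_cast hc : (N : ℤ) = d * c)
        · have h := hcoe τ
          have hr' : (1 : ℂ) - (N : ℂ) * m * k = q * r := by exact_mod_cast congrArg (Int.cast (R := ℂ)) hr
          rw [coe_scale, coe_mobius_smul (d : ℝ) ((d : ℝ) * k / q) 0 1]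
          push_cast
          field_simp
          rw [hN] at h hr'
          simp only [Fin.val_two]
          linear_combination ((q : ℂ) ^ 2) * h -
            ((q : ℂ) ^ 2 * ((mobius 1 0 (q * N * m : ℝ) 1 (by simp) • τ : ℍ) : ℂ)) * hr'
    · simp only [genMid, if_neg hi]
      refine (hasExp_jScaled' ι (d * q ^ (i : ℕ))).congr fun τ => ?_
      refine (jFun_eq_of_coe (a := 1) (b := 0) (c := c * m * q ^ (1 - (i : ℕ))) (d := 1) (by ring)
        _ _ ?_).symm
      have h := hcoe τ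
      rw [coe_scale, coe_scale]
      have hi' : (i : ℕ) ≤ 1 := by
        have := i.isLt
        have : (i : ℕ) ≠ 2 := fun h' => hi (Fin.ext h')
        omega
      have hpow : (q : ℂ) ^ (1 - (i : ℕ)) * (q : ℂ) ^ (i : ℕ) = q := by
        rw [← pow_add, show 1 - (i : ℕ) + (i : ℕ) = 1 by omega, pow_one]
      rw [hN] at h
      push_cast
      linear_combination ((d : ℂ) * q ^ (i : ℕ)) * h +
        ((d : ℂ) * q ^ (i : ℕ) * ((mobius 1 0 (q * N * m : ℝ) 1 (by simp) • τ : ℍ) : ℂ) *
          ((d : ℂ) * c * m * τ)) * hpow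

/-- The identity of expansions for the Atkin–Lehner involution at `q²`. -/
theorem transportData_flip {β δ : ℤ} (hdet : (q : ℤ) ^ 2 * δ - β * N = 1) :
    TransportData ι 1 1 (fun x : Idx N => jScaled (x.2.1 * q ^ (x.1 : ℕ)))
      (fun τ => mobius ((q : ℝ) ^ 2) β ((q : ℝ) ^ 2 * N) ((q : ℝ) ^ 2 * δ) (by
        have h : ((q : ℝ) ^ 2 * δ - β * N) = 1 := by exact_mod_cast hdet
        have hq : (0 : ℝ) < (q : ℝ) ^ 2 := by
          have := Nat.pos_of_ne_zero (NeZero.ne q); positivity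
        calc (0 : ℝ) < (q : ℝ) ^ 2 * ((q : ℝ) ^ 2 * δ - β * N) := by rw [h, mul_one]; exact hq
          _ = _ := by ring) • τ)
      (gen q L) (genFlip q L) where
  ne_zero := one_ne_zero
  ne_zero' := one_ne_zero
  mdiff _ := mdiff_jScaled _
  mdiff_comp _ := mdiff_comp_smul (mdiff_jScaled _) _ (det_mobius ..)
  surj τ := ⟨_, smul_inv_smul _ τ⟩
  exp _ := hasExp_jScaled' ι _
  exp' := by
    rintro ⟨i, d, hd⟩
    obtain ⟨c, hc⟩ := hd
    have : NeZero d := ⟨ne_zero_of_dvd_ne_zero (NeZero.ne N) ⟨c, hc⟩⟩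
    have hq0 : (q : ℂ) ≠ 0 := Nat.cast_ne_zero.mpr (NeZero.ne q)
    have hN : (N : ℂ) = (d : ℂ) * c := by exact_mod_cast hc
    have hi : ((Fin.rev i : Fin 3) : ℕ) + (i : ℕ) = 2 := by
      rw [Fin.val_rev]; have := i.isLt; omega
    simp only [genFlip, gen]
    set j := ((Fin.rev i : Fin 3) : ℕ)
    refine (hasExp_jScaled' ι (d * q ^ j)).congr fun τ => ?_
    refine (jFun_eq_of_coe (a := q ^ (i : ℕ)) (b := d * β) (c := c) (d := q ^ j * δ) ?_ _ _ ?_).symm
    · rw [← mul_assoc, ← pow_add, add_comm (i : ℕ), hi]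
      linear_combination hdet + β * (by exact_mod_cast hc : (N : ℤ) = d * c)
    · rw [coe_scale, coe_scale, coe_mobius_smul]
      have hne : ((q : ℂ) ^ 2 * N) * τ + (q : ℂ) ^ 2 * δ ≠ 0 := by
        have hd : (N : ℂ) * τ + δ ≠ 0 := by
          have := UpperHalfPlane.linear_ne_zero (cd := ![(N : ℝ), (δ : ℝ)]) τ
            (fun h0 => NeZero.ne N (by simpa using congrFun h0 0))
          simpa using this
        rw [mul_assoc, ← mul_add]
        exact mul_ne_zero (pow_ne_zero 2 hq0) hd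
      have hpow : (q : ℂ) ^ (i : ℕ) * (q : ℂ) ^ j = (q : ℂ) ^ 2 := by
        rw [← pow_add, add_comm, hi]
      push_cast
      rw [mul_div_assoc', div_mul_eq_mul_div, div_eq_iff hne, hN]
      linear_combination ((d : ℂ) * ((q : ℂ) ^ 2 * τ + β) * ((d : ℂ) * c * τ + δ)) * hpow -
        ((d : ℂ) * τ * ((q : ℂ) ^ 2 * d * c * τ + (q : ℂ) ^ 2 * δ)) * hpow

end Fermat.Agent.CarayolFF
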