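import Fermat.Agent.CarayolFF.Field
import Fermat.Agent.CarayolFF.Gauss
import Fermat.Prelude.Def_ModularCurve_ArithmeticGalois
import Mathlib.RingTheory.Polynomial.Basic

/-!
# The three vertical valuations of the field of level `q²N`

They are the Gauss valuations after the inclusion, after the middle conjugate and after the
Atkin–Lehner involution. Every nonzero function is, for each of them, a scalar times a unit.
-/

set_option autoImplicit false

noncomputable section

open ModularCurve
open Fermat.Agent.ModularFunctionField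

namespace Fermat.Agent.CarayolFF

variable {L : Type*} [Field L] [Algebra ℚ L] {q N : ℕ} [NeZero q] [NeZero N]

/-- `ℤ[u]` inside `L`. -/
def cycSubring (u : Lˣ) : Subring L := (Polynomial.aeval (R := ℤ) (u : L)).toRingHom.range

omit [Algebra ℚ L] in
theorem isNoetherianRing_cycSubring (u : Lˣ) : IsNoetherianRing (cycSubring u) :=
  isNoetherianRing_range _

omit [Algebra ℚ L] in
theorem cycSubring_le {A : ValuationSubring L} {u : Lˣ} (hu : u ^ q = 1) :
    cycSubring u ≤ A.toSubring := by
  rintro x ⟨P, rfl⟩
  have huA : (u : L) ∈ A := by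
    rw [← A.valuation_le_one_iff]
    refine (pow_le_one_iff_of_nonneg zero_le (NeZero.ne q)).mp ?_
    rw [← map_pow, ← Units.val_pow_eq_pow_val, hu, Units.val_one, map_one]
  show Polynomial.aeval (u : L) P ∈ A
  induction P using Polynomial.induction_on' with
  | add a b ha hb => rw [map_add]; exact add_mem ha hb
  | monomial n a =>
    rw [Polynomial.aeval_monomial]
    exact mul_mem (by simp [intCast_mem]) (pow_mem huA n)

omit [Algebra ℚ L] in
theorem qExpand_jqModC_mem_coeffsIn (R₀ : Subring L) (e : ℕ) [NeZero e] :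
    qExpand L e (jqModC L) ∈ coeffsIn R₀ := by
  intro n
  rw [← coeffMap_jqC (Int.castRingHom L), ← coeffMap_qExpand', coeffMap_coeff]
  exact intCast_mem R₀ _

omit [Algebra ℚ L] in
/-- Induction on an intermediate field given as an adjunction. -/
theorem induction_of_eq_adjoin {E : Type*} [Field E] [Algebra L E] {F : IntermediateField L E}
    {S : Set E} (hF : F = IntermediateField.adjoin L S) {P : F → Prop}
    (hgen : ∀ x ∈ S, ∀ h : x ∈ F, P ⟨x, h⟩) (halg : ∀ c : L, P (algebraMap L F c))
    (hadd : ∀ x y, P x → P y → P (x + y)) (hinv : ∀ x, P x → P x⁻¹)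
    (hmul : ∀ x y, P x → P y → P (x * y)) (f : F) : P f := by
  subst hF
  obtain ⟨y, hy⟩ := f
  induction hy using IntermediateField.adjoin_induction with
  | mem x hx => exact hgen x hx _
  | algebraMap c => exact halg c
  | add x y _ _ ihx ihy => exact hadd _ _ ihx ihy
  | inv x _ ihx => exact hinv _ ihx
  | mul x y _ _ ihx ihy => exact hmul _ _ ihx ihy

/-- Induction along the generators of the field of level `q²N`. -/
theorem level_induction (hq : q.Prime)
    {P : laurentBaseChange L (modularFunctionFieldFull (q ^ 2 * N)) → Prop}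
    (hgen : ∀ x : Idx N, P ⟨gen q L x, gen_mem L hq x⟩)
    (halg : ∀ c : L, P (algebraMap L _ c)) (hadd : ∀ x y, P x → P y → P (x + y))
    (hinv : ∀ x, P x → P x⁻¹) (hmul : ∀ x y, P x → P y → P (x * y))
    (f : laurentBaseChange L (modularFunctionFieldFull (q ^ 2 * N))) : P f :=
  induction_of_eq_adjoin (field_eq_adjoin_gen (N := N) L hq)
    (fun x hx h' => by obtain ⟨i, rfl⟩ := hx; exact hgen i) halg hadd hinv hmul f

variable (A : ValuationSubring L)

/-- Coefficientwise Galois action intertwines the middle conjugates. -/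
theorem coeffMap_midHom (hq : q.Prime) (hqN : ¬ q ∣ N) (ι : L →+* ℂ) (u u' : Lˣ)
    (hu : u ^ q = 1) (hu1 : u ≠ 1) (hu' : u' ^ q = 1) (hu1' : u' ≠ 1)
    (τ : L ≃ₐ[ℚ] L) (hτ : τ (u : L) = (u' : L))
    (f : laurentBaseChange L (modularFunctionFieldFull (q ^ 2 * N))) :
    coeffMap (τ : L →+* L) (midHom hq hqN ι u hu hu1 f) =
      midHom hq hqN ι u' hu' hu1'
        (arithmeticRingAut (modularFunctionFieldFull (q ^ 2 * N)) τ f) := by
  refine level_induction hq (P := fun f => coeffMap (τ : L →+* L) (midHom hq hqN ι u hu hu1 f) =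
      midHom hq hqN ι u' hu' hu1'
        (arithmeticRingAut (modularFunctionFieldFull (q ^ 2 * N)) τ f))
    (fun i => ?_) (fun c => ?_) (fun x y hx hy => ?_) (fun x hx => ?_) (fun x y hx hy => ?_) f
  · have hR : arithmeticRingAut (modularFunctionFieldFull (q ^ 2 * N)) τ
        ⟨gen q L i, gen_mem L hq i⟩ = ⟨gen q L i, gen_mem L hq i⟩ := Subtype.ext (by
      rw [coe_arithmeticRingAut_apply]
      show coeffMap (τ : L →+* L) (qExpand L _ (jqModC L)) = _
      rw [coeffMap_qExpand', coeffMap_jqC]
      rfl)
    rw [hR, midHom_gen, midHom_gen]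
    unfold genMid
    split
    · rw [coeffMap_twist, coeffMap_qExpand', coeffMap_jqC]
      congr 2
      exact Units.ext hτ
    · show coeffMap (τ : L →+* L) (qExpand L _ (jqModC L)) = _
      rw [coeffMap_qExpand', coeffMap_jqC]
      rfl
  · rw [AlgHom.commutes, arithmeticRingAut_algebraMap, AlgHom.commutes, coeffMap_algebraMap]
    rfl
  · simp only [map_add, hx, hy]
  · simp only [map_inv₀, hx]
  · simp only [map_mul, hx, hy]

end Fermat.Agent.CarayolFF
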