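import Fermat.Agent.CarayolFF.Descend
import Fermat.Agent.CarayolFF.BaseReduction
import Fermat.Agent.CarayolFF.Vertical

/-!
# The three expansions of the function field of level `q²N` and the maps from level `N`
-/

set_option autoImplicit false

noncomputable section

open ModularCurve IntermediateField Polynomial
open Fermat.Agent.ModularFunctionField
open Fermat.Agent.Carayol Fermat.Agent.KummerReduction

namespace Fermat.Agent.CarayolFF

local notation "Qb" => AlgebraicClosure ℚ

theorem jBar_eq : jBar = jqModC Qb := by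
  rw [jBar, coeffEmb, ← jqModC_rat, coeffMap_jqC]

/-- `twist u` as an algebra homomorphism. -/
def twistHom (u : Qbˣ) : LaurentSeries Qb →ₐ[Qb] LaurentSeries Qb where
  __ := twist u
  commutes' r := by
    show twist u (algebraMap Qb _ r) = _
    rw [algebraMap_laurentSeries_eq_single]
    ext n
    rw [twist_coeff]
    by_cases hn : n = 0
    · subst hn; simp
    · simp [HahnSeries.coeff_single_of_ne hn]

theorem twistHom_apply (u : Qbˣ) (x : LaurentSeries Qb) : twistHom u x = twist u x := rfl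

/-- Algebra maps on the field of level `N` are determined by the generators. -/
theorem baseExt {N : ℕ} [NeZero N] {φ ψ : modularFunctionFieldBar N →ₐ[Qb] LaurentSeries Qb}
    (h : ∀ d, φ (ModCurveGenus.gen N d) = ψ (ModCurveGenus.gen N d)) : φ = ψ := by
  refine algHom_ext_of_eq_adjoin Qb (ModCurveGenus.bar_eq_adjoin N) fun x hx => ?_
  obtain ⟨d, rfl⟩ := hx
  exact h d

variable {q N : ℕ} [NeZero q] [NeZero N]

/-- Algebra maps on the field of level `q²N` are determined by the generators. -/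
theorem levelExt (hq : q.Prime)
    {φ ψ : modularFunctionFieldBar (q ^ 2 * N) →ₐ[Qb] LaurentSeries Qb}
    (h : ∀ x : Idx N, φ ⟨gen q Qb x, gen_mem Qb hq x⟩ = ψ ⟨gen q Qb x, gen_mem Qb hq x⟩) :
    φ = ψ := by
  refine algHom_ext_of_eq_adjoin Qb (field_eq_adjoin_gen (N := N) Qb hq) fun x hx => ?_
  obtain ⟨i, rfl⟩ := hx
  exact h i

variable (q N)

theorem map_qExpandHom_le (i : Fin 3) :
    (modularFunctionFieldBar N).map (qExpandHom (q ^ (i : ℕ))) ≤
      modularFunctionFieldBar (q ^ 2 * N) := by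
  rw [ModCurveGenus.bar_eq_adjoin, IntermediateField.adjoin_map, IntermediateField.adjoin_le_iff]
  rintro _ ⟨_, ⟨d, rfl⟩, rfl⟩
  have hd : q ^ (i : ℕ) * d.1 ∣ q ^ 2 * N :=
    mul_dvd_mul (pow_dvd_pow q (by have := i.isLt; omega)) (ModCurveGenus.Dvs.dvd d)
  have h : qExpandHom (q ^ (i : ℕ)) (ModCurveGenus.genS N d) =
      coeffEmb Qb (qExpand ℚ (q ^ (i : ℕ) * d.1) jq) := by
    rw [qExpandHom_apply, ModCurveGenus.genS, coeffEmb, coeffMap_qExpand', coeffMap_qExpand',
      qExpand_qExpand]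
  rw [h]
  exact coeffEmb_mem_laurentBaseChange _ (jqd_mem_full _ hd)

/-- `f(τ) ↦ f(qⁱτ)` from level `N` to level `q²N`. -/
def raiseHom (i : Fin 3) :
    modularFunctionFieldBar N →ₐ[Qb] modularFunctionFieldBar (q ^ 2 * N) :=
  ((qExpandHom (q ^ (i : ℕ))).comp (modularFunctionFieldBar N).val).codRestrict
    (modularFunctionFieldBar (q ^ 2 * N)).toSubalgebra
    fun x => map_qExpandHom_le q N i ⟨x, x.2, rfl⟩

theorem coe_raiseHom (i : Fin 3) (x : modularFunctionFieldBar N) :
    (raiseHom q N i x : LaurentSeries Qb) = qExpand Qb (q ^ (i : ℕ)) (x : LaurentSeries Qb) := rfl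

theorem raiseHom_gen (hq : q.Prime) (i : Fin 3) (d : ModCurveGenus.Dvs N) :
    raiseHom q N i (ModCurveGenus.gen N d) =
      ⟨gen q Qb (i, ⟨d.1, ModCurveGenus.Dvs.dvd d⟩), gen_mem Qb hq _⟩ := by
  refine Subtype.ext ?_
  rw [coe_raiseHom]
  show qExpand Qb _ (coeffEmb Qb (qExpand ℚ d.1 jq)) = _
  rw [coeffEmb, coeffMap_qExpand', qExpand_qExpand, ← jqModC_rat, coeffMap_jqC]
  exact qExpand_congr (mul_comm _ _) _

/-- A primitive `q`th root of unity. -/
def zetaUnit : Qbˣ :=
  ((HasEnoughRootsOfUnity.exists_primitiveRoot Qb q).choose_spec.isUnit (NeZero.ne q)).unit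

theorem zetaUnit_primitive : IsPrimitiveRoot (zetaUnit q) q :=
  (HasEnoughRootsOfUnity.exists_primitiveRoot Qb q).choose_spec.isUnit_unit (NeZero.ne q)

theorem zetaUnit_pow : zetaUnit q ^ q = 1 := (zetaUnit_primitive q).pow_eq_one

variable {q N}

theorem zetaUnit_ne_one (hq : q.Prime) : zetaUnit q ≠ 1 :=
  (zetaUnit_primitive q).ne_one hq.one_lt

/-- The Atkin–Lehner involution at `q²`. -/
def atkin (hq : q.Prime) (hqN : ¬ q ∣ N) :
    modularFunctionFieldBar (q ^ 2 * N) →ₐ[Qb] modularFunctionFieldBar (q ^ 2 * N) :=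
  flipHom hq hqN ModCurveGenus.iotaC

/-- The Atkin–Lehner involution is an involution. -/
theorem atkin_atkin (hq : q.Prime) (hqN : ¬ q ∣ N) (x : modularFunctionFieldBar (q ^ 2 * N)) :
    atkin hq hqN (atkin hq hqN x) = x := flipHom_flipHom hq hqN _ x

/-- The middle expansion. -/
def middle (hq : q.Prime) (hqN : ¬ q ∣ N) :
    modularFunctionFieldBar (q ^ 2 * N) →ₐ[Qb] LaurentSeries Qb :=
  midHom hq hqN ModCurveGenus.iotaC (zetaUnit q) (zetaUnit_pow q) (zetaUnit_ne_one hq)

/-- The three expansions: at `∞`, middle, and at the other end. -/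
def compHom (hq : q.Prime) (hqN : ¬ q ∣ N) (i : Fin 3) :
    modularFunctionFieldBar (q ^ 2 * N) →ₐ[Qb] LaurentSeries Qb :=
  if i = 0 then (modularFunctionFieldBar (q ^ 2 * N)).val
  else if i = 1 then middle hq hqN
  else (modularFunctionFieldBar (q ^ 2 * N)).val.comp (atkin hq hqN)

theorem compHom_zero (hq : q.Prime) (hqN : ¬ q ∣ N) (x : modularFunctionFieldBar (q ^ 2 * N)) :
    compHom hq hqN 0 x = (x : LaurentSeries Qb) := rfl

theorem compHom_one (hq : q.Prime) (hqN : ¬ q ∣ N) (x : modularFunctionFieldBar (q ^ 2 * N)) :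
    compHom hq hqN 1 x = middle hq hqN x := rfl

theorem compHom_two (hq : q.Prime) (hqN : ¬ q ∣ N) (x : modularFunctionFieldBar (q ^ 2 * N)) :
    compHom hq hqN 2 x = (atkin hq hqN x : LaurentSeries Qb) := rfl

theorem atkin_raiseHom (hq : q.Prime) (hqN : ¬ q ∣ N) (i : Fin 3) (x : modularFunctionFieldBar N) :
    atkin hq hqN (raiseHom q N i x) = raiseHom q N (Fin.rev i) x := by
  refine Subtype.ext (DFunLike.congr_fun (baseExt
    (φ := (modularFunctionFieldBar (q ^ 2 * N)).val.comp ((atkin hq hqN).comp (raiseHom q N i)))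
    (ψ := (modularFunctionFieldBar (q ^ 2 * N)).val.comp (raiseHom q N (Fin.rev i)))
    fun d => ?_) x)
  show ((atkin hq hqN (raiseHom q N i (ModCurveGenus.gen N d)) : modularFunctionFieldBar _) :
    LaurentSeries Qb) = (raiseHom q N (Fin.rev i) (ModCurveGenus.gen N d) : LaurentSeries Qb)
  rw [raiseHom_gen q N hq, raiseHom_gen q N hq, atkin, flipHom_gen]
  rfl

/-- The middle expansion of `x(τ)` and `x(qτ)`. -/
theorem middle_raiseHom (hq : q.Prime) (hqN : ¬ q ∣ N) {i : Fin 3} (hi : i ≠ 2)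
    (x : modularFunctionFieldBar N) :
    middle hq hqN (raiseHom q N i x) = qExpand Qb (q ^ (i : ℕ)) (x : LaurentSeries Qb) := by
  refine DFunLike.congr_fun (baseExt (φ := (middle hq hqN).comp (raiseHom q N i))
    (ψ := (modularFunctionFieldBar (q ^ 2 * N)).val.comp (raiseHom q N i)) fun d => ?_) x
  show middle hq hqN (raiseHom q N i (ModCurveGenus.gen N d)) =
    (raiseHom q N i (ModCurveGenus.gen N d) : LaurentSeries Qb)
  rw [raiseHom_gen q N hq, middle, midHom_gen, genMid, if_neg hi]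

/-- The middle expansion of `x(q²τ)`. -/
theorem middle_raiseHom_two (hq : q.Prime) (hqN : ¬ q ∣ N) (x : modularFunctionFieldBar N) :
    middle hq hqN (raiseHom q N 2 x) = twist (zetaUnit q) (x : LaurentSeries Qb) := by
  refine DFunLike.congr_fun (baseExt (φ := (middle hq hqN).comp (raiseHom q N 2))
    (ψ := (twistHom (zetaUnit q)).comp (modularFunctionFieldBar N).val) fun d => ?_) x
  show middle hq hqN (raiseHom q N 2 (ModCurveGenus.gen N d)) =
    twist (zetaUnit q) (coeffEmb Qb (qExpand ℚ d.1 jq))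
  rw [raiseHom_gen q N hq, middle, midHom_gen, genMid, if_pos rfl, coeffEmb, coeffMap_qExpand',
    ← jqModC_rat, coeffMap_jqC]

/-- The middle expansion after the involution is a twist of a conjugate middle expansion. -/
theorem middle_atkin (hq : q.Prime) (hqN : ¬ q ∣ N) (x : modularFunctionFieldBar (q ^ 2 * N)) :
    middle hq hqN (atkin hq hqN x) = twist (zetaUnit q)
      (midHom hq hqN ModCurveGenus.iotaC (zetaUnit q)⁻¹
        (by rw [inv_pow, zetaUnit_pow, inv_one])
        (fun h => zetaUnit_ne_one hq (inv_eq_one.mp h)) x) := by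
  refine DFunLike.congr_fun (levelExt hq (φ := (middle hq hqN).comp (atkin hq hqN))
    (ψ := (twistHom (zetaUnit q)).comp (midHom hq hqN ModCurveGenus.iotaC (zetaUnit q)⁻¹
      (by rw [inv_pow, zetaUnit_pow, inv_one])
      (fun h => zetaUnit_ne_one hq (inv_eq_one.mp h)))) fun y => ?_) x
  obtain ⟨i, d⟩ := y
  rw [AlgHom.comp_apply, AlgHom.comp_apply, midHom_gen, twistHom_apply]
  have hw : atkin hq hqN ⟨gen q Qb (i, d), gen_mem Qb hq _⟩ =
      ⟨gen q Qb (Fin.rev i, d), gen_mem Qb hq _⟩ := Subtype.ext (flipHom_gen hq hqN _ (i, d))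
  rw [hw, middle, midHom_gen]
  fin_cases i
  · simp [genMid, gen, Fin.rev]
  · show genMid q (zetaUnit q) (Fin.rev 1, d) = twist (zetaUnit q) (genMid q (zetaUnit q)⁻¹ (1, d))
    rw [show Fin.rev (1 : Fin 3) = 1 by decide, genMid, genMid,
      if_neg (show (1 : Fin 3) ≠ 2 by decide), if_neg (show (1 : Fin 3) ≠ 2 by decide)]
    simp only [gen]
    rw [twist_qExpand, show zetaUnit q ^ (d.1 * q ^ ((1 : Fin 3) : ℕ)) = 1 by
      rw [Fin.val_one, pow_one, mul_comm, pow_mul, zetaUnit_pow, one_pow], twist_one]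
  · simp [genMid, gen, Fin.rev, twist_twist]

variable {A : ValuationSubring Qb}

/-- `x(qⁱτ)` is in the model of level `q²N` for `x` in the model of level `N`. -/
theorem raiseHom_mem_model (i : Fin 3) {x : modularFunctionFieldBar N} (hx : x ∈ model A N) :
    raiseHom q N i x ∈ model A (q ^ 2 * N) := by
  refine mem_model_of_integral (mem_levelField_of_coeff _ (raiseHom q N i x).2 fun n => ?_) ?_
  · rw [coe_raiseHom]
    by_cases hd : ((q ^ (i : ℕ) : ℕ) : ℤ) ∣ n
    · obtain ⟨m, rfl⟩ := hd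
      rw [qExpand_coeff_mul]
      exact coeff_mem_of_mem_levelField (levelField_of_mem_model hx) m
    · rw [qExpand_coeff_of_not_dvd _ _ hd]; exact zero_mem _
  · exact isIntegral_apply_of_model ((qExpandHom (q ^ (i : ℕ))).comp (modularFunctionFieldBar N).val)
      (isIntegral_qExpand_jBar _ _) hx

theorem atkin_jElem (hq : q.Prime) (hqN : ¬ q ∣ N) :
    (atkin hq hqN (jElem (q ^ 2 * N)) : LaurentSeries Qb) = qExpand Qb (q ^ 2) jBar := by
  have h : jElem (q ^ 2 * N) = ⟨gen q Qb ((0, ⟨1, one_dvd N⟩) : Idx N), gen_mem Qb hq _⟩ := by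
    refine Subtype.ext ?_
    show jBar = qExpand Qb (1 * q ^ 0) (jqModC Qb)
    rw [qExpand_congr (M := 1 * q ^ 0) (K := 1) (by simp), qExpand_one_apply, jBar_eq]
  rw [h, atkin, flipHom_gen, genFlip, gen, jBar_eq]
  exact qExpand_congr (by simp [Fin.rev]) _

theorem middle_jElem (hq : q.Prime) (hqN : ¬ q ∣ N) :
    middle hq hqN (jElem (q ^ 2 * N)) = jBar := by
  have h : jElem (q ^ 2 * N) = raiseHom q N 0 (jElem N) := by
    refine Subtype.ext ?_
    rw [coe_raiseHom]
    show jBar = qExpand Qb (q ^ 0) jBar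
    rw [qExpand_congr (M := q ^ 0) (K := 1) (pow_zero q), qExpand_one_apply]
  rw [h, middle_raiseHom hq hqN (show (0 : Fin 3) ≠ 2 by decide),
    qExpand_congr (M := q ^ ((0 : Fin 3) : ℕ)) (K := 1) (pow_zero q), qExpand_one_apply]
  rfl

/-- Coefficientwise Galois action commutes with the involution. -/
theorem coeffMap_atkin (hq : q.Prime) (hqN : ¬ q ∣ N) (σ : Qb ≃ₐ[ℚ] Qb)
    (x : modularFunctionFieldBar (q ^ 2 * N)) :
    coeffMap (σ : Qb →+* Qb) (atkin hq hqN x : LaurentSeries Qb) =
      (atkin hq hqN (arithmeticRingAut (modularFunctionFieldFull (q ^ 2 * N)) σ x) :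
        LaurentSeries Qb) := by
  refine level_induction hq (P := fun f => coeffMap (σ : Qb →+* Qb) (atkin hq hqN f : LaurentSeries Qb) =
      (atkin hq hqN (arithmeticRingAut (modularFunctionFieldFull (q ^ 2 * N)) σ f) :
        LaurentSeries Qb)) (fun i => ?_) (fun c => ?_) (fun x y hx hy => ?_) (fun x hx => ?_)
    (fun x y hx hy => ?_) x
  · have hR : ∀ i : Idx N, arithmeticRingAut (modularFunctionFieldFull (q ^ 2 * N)) σ
        ⟨gen q Qb i, gen_mem Qb hq i⟩ = ⟨gen q Qb i, gen_mem Qb hq i⟩ := fun i => Subtype.ext (by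
      rw [coe_arithmeticRingAut_apply]
      show coeffMap (σ : Qb →+* Qb) (qExpand Qb _ (jqModC Qb)) = _
      rw [coeffMap_qExpand', coeffMap_jqC]
      rfl)
    rw [hR, atkin, flipHom_gen]
    exact congrArg Subtype.val (hR _)
  · rw [AlgHom.commutes, arithmeticRingAut_algebraMap, AlgHom.commutes]
    exact coeffMap_algebraMap (σ : Qb →+* Qb) c
  · simp only [map_add, IntermediateField.coe_add, hx, hy]
  · simp only [map_inv₀, IntermediateField.coe_inv, hx]
  · simp only [map_mul, IntermediateField.coe_mul, hx, hy]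

/-- The involution preserves `levelField`. -/
theorem atkin_mem_levelField (hq : q.Prime) (hqN : ¬ q ∣ N)
    {x : modularFunctionFieldBar (q ^ 2 * N)}
    (hx : (x : LaurentSeries Qb) ∈ levelField (inertiaField A) (q ^ 2 * N)) :
    (atkin hq hqN x : LaurentSeries Qb) ∈ levelField (inertiaField A) (q ^ 2 * N) := by
  refine mem_levelField_of_fixed (atkin hq hqN x).2 fun σ hσ => ?_
  rw [coeffMap_atkin, show arithmeticRingAut (modularFunctionFieldFull (q ^ 2 * N)) σ x = x from
    Subtype.ext (coeffMap_levelField hσ hx)]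

/-- The involution preserves the model. -/
theorem atkin_mem_model (hq : q.Prime) (hqN : ¬ q ∣ N)
    {x : modularFunctionFieldBar (q ^ 2 * N)} (hx : x ∈ model A (q ^ 2 * N)) :
    atkin hq hqN x ∈ model A (q ^ 2 * N) := by
  refine mem_model_of_integral (atkin_mem_levelField hq hqN (levelField_of_mem_model hx)) ?_
  refine isIntegral_apply_of_model ((modularFunctionFieldBar _).val.comp (atkin hq hqN)) ?_ hx
  show IsIntegral _ (atkin hq hqN (jElem (q ^ 2 * N)) : LaurentSeries Qb)
  rw [atkin_jElem]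
  exact isIntegral_qExpand_jBar _ _

/-- The three expansions of elements of the model are integral. -/
theorem compHom_mem_intSeries (hA : A.LiesOverPrime q) (hq : q.Prime) (hqN : ¬ q ∣ N) (i : Fin 3)
    {x : modularFunctionFieldBar (q ^ 2 * N)} (hx : x ∈ model A (q ^ 2 * N)) :
    compHom hq hqN i x ∈ (resData A).intSeries := by
  have key : ∀ (φ : modularFunctionFieldBar (q ^ 2 * N) →ₐ[Qb] LaurentSeries Qb) (e : ℕ) [NeZero e],
      qExpand Qb e (φ (jElem (q ^ 2 * N))) = qExpand Qb (q ^ 2 * N) jBar →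
      φ x ∈ (resData A).intSeries := by
    intro φ e _ he
    exact (qExpand_mem_intSeries_iff _ e).mp
      (emb_mem_intSeries_of_model hA hq hx ⟨(qExpandHom e).comp φ, he⟩)
  fin_cases i
  · exact key _ (q ^ 2 * N) rfl
  · exact key (middle hq hqN) (q ^ 2 * N) (by rw [middle_jElem])
  · refine key (compHom hq hqN 2) N ?_
    rw [compHom_two, atkin_jElem, qExpand_qExpand]
    exact qExpand_congr (mul_comm _ _) _

end Fermat.Agent.CarayolFF
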