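import Fermat.Agent.CarayolFF.Range
import Fermat.Agent.Hecke.Degree

/-!
# The norm from level `q²N` to level `qN` on the model and its reductions

`normLevel x` is the norm along the inclusion, viewed in the model of level `q²N` again.
-/

set_option autoImplicit false

noncomputable section

open ModularCurve IntermediateField AlgebraicCurve
open Fermat.Agent.ModularFunctionField
open Fermat.Agent.Carayol Fermat.Agent.KummerReduction

namespace Fermat.Agent.CarayolFF

local notation "Qb" => AlgebraicClosure ℚ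

variable (q N : ℕ) [NeZero q] [NeZero N]

theorem level_qN_le : modularFunctionFieldBar (q * N) ≤ modularFunctionFieldBar (q ^ 2 * N) := by
  rw [ModCurveGenus.bar_eq_adjoin (q * N), IntermediateField.adjoin_le_iff]
  rintro _ ⟨d, rfl⟩
  rw [ModCurveGenus.genS]
  have hd : d.1 ∣ q ^ 2 * N :=
    (ModCurveGenus.Dvs.dvd d).trans (mul_dvd_mul_right (dvd_pow_self q two_ne_zero) N)
  exact coeffEmb_mem_laurentBaseChange Qb
    (F₀ := modularFunctionFieldFull (q ^ 2 * N)) (x := qExpand ℚ d.1 jq)
    (jqd_mem_full (q ^ 2 * N) hd)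

/-- The inclusion of level `qN` in level `q²N`. -/
def alphaIncl : modularFunctionFieldBar (q * N) →ₐ[Qb] modularFunctionFieldBar (q ^ 2 * N) :=
  IntermediateField.inclusion (level_qN_le q N)

theorem coe_alphaIncl (z : modularFunctionFieldBar (q * N)) :
    (alphaIncl q N z : LaurentSeries Qb) = z := by
  rw [alphaIncl]
  exact IntermediateField.coe_inclusion _ z

variable {q N}

theorem isFunctionField_bar (M : ℕ) [NeZero M] :
    FunctionField.IsFunctionField Qb (modularFunctionFieldBar M) :=
  Hecke.isFunctionField_of_data Qb M fun d _ => ⟨modularPolynomialData d⟩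

/-- Level `q²N` has degree `q` over level `qN`. -/
theorem finrankAlong_alphaIncl (hq : q.Prime) (hqN : ¬ q ∣ N) :
    finrankAlong Qb (alphaIncl q N) = q := by
  have := isFunctionField_bar (q * N)
  have := isFunctionField_bar (q ^ 2 * N)
  have h := Hecke.finrank_adjoin_map (alphaIncl q N) (jElem (q * N))
  have hj : alphaIncl q N (jElem (q * N)) = jElem (q ^ 2 * N) := Subtype.ext rfl
  have h1 := finrank_baseJ (q * N)
  have h2 := finrank_baseJ (q ^ 2 * N)
  unfold baseJ at h1 h2
  rw [hj, h1, h2, Gamma0Cosets.dedekindPsi_mul ((hq.coprime_iff_not_dvd.mpr hqN).pow_left 2),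
    Gamma0Cosets.dedekindPsi_mul (hq.coprime_iff_not_dvd.mpr hqN),
    Gamma0Cosets.dedekindPsi_prime_pow hq two_pos] at h
  have hψ : dedekindPsi q = q + 1 := by
    simpa using Gamma0Cosets.dedekindPsi_prime_pow hq one_pos
  rw [hψ, show (2 : ℕ) - 1 = 1 from rfl, pow_one] at h
  have hpos : 0 < dedekindPsi N := by
    rw [← finrank_baseJ N]
    exact Module.finrank_pos
  refine Nat.eq_of_mul_eq_mul_left (Nat.mul_pos (show 0 < q + 1 by omega) hpos) ?_
  rw [← h]
  ring

/-- The norm to level `qN`, viewed at level `q²N`. -/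
def normFun (x : modularFunctionFieldBar (q ^ 2 * N)) : modularFunctionFieldBar (q ^ 2 * N) :=
  alphaIncl q N (normAlong (alphaIncl q N) x)

theorem normFun_mul (x y : modularFunctionFieldBar (q ^ 2 * N)) :
    normFun (x * y) = normFun x * normFun y := by
  let := algebraAlong (alphaIncl q N)
  simp only [normFun, normAlong, map_mul]

theorem normFun_one : normFun (1 : modularFunctionFieldBar (q ^ 2 * N)) = 1 := by
  let := algebraAlong (alphaIncl q N)
  simp only [normFun, normAlong, map_one]

theorem normFun_zero (hq : q.Prime) (hqN : ¬ q ∣ N) :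
    normFun (0 : modularFunctionFieldBar (q ^ 2 * N)) = 0 := by
  let := algebraAlong (alphaIncl q N)
  have hn : Module.finrank (modularFunctionFieldBar (q * N))
      (modularFunctionFieldBar (q ^ 2 * N)) = q := finrankAlong_alphaIncl hq hqN
  have : FiniteDimensional (modularFunctionFieldBar (q * N))
      (modularFunctionFieldBar (q ^ 2 * N)) := Module.finite_of_finrank_pos (by rw [hn]; exact hq.pos)
  simp only [normFun, normAlong, Algebra.norm_zero, map_zero]

theorem normFun_algebraMap (hq : q.Prime) (hqN : ¬ q ∣ N) (c : Qb) :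
    normFun (algebraMap Qb (modularFunctionFieldBar (q ^ 2 * N)) c) =
      algebraMap Qb _ c ^ q := by
  let := algebraAlong (alphaIncl q N)
  have h : algebraMap Qb (modularFunctionFieldBar (q ^ 2 * N)) c =
      algebraMap (modularFunctionFieldBar (q * N)) (modularFunctionFieldBar (q ^ 2 * N))
        (algebraMap Qb _ c) := ((alphaIncl q N).commutes c).symm
  have hn : Module.finrank (modularFunctionFieldBar (q * N))
      (modularFunctionFieldBar (q ^ 2 * N)) = q := finrankAlong_alphaIncl hq hqN
  rw [normFun, normAlong, h, Algebra.norm_algebraMap, hn, map_pow]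
  rfl

variable {A : ValuationSubring Qb} (hq : q.Prime) (hqN : ¬ q ∣ N)

/-- The norm is the product of the conjugates over level `qN`. -/
theorem coe_normFun (x : modularFunctionFieldBar (q ^ 2 * N)) :
    (normFun x : LaurentSeries Qb) =
      ∏ a : Fin q, alphaConj hq hqN ModCurveGenus.iotaC (zetaUnit q) (zetaUnit_pow q)
        (zetaUnit_ne_one hq) a x := by
  rw [normFun, coe_alphaIncl]
  exact norm_alpha hq hqN _ _ (zetaUnit_pow q) (zetaUnit_ne_one hq) _ (lowerField_eq hq)
    (alphaIncl q N) (coe_alphaIncl q N) (finrankAlong_alphaIncl hq hqN) x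

theorem alphaConj_jElem (a : Fin q) :
    alphaConj hq hqN ModCurveGenus.iotaC (zetaUnit q) (zetaUnit_pow q) (zetaUnit_ne_one hq) a
      (jElem (q ^ 2 * N)) = jBar := by
  have h : jElem (q ^ 2 * N) = ⟨gen q Qb ((0, ⟨1, one_dvd N⟩) : Idx N), gen_mem Qb hq _⟩ := by
    refine Subtype.ext ?_
    show jBar = qExpand Qb (1 * q ^ 0) (jqModC Qb)
    rw [qExpand_congr (M := 1 * q ^ 0) (K := 1) (by simp), qExpand_one_apply, jBar_eq]
  rw [h, alphaConj_gen hq hqN _ _ _ _ _ (show (0 : Fin 3) ≠ 2 by decide)]
  show qExpand Qb (1 * q ^ 0) (jqModC Qb) = jBar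
  rw [qExpand_congr (M := 1 * q ^ 0) (K := 1) (by simp), qExpand_one_apply, jBar_eq]

/-- Coefficientwise inertia fixes the norm of a fixed function. -/
theorem coeffMap_normFun {σ : Qb ≃ₐ[ℚ] Qb} {x : modularFunctionFieldBar (q ^ 2 * N)}
    (hx : coeffMap (σ : Qb →+* Qb) (x : LaurentSeries Qb) = x) :
    coeffMap (σ : Qb →+* Qb) (normFun x : LaurentSeries Qb) = normFun x := by
  let := algebraAlong (alphaIncl q N)
  have h := Algebra.norm_eq_of_equiv_equiv
    (arithmeticRingAut (modularFunctionFieldFull (q * N)) σ)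
    (arithmeticRingAut (modularFunctionFieldFull (q ^ 2 * N)) σ)
    (RingHom.ext fun z => Subtype.ext (by
      show ((alphaIncl q N (arithmeticRingAut (modularFunctionFieldFull (q * N)) σ z) :
        modularFunctionFieldBar (q ^ 2 * N)) : LaurentSeries Qb) =
        ((arithmeticRingAut (modularFunctionFieldFull (q ^ 2 * N)) σ (alphaIncl q N z) :
          modularFunctionFieldBar (q ^ 2 * N)) : LaurentSeries Qb)
      rw [coe_alphaIncl, coe_arithmeticRingAut_apply, coe_arithmeticRingAut_apply, coe_alphaIncl])) x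
  rw [show arithmeticRingAut (modularFunctionFieldFull (q ^ 2 * N)) σ x = x from Subtype.ext hx] at h
  have h' := congrArg (arithmeticRingAut (modularFunctionFieldFull (q * N)) σ) h
  rw [RingEquiv.apply_symm_apply] at h'
  have h'' := congrArg (fun z : modularFunctionFieldBar (q * N) => (z : LaurentSeries Qb)) h'
  simp only [coe_arithmeticRingAut_apply] at h''
  rw [normFun, coe_alphaIncl]
  exact h''

/-- The conjugates of elements of the model are integral over `W[j]`. -/
theorem isIntegral_alphaConj (a : Fin q) (x : model A (q ^ 2 * N)) :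
    IsIntegral (jPolyRing (unramInt A))
      (alphaConj hq hqN ModCurveGenus.iotaC (zetaUnit q) (zetaUnit_pow q) (zetaUnit_ne_one hq) a
        (x : modularFunctionFieldBar (q ^ 2 * N))) :=
  isIntegral_apply_of_model _ (alphaConj_jElem hq hqN a ▸
    isIntegral_algebraMap (R := jPolyRing (unramInt A))
      (x := ⟨jBar, Subring.subset_closure (Or.inr rfl)⟩)) x.2

include hq hqN in
/-- The norm preserves the model. -/
theorem normFun_mem_model (x : model A (q ^ 2 * N)) :
    normFun (x : modularFunctionFieldBar (q ^ 2 * N)) ∈ model A (q ^ 2 * N) := by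
  refine mem_model_of_integral (mem_levelField_of_fixed (normFun _).2 fun σ hσ =>
    coeffMap_normFun (coeffMap_levelField hσ (levelField_of_mem_model x.2))) ?_
  rw [coe_normFun hq hqN]
  exact IsIntegral.prod _ fun a _ => isIntegral_alphaConj hq hqN a x

variable (A) in
/-- The norm on the model. -/
def normLevel : model A (q ^ 2 * N) →* model A (q ^ 2 * N) where
  toFun x := ⟨normFun (x : modularFunctionFieldBar (q ^ 2 * N)), normFun_mem_model hq hqN x⟩
  map_one' := Subtype.ext normFun_one
  map_mul' _ _ := Subtype.ext (normFun_mul _ _)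

theorem coe_normLevel (x : model A (q ^ 2 * N)) :
    (normLevel A hq hqN x : modularFunctionFieldBar (q ^ 2 * N)) = normFun x.1 := rfl

/-- The norm of a constant. -/
theorem normLevel_constModel (c : unramInt A) :
    normLevel A hq hqN (constModel A (q ^ 2 * N) c) = constModel A (q ^ 2 * N) c ^ q :=
  Subtype.ext (normFun_algebraMap hq hqN (c : Qb))

/-- An element of the model divides its norm. -/
theorem dvd_normLevel (x : model A (q ^ 2 * N)) : x ∣ normLevel A hq hqN x := by
  rcases eq_or_ne x 0 with rfl | hx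
  · exact ⟨0, Subtype.ext (by rw [mul_zero]; exact normFun_zero hq hqN)⟩
  have hx0 : (x : modularFunctionFieldBar (q ^ 2 * N)) ≠ 0 := fun h => hx (Subtype.ext h)
  have hxs : ((x : modularFunctionFieldBar (q ^ 2 * N)) : LaurentSeries Qb) ≠ 0 :=
    fun h => hx0 (Subtype.ext h)
  have hmem : normFun (x : modularFunctionFieldBar (q ^ 2 * N)) / x.1 ∈ model A (q ^ 2 * N) := by
    refine mem_model_of_integral ?_ ?_
    · rw [IntermediateField.coe_div]
      exact div_mem (levelField_of_mem_model (normFun_mem_model hq hqN x))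
        (levelField_of_mem_model x.2)
    · rw [IntermediateField.coe_div, coe_normFun hq hqN]
      set i₀ : Fin q := ⟨0, hq.pos⟩
      rw [← Finset.mul_prod_erase Finset.univ _ (Finset.mem_univ i₀)]
      have h0 : alphaConj hq hqN ModCurveGenus.iotaC (zetaUnit q) (zetaUnit_pow q)
          (zetaUnit_ne_one hq) i₀ (x : modularFunctionFieldBar (q ^ 2 * N)) =
          ((x : modularFunctionFieldBar (q ^ 2 * N)) : LaurentSeries Qb) := by
        rw [alphaConj, dif_pos (show ((i₀ : Fin q) : ℕ) = 0 from rfl)]; rfl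
      rw [h0, mul_div_cancel_left₀ _ hxs]
      exact IsIntegral.prod _ fun a _ => isIntegral_alphaConj hq hqN a x
  exact ⟨⟨_, hmem⟩, Subtype.ext (mul_div_cancel₀ _ hx0).symm⟩

/-- The middle expansion fixes level `qN`. -/
theorem middle_alphaIncl (z : modularFunctionFieldBar (q * N)) :
    middle hq hqN (alphaIncl q N z) = (z : LaurentSeries Qb) := by
  refine DFunLike.congr_fun (algHom_ext_of_eq_adjoin Qb (lowerField_eq (N := N) (L := Qb) hq)
    (φ₁ := (middle hq hqN).comp (alphaIncl q N)) (φ₂ := (modularFunctionFieldBar (q * N)).val)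
    fun y hy => ?_) z
  obtain ⟨i, hi, rfl⟩ := hy
  show middle hq hqN (alphaIncl q N ⟨gen q Qb i, _⟩) = gen q Qb i
  rw [show alphaIncl q N ⟨gen q Qb i, _⟩ = ⟨gen q Qb i, gen_mem Qb hq i⟩ from Subtype.ext rfl,
    middle, midHom_gen, genMid, if_neg hi]

/-- The involution turns the norm into the norm along `τ ↦ qτ`. -/
theorem atkin_normFun (x : modularFunctionFieldBar (q ^ 2 * N)) :
    (atkin hq hqN (normFun x) : LaurentSeries Qb) =
      ∏ a : Fin q, twist (zetaUnit q ^ (a : ℕ)) (atkin hq hqN x : LaurentSeries Qb) := by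
  let i₀ : Fin q := ⟨0, hq.pos⟩
  have : CharZero (modularFunctionFieldBar (q * N)) :=
    charZero_of_injective_algebraMap (algebraMap Qb (modularFunctionFieldBar (q * N))).injective
  let σ : Fin q → modularFunctionFieldBar (q ^ 2 * N) →ₐ[Qb] LaurentSeries Qb := fun a =>
    (twistHom (zetaUnit q ^ (a : ℕ))).comp ((modularFunctionFieldBar _).val.comp (atkin hq hqN))
  have key : ∀ (z : modularFunctionFieldBar (q * N)) (a : Fin q),
      σ a (alphaIncl q N z) = (atkin hq hqN (alphaIncl q N z) : LaurentSeries Qb) := by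
    intro z a
    refine DFunLike.congr_fun (algHom_ext_of_eq_adjoin Qb (lowerField_eq (N := N) (L := Qb) hq)
      (φ₁ := (σ a).comp (alphaIncl q N))
      (φ₂ := ((modularFunctionFieldBar (q ^ 2 * N)).val.comp (atkin hq hqN)).comp (alphaIncl q N))
      fun y hy => ?_) z
    obtain ⟨⟨i, d⟩, hi, rfl⟩ := hy
    show twist _ ((atkin hq hqN (alphaIncl q N ⟨gen q Qb (i, d), _⟩) :
      modularFunctionFieldBar _) : LaurentSeries Qb) =
      ((atkin hq hqN (alphaIncl q N ⟨gen q Qb (i, d), _⟩) : modularFunctionFieldBar _) :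
        LaurentSeries Qb)
    rw [show alphaIncl q N ⟨gen q Qb (i, d), _⟩ = ⟨gen q Qb (i, d), gen_mem Qb hq _⟩ from
      Subtype.ext rfl, atkin, flipHom_gen, genFlip, gen, twist_qExpand]
    obtain ⟨r, hr⟩ : ∃ r, ((Fin.rev i : Fin 3) : ℕ) = r + 1 := by
      refine ⟨((Fin.rev i : Fin 3) : ℕ) - 1, ?_⟩
      have hi' : (i : ℕ) ≠ 2 := fun h => hi (Fin.ext h)
      rw [Fin.val_rev]
      have := i.isLt
      omega
    rw [show (zetaUnit q ^ (a : ℕ)) ^ (d.1 * q ^ ((Fin.rev i : Fin 3) : ℕ)) = 1 by
      rw [hr, pow_succ', show d.1 * (q * q ^ r) = q * (d.1 * q ^ r) by ring, pow_mul,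
        unit_pow_eq_one (zetaUnit_pow q), one_pow], twist_one]
  have hinj : Function.Injective σ := by
    intro a b h
    let g : modularFunctionFieldBar (q ^ 2 * N) :=
      ⟨gen q Qb ((2, ⟨1, one_dvd N⟩) : Idx N), gen_mem Qb hq _⟩
    have hg : (atkin hq hqN g : LaurentSeries Qb) = qExpand Qb 1 (jqModC Qb) := by
      rw [atkin, flipHom_gen, genFlip, gen]
      exact qExpand_congr (by simp [Fin.rev]) _
    have h' : (twist (zetaUnit q ^ (a : ℕ)) (atkin hq hqN g : LaurentSeries Qb)).coeff (-1) =
        (twist (zetaUnit q ^ (b : ℕ)) (atkin hq hqN g : LaurentSeries Qb)).coeff (-1) :=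
      congrArg (fun φ : modularFunctionFieldBar (q ^ 2 * N) →ₐ[Qb] LaurentSeries Qb =>
        (φ g).coeff (-1)) h
    have h1 := coeff_qExpand_jqModC_neg (L := Qb) 1
    rw [Nat.cast_one] at h1
    rw [hg, twist_coeff, twist_coeff, h1, mul_one, mul_one, ← Units.ext_iff, zpow_neg_one,
      zpow_neg_one, inv_inj] at h'
    have := Fact.mk hq
    have hord : orderOf (zetaUnit q) = q := orderOf_eq_prime (zetaUnit_pow q) (zetaUnit_ne_one hq)
    exact Fin.ext (pow_injOn_Iio_orderOf (by simp [hord, a.2]) (by simp [hord, b.2]) h')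
  have h := normAlong_eq_prod (alphaIncl q N) (finrankAlong_alphaIncl hq hqN) i₀
    (fun a => (σ a).toRingHom) (fun a b hab => hinj (AlgHom.coe_ringHom_injective hab))
    (fun a z => (key z a).trans (key z i₀).symm) x
  exact (key _ i₀).symm.trans h

variable (hA : A.LiesOverPrime q)

/-- `r₂₀ (N x) = r₂₀ x · r₁₁ x ^ (q - 1)`. -/
theorem resHom_zero_normLevel (x : model A (q ^ 2 * N)) :
    resHom hA hq hqN 0 (normLevel A hq hqN x) =
      resHom hA hq hqN 0 x * resHom hA hq hqN 1 x ^ (q - 1) := by
  classical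
  set i₀ : Fin q := ⟨0, hq.pos⟩
  have hterm : ∀ a : Fin q, ∃ h : alphaConj hq hqN ModCurveGenus.iotaC (zetaUnit q) (zetaUnit_pow q)
      (zetaUnit_ne_one hq) a (x : modularFunctionFieldBar (q ^ 2 * N)) ∈ (resData A).intSeries,
      (resData A).redSeries ⟨_, h⟩ =
        if a = i₀ then resHom hA hq hqN 0 x else resHom hA hq hqN 1 x := by
    intro a
    by_cases ha : (a : ℕ) = 0
    · have hai : a = i₀ := Fin.ext ha
      have hval : alphaConj hq hqN ModCurveGenus.iotaC (zetaUnit q) (zetaUnit_pow q)
          (zetaUnit_ne_one hq) a (x : modularFunctionFieldBar (q ^ 2 * N)) =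
          compHom hq hqN 0 x := by rw [alphaConj, dif_pos ha]; rfl
      refine ⟨hval ▸ compHom_mem_intSeries hA hq hqN 0 x.2, ?_⟩
      rw [if_pos hai, resHom_apply]
      exact redSeries_congr hval _ _
    · obtain ⟨h, hres⟩ := redSeries_midHom_pow hA hq hqN
        (fun hd => ha (Nat.eq_zero_of_dvd_of_lt hd a.2))
        (unit_pow_eq_one (zetaUnit_pow q) a)
        (unit_pow_ne_one hq (zetaUnit_pow q) (zetaUnit_ne_one hq) ha a.2) x
      have hval : alphaConj hq hqN ModCurveGenus.iotaC (zetaUnit q) (zetaUnit_pow q)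
          (zetaUnit_ne_one hq) a (x : modularFunctionFieldBar (q ^ 2 * N)) =
          midHom hq hqN ModCurveGenus.iotaC (zetaUnit q ^ (a : ℕ))
            (unit_pow_eq_one (zetaUnit_pow q) a)
            (unit_pow_ne_one hq (zetaUnit_pow q) (zetaUnit_ne_one hq) ha a.2) x := by
        rw [alphaConj, dif_neg ha]
      refine ⟨hval ▸ h, ?_⟩
      rw [if_neg (fun h' : a = i₀ => ha (congrArg Fin.val h')), ← hres]
      exact redSeries_congr hval _ _
  choose hmem hres using hterm
  set T : Fin q → (resData A).intSeries := fun a => ⟨_, hmem a⟩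
  have hT : ((∏ a, T a : (resData A).intSeries) : LaurentSeries Qb) =
      compHom hq hqN 0 (normLevel A hq hqN x) := by
    rw [SubmonoidClass.coe_finsetProd, compHom_zero, coe_normLevel, coe_normFun hq hqN]
  rw [resHom_apply, ← redSeries_congr hT (∏ a, T a).2 _, Subtype.coe_eta, map_prod]
  simp only [T, hres]
  rw [← Finset.mul_prod_erase _ _ (Finset.mem_univ i₀), if_pos rfl,
    Finset.prod_congr rfl (fun a ha => if_neg (Finset.ne_of_mem_erase ha)), Finset.prod_const,
    Finset.card_erase_of_mem (Finset.mem_univ i₀), Finset.card_univ, Fintype.card_fin]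

/-- `r₁₁ (N x) = r₂₀ (N x)`. -/
theorem resHom_one_normLevel (x : model A (q ^ 2 * N)) :
    resHom hA hq hqN 1 (normLevel A hq hqN x) = resHom hA hq hqN 0 (normLevel A hq hqN x) := by
  rw [resHom_apply, resHom_apply]
  refine redSeries_congr ?_ _ _
  rw [compHom_one, compHom_zero, coe_normLevel, normFun, middle_alphaIncl, coe_alphaIncl]

/-- `r₀₂ (N x) = r₀₂ x ^ q`. -/
theorem resHom_two_normLevel (x : model A (q ^ 2 * N)) :
    resHom hA hq hqN 2 (normLevel A hq hqN x) = resHom hA hq hqN 2 x ^ q := by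
  have hterm : ∀ a : Fin q, ∃ h : twist (zetaUnit q ^ (a : ℕ))
      (compHom hq hqN 2 (x : modularFunctionFieldBar (q ^ 2 * N))) ∈ (resData A).intSeries,
      (resData A).redSeries ⟨_, h⟩ = resHom hA hq hqN 2 x := fun a =>
    redSeries_twist (fun n => by
      rw [← zpow_natCast (zetaUnit q), ← zpow_mul]
      exact zetaUnit_zpow_sub_one hA hq _) (compHom_mem_intSeries hA hq hqN 2 x.2)
  choose hmem hres using hterm
  set T : Fin q → (resData A).intSeries := fun a => ⟨_, hmem a⟩
  have hT : ((∏ a, T a : (resData A).intSeries) : LaurentSeries Qb) =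
      compHom hq hqN 2 (normLevel A hq hqN x) := by
    rw [SubmonoidClass.coe_finsetProd, compHom_two, coe_normLevel, atkin_normFun hq hqN]
    rfl
  rw [resHom_apply, ← redSeries_congr hT (∏ a, T a).2 _, Subtype.coe_eta, map_prod]
  simp only [T, hres, Finset.prod_const, Finset.card_univ, Fintype.card_fin]

end Fermat.Agent.CarayolFF
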