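import Fermat.Agent.CarayolFF.Vertical
import Fermat.Agent.CarayolFF.NormProd
import Fermat.Prelude.Def_AlgebraicCurve_Correspondence
import Mathlib.Algebra.CharP.Lemmas
import Mathlib.Algebra.CharP.Subring

/-!
# Norms from level `q²N` to level `qN` and their residues

Both norms are explicit products over conjugates, whence their residues are
`r₂₀ * r₁₁ ^ (q - 1)` and `r₂₀ ^ q`.
-/

set_option autoImplicit false

noncomputable section

open ModularCurve AlgebraicCurve
open Fermat.Agent.ModularFunctionField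

namespace Fermat.Agent.CarayolFF

variable {L : Type*} [Field L] [Algebra ℚ L] {q N : ℕ} [NeZero q] [NeZero N]

omit [Algebra ℚ L] [NeZero q] in
theorem unit_pow_eq_one {u : Lˣ} (hu : u ^ q = 1) (a : ℕ) : (u ^ a) ^ q = 1 := by
  rw [← pow_mul, mul_comm, pow_mul, hu, one_pow]

omit [Algebra ℚ L] [NeZero q] in
theorem unit_pow_ne_one (hq : q.Prime) {u : Lˣ} (hu : u ^ q = 1) (hu1 : u ≠ 1) {a : ℕ}
    (ha0 : a ≠ 0) (ha : a < q) : u ^ a ≠ 1 := by
  intro h
  have := Fact.mk hq
  have hord : orderOf u = q := orderOf_eq_prime hu hu1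
  have hdvd := orderOf_dvd_of_pow_eq_one h
  rw [hord] at hdvd
  exact absurd (Nat.le_of_dvd (Nat.pos_of_ne_zero ha0) hdvd) (not_le.mpr ha)

omit [Algebra ℚ L] in
theorem coeff_qExpand_jqModC_neg (e : ℕ) [NeZero e] :
    (qExpand L e (jqModC L)).coeff (-(e : ℤ)) = 1 := by
  rw [show -(e : ℤ) = (e : ℤ) * (-1) by ring, qExpand_coeff_mul, jqModC,
    HahnSeries.coeff_single_mul, one_mul]
  rw [show (-1 : ℤ) - (-1) = ((0 : ℕ) : ℤ) by norm_num, HahnSeries.ofPowerSeries_apply_coeff,
    PowerSeries.coeff_map, PowerSeries.coeff_zero_eq_constantCoeff, constantCoeff_jNum, map_one]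

/-- The family of conjugates over level `qN` along the inclusion. -/
def alphaConj (hq : q.Prime) (hqN : ¬ q ∣ N) (ι : L →+* ℂ) (u : Lˣ) (hu : u ^ q = 1)
    (hu1 : u ≠ 1) (a : Fin q) :
    laurentBaseChange L (modularFunctionFieldFull (q ^ 2 * N)) →ₐ[L] LaurentSeries L :=
  if h : (a : ℕ) = 0 then (laurentBaseChange L (modularFunctionFieldFull (q ^ 2 * N))).val
  else midHom hq hqN ι (u ^ (a : ℕ)) (unit_pow_eq_one hu a) (unit_pow_ne_one hq hu hu1 h a.2)

/-- All conjugates agree on the generators of level `qN`. -/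
theorem alphaConj_gen (hq : q.Prime) (hqN : ¬ q ∣ N) (ι : L →+* ℂ) (u : Lˣ) (hu : u ^ q = 1)
    (hu1 : u ≠ 1) (a : Fin q) {x : Idx N} (hx : x.1 ≠ 2) :
    alphaConj hq hqN ι u hu hu1 a ⟨gen q L x, gen_mem L hq x⟩ = gen q L x := by
  unfold alphaConj
  split
  · rfl
  · rw [midHom_gen]; simp [genMid, hx]

/-- The conjugates are distinct. -/
theorem alphaConj_injective (hq : q.Prime) (hqN : ¬ q ∣ N) (ι : L →+* ℂ) (u : Lˣ) (hu : u ^ q = 1)
    (hu1 : u ≠ 1) : Function.Injective (alphaConj (N := N) hq hqN ι u hu hu1) := by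
  set x : Idx N := (2, ⟨1, one_dvd N⟩) with hx
  set g : laurentBaseChange L (modularFunctionFieldFull (q ^ 2 * N)) :=
    ⟨gen q L x, gen_mem L hq x⟩ with hg
  have hval : ∀ a : Fin q, (alphaConj hq hqN ι u hu hu1 a g).coeff (-1) =
      if (a : ℕ) = 0 then 0 else (((u ^ (a : ℕ))⁻¹ : Lˣ) : L) := by
    intro a
    unfold alphaConj
    split
    · show (qExpand L (1 * q ^ 2) (jqModC L)).coeff (-1) = 0
      refine qExpand_coeff_of_not_dvd _ _ fun hd => ?_
      have h4 : 2 ≤ q ^ 2 := hq.two_le.trans (Nat.le_self_pow two_ne_zero q)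
      rw [one_mul] at hd
      have hd' : ((q ^ 2 : ℕ) : ℤ) ∣ 1 := dvd_neg.mp hd
      have hle := Int.le_of_dvd one_pos hd'
      omega
    · rw [hg, midHom_gen]
      show (genMid q _ x).coeff (-1) = _
      rw [genMid, if_pos rfl, twist_coeff]
      have h1 := coeff_qExpand_jqModC_neg (L := L) 1
      rw [Nat.cast_one] at h1
      show _ * (qExpand L 1 (jqModC L)).coeff (-1) = _
      rw [h1, mul_one, zpow_neg_one]
  intro a b h
  have h' := (hval a).symm.trans ((congrArg (fun φ => (φ g).coeff (-1)) h).trans (hval b))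
  apply Fin.ext
  by_contra hne
  by_cases ha : (a : ℕ) = 0
  · rw [if_pos ha, if_neg (by omega)] at h'
    exact Units.ne_zero _ h'.symm
  by_cases hb : (b : ℕ) = 0
  · rw [if_neg ha, if_pos hb] at h'
    exact Units.ne_zero _ h'
  rw [if_neg ha, if_neg hb, ← Units.ext_iff, inv_inj] at h'
  have := Fact.mk hq
  have hord : orderOf u = q := orderOf_eq_prime hu hu1
  exact hne (pow_injOn_Iio_orderOf (by simp [hord, a.2]) (by simp [hord, b.2]) h')

/-- The field generated by the generators of level `qN`. -/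
def lowerField (q : ℕ) [NeZero q] (N : ℕ) [NeZero N] (L : Type*) [Field L] :
    IntermediateField L (LaurentSeries L) :=
  IntermediateField.adjoin L (gen (N := N) q L '' {x | x.1 ≠ 2})

/-- It is the field of level `qN`. -/
theorem lowerField_eq (hq : q.Prime) :
    laurentBaseChange L (modularFunctionFieldFull (q * N)) = lowerField q N L := by
  rw [laurentBaseChange_full, lowerField]
  congr 1
  ext x
  constructor
  · rintro ⟨e, he, hdvd, rfl⟩
    obtain ⟨a, b, ha, hb, rfl⟩ := Nat.dvd_mul.mp hdvd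
    have hb' : NeZero b := ⟨ne_zero_of_dvd_ne_zero (NeZero.ne N) hb⟩
    rcases (Nat.dvd_prime hq).mp ha with rfl | rfl
    · exact ⟨(0, ⟨b, hb⟩), show (0 : Fin 3) ≠ 2 by decide,
        qExpand_congr (M := b * q ^ 0) (K := 1 * b) (by simp) _⟩
    · exact ⟨(1, ⟨b, hb⟩), show (1 : Fin 3) ≠ 2 by decide,
        qExpand_congr (M := b * a ^ 1) (K := a * b) (by ring) _⟩
  · rintro ⟨⟨i, d, hd⟩, hi, rfl⟩
    refine ⟨d * q ^ (i : ℕ), instNeZeroLvl (q := q) (i, ⟨d, hd⟩), ?_, rfl⟩
    have hi' : (i : ℕ) ≤ 1 := by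
      have := i.isLt
      have : (i : ℕ) ≠ 2 := fun h' => hi (Fin.ext h')
      omega
    rw [mul_comm q N]
    exact mul_dvd_mul hd (dvd_trans (pow_dvd_pow q hi') (by rw [pow_one]))

/-- The norm along the inclusion of level `qN` in level `q²N`. -/
theorem norm_alpha [CharZero L] (hq : q.Prime) (hqN : ¬ q ∣ N) (ι : L →+* ℂ) (u : Lˣ)
    (hu : u ^ q = 1) (hu1 : u ≠ 1) (F₁ : IntermediateField L (LaurentSeries L))
    (hF₁ : F₁ = lowerField q N L)
    (φ : F₁ →ₐ[L] laurentBaseChange L (modularFunctionFieldFull (q ^ 2 * N)))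
    (hφ : ∀ z : F₁, (φ z : LaurentSeries L) = z)
    (hdeg : finrankAlong L φ = q)
    (f : laurentBaseChange L (modularFunctionFieldFull (q ^ 2 * N))) :
    ((normAlong φ f : F₁) : LaurentSeries L) =
      ∏ a : Fin q, alphaConj hq hqN ι u hu hu1 a f := by
  have : CharZero F₁ := charZero_of_injective_algebraMap (algebraMap L F₁).injective
  let i₀ : Fin q := ⟨0, hq.pos⟩
  have key : ∀ (z : F₁) (a : Fin q), alphaConj hq hqN ι u hu hu1 a (φ z) = (z : LaurentSeries L) := by
    intro z a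
    refine induction_of_eq_adjoin hF₁
      (P := fun z : F₁ => alphaConj hq hqN ι u hu hu1 a (φ z) = (z : LaurentSeries L))
      ?_ ?_ ?_ ?_ ?_ z
    · rintro _ ⟨x, hx, rfl⟩ h
      have : φ ⟨gen q L x, h⟩ = ⟨gen q L x, gen_mem L hq x⟩ := Subtype.ext (hφ ⟨gen q L x, h⟩)
      rw [this]
      exact alphaConj_gen hq hqN ι u hu hu1 a hx
    · intro c; rw [AlgHom.commutes, AlgHom.commutes]; rfl
    · intro x y hx hy; rw [map_add, map_add, hx, hy]; rfl
    · intro x hx; rw [map_inv₀, map_inv₀, hx]; rfl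
    · intro x y hx hy; rw [map_mul, map_mul, hx, hy]; rfl
  have h := normAlong_eq_prod φ hdeg i₀ (fun a => (alphaConj hq hqN ι u hu hu1 a).toRingHom)
    (fun a b hab => alphaConj_injective hq hqN ι u hu hu1 (AlgHom.coe_ringHom_injective hab))
    (fun a z => (key z a).trans (key z i₀).symm) f
  exact (key _ i₀).symm.trans h

/-! ### Residues -/

variable (A : ValuationSubring L)

omit [Algebra ℚ L] [NeZero q] in
/-- A `q`-th root of unity reduces to `1` at a place over `q`. -/
theorem residue_rootOfUnity (hq : q.Prime) (hA : A.valuation (q : L) < 1) {u : Lˣ}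
    (hu : u ^ q = 1) : ∃ h : (u : L) ∈ A, IsLocalRing.residue A ⟨u, h⟩ = 1 := by
  have huA : (u : L) ∈ A := by
    rw [← A.valuation_le_one_iff]
    refine (pow_le_one_iff_of_nonneg zero_le hq.ne_zero).mp ?_
    rw [← map_pow, ← Units.val_pow_eq_pow_val, hu, Units.val_one, map_one]
  refine ⟨huA, ?_⟩
  have hq0 : (q : IsLocalRing.ResidueField A) = 0 := by
    rw [← map_natCast (IsLocalRing.residue A), IsLocalRing.residue_eq_zero_iff,
      A.valuation_lt_one_iff]
    simpa using hA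
  have : CharP (IsLocalRing.ResidueField A) q := (CharP.charP_iff_prime_eq_zero hq).mpr hq0
  have := Fact.mk hq
  set r := IsLocalRing.residue A ⟨u, huA⟩
  have hr : r ^ q = 1 := by
    rw [← map_pow, show (⟨u, huA⟩ : A) ^ q = 1 from Subtype.ext (by
      simp [← Units.val_pow_eq_pow_val, hu]), map_one]
  have h0 : (r - 1) ^ q = 0 := by rw [sub_pow_char, hr, one_pow, sub_self]
  exact sub_eq_zero.mp (eq_zero_of_pow_eq_zero h0)

end Fermat.Agent.CarayolFF
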