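import Fermat.Agent.CarayolFF.Components

/-!
# The reductions of the model of level `q²N` lie in the reduction of level `N`

They lie in its fraction field and are integral over it, hence in it as soon as it is integrally
closed.
-/

set_option autoImplicit false

noncomputable section

open ModularCurve IntermediateField Polynomial
open Fermat.Agent.ModularFunctionField
open Fermat.Agent.Carayol Fermat.Agent.KummerReduction

namespace Fermat.Agent.CarayolFF

local notation "Qb" => AlgebraicClosure ℚ

variable {A : ValuationSubring Qb} {q N : ℕ} [NeZero q] [NeZero N]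

omit [NeZero q] in
theorem jqModC_mem_redBase (hA : A.LiesOverPrime q) (hq : q.Prime) :
    jqModC (IsLocalRing.ResidueField A) ∈ redBase A N :=
  coe_redModel_jElem (N := N) hA hq ▸ SetLike.coe_mem _

omit [NeZero q] in
theorem aeval_jqModC_mem_redBase (hA : A.LiesOverPrime q) (hq : q.Prime)
    (Q : Polynomial (IsLocalRing.ResidueField A)) :
    aeval (jqModC (IsLocalRing.ResidueField A)) Q ∈ redBase A N := by
  rw [aeval_eq_sum_range]
  refine sum_mem fun n _ => ?_
  rw [Algebra.smul_def]
  refine mul_mem ?_ (pow_mem (jqModC_mem_redBase hA hq) n)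
  obtain ⟨c, hc, hcy⟩ := Local.exists_unramInt_residue hA hq (Q.coeff n)
  rw [algebraMap_laurentSeries_eq_single, ← hcy]
  exact (algebraMap (unramInt A) (redBase A N) ⟨_, hc⟩).2

/-- Each reduction of the model is a quotient of two elements of `redBase`. -/
theorem exists_mul_mem_redBase (hA : A.LiesOverPrime q) (hq : q.Prime) (hqN : ¬ q ∣ N) (i : Fin 3)
    (x : model A (q ^ 2 * N)) :
    ∃ a ∈ redBase A N, ∃ b ∈ redBase A N, b ≠ 0 ∧ resHom hA hq hqN i x * b = a := by
  obtain ⟨a0, a1, a2, b0, b1, b2⟩ := resHom_jAt (N := N) hA hq hqN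
  have hJ := jqModC_mem_redBase (N := N) hA hq
  have h0 : ∀ y, qExpand (IsLocalRing.ResidueField A) (q ^ ((0 : Fin 3) : ℕ)) y = y := fun y => by
    rw [qExpand_congr (M := q ^ ((0 : Fin 3) : ℕ)) (K := 1) (pow_zero q), qExpand_one_apply]
  have hsep : ∀ (j : Fin 3), j ≠ 2 → ∀ k, resHom hA hq hqN j (sep A q N k) ∈ redBase A N := by
    intro j hj k
    have hy : resHom hA hq hqN j (jAt A q N 0) ∈ redBase A N ∧
        resHom hA hq hqN j (jAt A q N 2) ∈ redBase A N := by
      fin_cases j
      · exact ⟨a0.symm ▸ hJ, b0.symm ▸ pow_mem hJ _⟩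
      · exact ⟨a1.symm ▸ hJ, b1.symm ▸ hJ⟩
      · exact absurd rfl hj
    unfold sep
    split
    · rw [map_sub, map_pow]; exact sub_mem hy.2 (pow_mem hy.1 _)
    split
    · rw [map_sub]; exact sub_mem hy.2 hy.1
    · rw [map_sub, map_pow]; exact sub_mem hy.1 (pow_mem hy.2 _)
  have hpoly : ∀ (j : Fin 3), j ≠ 2 → ∀ Q, resHom hA hq hqN j (polyEl A q N Q) ∈ redBase A N := by
    intro j hj Q
    rw [resHom_polyEl]
    fin_cases j
    · exact a0.symm ▸ aeval_jqModC_mem_redBase hA hq _
    · exact a1.symm ▸ aeval_jqModC_mem_redBase hA hq _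
    · exact absurd rfl hj
  have key : ∀ (j : Fin 3), j ≠ 2 → ∀ y, ∃ a ∈ redBase A N, ∃ b ∈ redBase A N, b ≠ 0 ∧
      resHom hA hq hqN j y * b = a := by
    intro j hj y
    obtain ⟨D, P, hD, hrel⟩ := exists_relation_model hA hq hqN y
    refine ⟨_, ?_, _, hpoly j hj D, resHom_polyEl_ne_zero hA hq hqN j hD, rfl⟩
    rw [mul_comm, ← map_mul, hrel]
    fin_cases j
    · show resHom hA hq hqN 0 (comb A q N P) ∈ _
      simp only [comb, map_sum, map_add, map_mul, Fintype.sum_sum_type, basisFun, map_pow,
        resHom_sep_self hA hq hqN 0, zero_mul, mul_zero, Finset.sum_const_zero, add_zero,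
        resHom_zero_raiseModel, h0]
      exact sum_mem fun a _ => mul_mem (hpoly 0 hj _) (mul_mem (mul_mem (hsep 0 hj 2)
        (pow_mem (hsep 0 hj 1) _)) (SetLike.coe_mem _))
    · show resHom hA hq hqN 1 (comb A q N P) ∈ _
      have h2 := hq.two_le
      rw [resHom_one_comb hA hq hqN P ⟨0, by omega⟩ rfl]
      simp only [midPart, map_mul, map_sum,
        resHom_one_raiseModel hA hq hqN (show (0 : Fin 3) ≠ 2 by decide), h0]
      exact mul_mem (mul_mem (hsep 1 hj 0) (hsep 1 hj 2))
        (sum_mem fun a _ => mul_mem (hpoly 1 hj _) (SetLike.coe_mem _))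
    · exact absurd rfl hj
  by_cases hi : i = 2
  · subst hi
    rw [resHom_two]
    exact key 0 (by decide) _
  · exact key i hi x

/-- Each reduction of the model is integral over `redBase`. -/
theorem isIntegral_resHom (hA : A.LiesOverPrime q) (hq : q.Prime) (hqN : ¬ q ∣ N) (i : Fin 3)
    (x : model A (q ^ 2 * N)) : IsIntegral (redBase A N) (resHom hA hq hqN i x) := by
  obtain ⟨Q, hQ, hQx⟩ := exists_poly_of_mem_model x.2
  set h := (resHom hA hq hqN i).comp (polyEl A q N)
  have hmem : ∀ P, h P ∈ redBase A N := by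
    intro P
    obtain ⟨a0, a1, a2, -⟩ := resHom_jAt (N := N) hA hq hqN
    show resHom hA hq hqN i (polyEl A q N P) ∈ _
    rw [resHom_polyEl]
    fin_cases i
    · exact a0.symm ▸ aeval_jqModC_mem_redBase hA hq _
    · exact a1.symm ▸ aeval_jqModC_mem_redBase hA hq _
    · rw [show ((fun i => i) (⟨2, by omega⟩ : Fin 3)) = 2 from rfl, a2, ← expand_aeval (q ^ 2)]
      exact aeval_jqModC_mem_redBase hA hq _
  refine ⟨Q.map (h.codRestrict _ hmem), hQ.map _, ?_⟩
  rw [Polynomial.eval₂_map]
  show eval₂ h (resHom hA hq hqN i x) Q = 0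
  have hzero : eval₂ (polyEl A q N) x Q = 0 := by
    refine Subtype.ext ?_
    show (model A (q ^ 2 * N)).subtype _ = _
    rw [Polynomial.hom_eval₂, ZeroMemClass.coe_zero, ← hQx]
    exact congrArg (fun g => eval₂ g (x : modularFunctionFieldBar (q ^ 2 * N)) Q)
      (RingHom.ext fun P => coe_polyEl A q N P)
  rw [← Polynomial.hom_eval₂, hzero, map_zero]

/-- The reductions lie in `redBase` when it is integrally closed. -/
theorem resHom_mem_redBase (hA : A.LiesOverPrime q) (hq : q.Prime) (hqN : ¬ q ∣ N)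
    [IsIntegrallyClosed (redBase A N)] (i : Fin 3) (x : model A (q ^ 2 * N)) :
    resHom hA hq hqN i x ∈ redBase A N := by
  obtain ⟨a, ha, b, hb, hb0, hab⟩ := exists_mul_mem_redBase hA hq hqN i x
  let Fr := FractionRing (redBase A N)
  have hinj : Function.Injective (redBase A N).subtype := Subtype.val_injective
  let em : Fr →+* LaurentSeries (IsLocalRing.ResidueField A) := IsFractionRing.lift hinj
  have hem : ∀ y : redBase A N,
      em (algebraMap _ Fr y) = (y : LaurentSeries (IsLocalRing.ResidueField A)) :=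
    fun y => IsFractionRing.lift_algebraMap hinj y
  set y : Fr := algebraMap _ Fr (⟨a, ha⟩ : redBase A N) / algebraMap _ Fr (⟨b, hb⟩ : redBase A N)
  have hy : em y = resHom hA hq hqN i x := by
    rw [map_div₀, hem, hem]
    show a / b = _
    rw [← hab, mul_div_cancel_right₀ _ hb0]
  have hyint : IsIntegral (redBase A N) y := by
    obtain ⟨P, hP, hPx⟩ := isIntegral_resHom hA hq hqN i x
    refine ⟨P, hP, em.injective ?_⟩
    rw [map_zero, Polynomial.hom_eval₂, hy, ← hPx]
    congr 1
    exact RingHom.ext hem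
  obtain ⟨c, hc⟩ := IsIntegrallyClosed.isIntegral_iff.1 hyint
  rw [← hy, ← hc, hem]
  exact c.2

/-- The reductions as maps into `redBase`. -/
def resBase (hA : A.LiesOverPrime q) (hq : q.Prime) (hqN : ¬ q ∣ N)
    [IsIntegrallyClosed (redBase A N)] (i : Fin 3) : model A (q ^ 2 * N) →+* redBase A N :=
  (resHom hA hq hqN i).codRestrict _ fun x => resHom_mem_redBase hA hq hqN i x

theorem coe_resBase (hA : A.LiesOverPrime q) (hq : q.Prime) (hqN : ¬ q ∣ N)
    [IsIntegrallyClosed (redBase A N)] (i : Fin 3) (x : model A (q ^ 2 * N)) :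
    (resBase hA hq hqN i x : LaurentSeries (IsLocalRing.ResidueField A)) =
      resHom hA hq hqN i x := rfl

/-- The reduction of the constants. -/
theorem resHom_constModel (hA : A.LiesOverPrime q) (hq : q.Prime) (hqN : ¬ q ∣ N) (i : Fin 3)
    (c : unramInt A) :
    resHom hA hq hqN i (constModel A (q ^ 2 * N) c) =
      (algebraMap (unramInt A) (redBase A N) c : LaurentSeries (IsLocalRing.ResidueField A)) := by
  have h := resHom_polyEl (N := N) hA hq hqN i (Polynomial.C c)
  rw [polyEl, Polynomial.coe_eval₂RingHom, Polynomial.eval₂_C, Polynomial.map_C, aeval_C] at h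
  rw [h, coe_algebraMap_redBase, algebraMap_laurentSeries_eq_single]
  rfl

end Fermat.Agent.CarayolFF
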