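import Fermat.Agent.CarayolFF.Level
import Fermat.Agent.LocalInertia.Cyclotomic
import Fermat.Agent.CarayolFF.Norms

/-!
# Reductions of the model of level `q²N` along its three expansions
-/

set_option autoImplicit false

noncomputable section

open ModularCurve IntermediateField Polynomial
open Fermat.Agent.ModularFunctionField
open Fermat.Agent.Carayol Fermat.Agent.KummerReduction

namespace Fermat.Agent.CarayolFF

local notation "Qb" => AlgebraicClosure ℚ

variable {A : ValuationSubring Qb}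

/-- A unit congruent to `1` does not change the reduction of a twist. -/
theorem redSeries_twist {u : Qbˣ} (hu : ∀ n : ℤ, ((u ^ n : Qbˣ) : Qb) - 1 ∈ A.nonunits)
    {x : LaurentSeries Qb} (hx : x ∈ (resData A).intSeries) :
    ∃ h : twist u x ∈ (resData A).intSeries,
      (resData A).redSeries ⟨_, h⟩ = (resData A).redSeries ⟨x, hx⟩ := by
  have hmem : ∀ n : ℤ, ((u ^ n : Qbˣ) : Qb) ∈ (resData A).A := fun n => by
    have := add_mem (A.nonunits_le (hu n)) (one_mem A)
    rwa [sub_add_cancel] at this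
  refine ⟨(resData A).mem_intSeries.mpr fun n => ?_, ?_⟩
  · rw [twist_coeff]
    exact mul_mem (hmem n) ((resData A).mem_intSeries.mp hx n)
  · ext n
    rw [ResidueData.redSeries_coeff, ResidueData.redSeries_coeff, ← sub_eq_zero, ← map_sub,
      (resData A).π_eq_zero]
    show (twist u x).coeff n - x.coeff n ∈ A.nonunits
    rw [twist_coeff, ← sub_one_mul, ValuationSubring.mem_nonunits_iff, map_mul]
    exact mul_lt_one_of_lt_of_le (A.mem_nonunits_iff.mp (hu n))
      ((A.valuation_le_one_iff _).mpr ((resData A).mem_intSeries.mp hx n))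

/-- Inertia does not change the reduction. -/
theorem redSeries_coeffMap {σ : Qb ≃ₐ[ℚ] Qb} (hσ : σ ∈ A.inertiaSubgroupIn ℚ)
    {x : LaurentSeries Qb} (hx : x ∈ (resData A).intSeries) :
    ∃ h : coeffMap (σ : Qb →+* Qb) x ∈ (resData A).intSeries,
      (resData A).redSeries ⟨_, h⟩ = (resData A).redSeries ⟨x, hx⟩ := by
  obtain ⟨hd, hres⟩ := GaloisBasics.mem_inertiaSubgroupIn_iff.mp hσ
  refine ⟨(resData A).mem_intSeries.mpr fun n => ?_, ?_⟩
  · rw [coeffMap_coeff]
    exact (GaloisBasics.apply_mem_iff hd _).mpr ((resData A).mem_intSeries.mp hx n)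
  · ext n
    rw [ResidueData.redSeries_coeff, ResidueData.redSeries_coeff, ← sub_eq_zero, ← map_sub,
      (resData A).π_eq_zero]
    exact hres _ ((resData A).mem_intSeries.mp hx n)

variable {q N : ℕ} [NeZero q] [NeZero N]

/-- Powers of `ζ_q` are congruent to `1`. -/
theorem zetaUnit_zpow_sub_one (hA : A.LiesOverPrime q) (hq : q.Prime) (n : ℤ) :
    ((zetaUnit q ^ n : Qbˣ) : Qb) - 1 ∈ A.nonunits := by
  have hA' : A.valuation (q : Qb) < 1 := A.mem_nonunits_iff.mp hA
  obtain ⟨h, hres⟩ := residue_rootOfUnity A hq hA' (u := zetaUnit q ^ n)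
    (by rw [← zpow_natCast (zetaUnit q ^ n) q, ← zpow_mul, mul_comm, zpow_mul, zpow_natCast,
      zetaUnit_pow, one_zpow])
  rw [← map_one (IsLocalRing.residue A), ← sub_eq_zero, ← map_sub,
    IsLocalRing.residue_eq_zero_iff, ← ValuationSubring.coe_mem_nonunits_iff] at hres
  exact hres

/-- An element of inertia moving `ζ_q` to a given power. -/
theorem exists_inertia_zetaUnit (hA : A.LiesOverPrime q) (hq : q.Prime) {a : ℕ}
    (ha : ¬ q ∣ a) :
    ∃ σ ∈ A.inertiaSubgroupIn ℚ, σ (zetaUnit q : Qb) = ((zetaUnit q ^ a : Qbˣ) : Qb) := by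
  obtain ⟨σ, hσ, h⟩ := LocalInertia.exists_inertia_pow_on_rootsOfUnity hA hq 1
    ((hq.coprime_iff_not_dvd.mpr ha).symm)
  refine ⟨σ, hσ, ?_⟩
  rw [Units.val_pow_eq_pow_val]
  exact h _ (by rw [pow_one, ← Units.val_pow_eq_pow_val, zetaUnit_pow, Units.val_one])

/-- The reduction along the `i`th expansion. -/
def resHom (hA : A.LiesOverPrime q) (hq : q.Prime) (hqN : ¬ q ∣ N) (i : Fin 3) :
    model A (q ^ 2 * N) →+* LaurentSeries (IsLocalRing.ResidueField A) :=
  (resData A).redSeries.comp
    (((compHom hq hqN i).toRingHom.comp (model A (q ^ 2 * N)).subtype).codRestrict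
      (resData A).intSeries fun x => compHom_mem_intSeries hA hq hqN i x.2)

theorem resHom_apply (hA : A.LiesOverPrime q) (hq : q.Prime) (hqN : ¬ q ∣ N) (i : Fin 3)
    (x : model A (q ^ 2 * N)) :
    resHom hA hq hqN i x = (resData A).redSeries ⟨compHom hq hqN i x,
      compHom_mem_intSeries hA hq hqN i x.2⟩ := rfl

/-- Equal expansions have equal reductions. -/
theorem redSeries_congr {x y : LaurentSeries Qb} (h : x = y) (hx : x ∈ (resData A).intSeries)
    (hy : y ∈ (resData A).intSeries) :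
    (resData A).redSeries ⟨x, hx⟩ = (resData A).redSeries ⟨y, hy⟩ := by subst h; rfl

variable (A) in
/-- The involution on the model. -/
def atkinModel (hq : q.Prime) (hqN : ¬ q ∣ N) : model A (q ^ 2 * N) →+* model A (q ^ 2 * N) :=
  ((atkin hq hqN).toRingHom.comp (model A (q ^ 2 * N)).subtype).codRestrict _
    fun x => atkin_mem_model hq hqN x.2

theorem coe_atkinModel (hq : q.Prime) (hqN : ¬ q ∣ N) (x : model A (q ^ 2 * N)) :
    (atkinModel A hq hqN x : modularFunctionFieldBar (q ^ 2 * N)) = atkin hq hqN x := rfl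

/-- The involution on the model is an involution. -/
theorem atkinModel_atkinModel (hq : q.Prime) (hqN : ¬ q ∣ N) (x : model A (q ^ 2 * N)) :
    atkinModel A hq hqN (atkinModel A hq hqN x) = x :=
  Subtype.ext (atkin_atkin hq hqN _)

variable (A q N) in
/-- `x(τ) ↦ x(qⁱτ)` on the models. -/
def raiseModel (i : Fin 3) : model A N →+* model A (q ^ 2 * N) :=
  ((raiseHom q N i).toRingHom.comp (model A N).subtype).codRestrict _
    fun x => raiseHom_mem_model i x.2

theorem atkinModel_raiseModel (hq : q.Prime) (hqN : ¬ q ∣ N) (i : Fin 3) (x : model A N) :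
    atkinModel A hq hqN (raiseModel A q N i x) = raiseModel A q N (Fin.rev i) x :=
  Subtype.ext (atkin_raiseHom hq hqN i _)

theorem resHom_two (hA : A.LiesOverPrime q) (hq : q.Prime) (hqN : ¬ q ∣ N)
    (x : model A (q ^ 2 * N)) :
    resHom hA hq hqN 2 x = resHom hA hq hqN 0 (atkinModel A hq hqN x) := rfl

/-- `r₂₀` of `x(qⁱτ)`. -/
theorem resHom_zero_raiseModel (hA : A.LiesOverPrime q) (hq : q.Prime) (hqN : ¬ q ∣ N) (i : Fin 3)
    (x : model A N) :
    resHom hA hq hqN 0 (raiseModel A q N i x) = qExpand (IsLocalRing.ResidueField A) (q ^ (i : ℕ))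
      (redModel hA hq x : LaurentSeries (IsLocalRing.ResidueField A)) :=
  redSeries_qExpand _ _ (coe_mem_intSeries_of_model hA hq x.2)

/-- `r₁₁` of `x(τ)` and `x(qτ)`. -/
theorem resHom_one_raiseModel (hA : A.LiesOverPrime q) (hq : q.Prime) (hqN : ¬ q ∣ N) {i : Fin 3}
    (hi : i ≠ 2) (x : model A N) :
    resHom hA hq hqN 1 (raiseModel A q N i x) = qExpand (IsLocalRing.ResidueField A) (q ^ (i : ℕ))
      (redModel hA hq x : LaurentSeries (IsLocalRing.ResidueField A)) := by
  rw [coe_redModel, ← redSeries_qExpand _ _ (coe_mem_intSeries_of_model hA hq x.2)]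
  exact redSeries_congr (middle_raiseHom hq hqN hi _) _ _

/-- `r₁₁` of `x(q²τ)` is the reduction of `x`. -/
theorem resHom_one_raiseModel_two (hA : A.LiesOverPrime q) (hq : q.Prime) (hqN : ¬ q ∣ N)
    (x : model A N) :
    resHom hA hq hqN 1 (raiseModel A q N 2 x) =
      (redModel hA hq x : LaurentSeries (IsLocalRing.ResidueField A)) := by
  obtain ⟨h, hres⟩ := redSeries_twist (zetaUnit_zpow_sub_one hA hq)
    (coe_mem_intSeries_of_model hA hq x.2)
  rw [coe_redModel, ← hres]
  exact redSeries_congr (middle_raiseHom_two hq hqN _) _ _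

/-- `r₀₂` of `x(qⁱτ)`. -/
theorem resHom_two_raiseModel (hA : A.LiesOverPrime q) (hq : q.Prime) (hqN : ¬ q ∣ N) (i : Fin 3)
    (x : model A N) :
    resHom hA hq hqN 2 (raiseModel A q N i x) =
      qExpand (IsLocalRing.ResidueField A) (q ^ ((Fin.rev i : Fin 3) : ℕ))
        (redModel hA hq x : LaurentSeries (IsLocalRing.ResidueField A)) := by
  rw [resHom_two, atkinModel_raiseModel, resHom_zero_raiseModel]

/-- All middle expansions of an element of the model have the same reduction. -/
theorem redSeries_midHom_pow (hA : A.LiesOverPrime q) (hq : q.Prime) (hqN : ¬ q ∣ N) {a : ℕ}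
    (ha : ¬ q ∣ a) (hu : (zetaUnit q ^ a) ^ q = 1) (hu1 : zetaUnit q ^ a ≠ 1)
    (x : model A (q ^ 2 * N)) :
    ∃ h : midHom hq hqN ModCurveGenus.iotaC (zetaUnit q ^ a) hu hu1 x ∈ (resData A).intSeries,
      (resData A).redSeries ⟨_, h⟩ = resHom hA hq hqN 1 x := by
  obtain ⟨σ, hσ, hσu⟩ := exists_inertia_zetaUnit hA hq ha
  have e := coeffMap_midHom hq hqN ModCurveGenus.iotaC (zetaUnit q) (zetaUnit q ^ a) (zetaUnit_pow q)
    (zetaUnit_ne_one hq) hu hu1 σ hσu (x : modularFunctionFieldBar (q ^ 2 * N))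
  rw [show arithmeticRingAut (modularFunctionFieldFull (q ^ 2 * N)) σ
      (x : modularFunctionFieldBar (q ^ 2 * N)) = x from
    Subtype.ext (coeffMap_levelField hσ (levelField_of_mem_model x.2))] at e
  obtain ⟨h, hres⟩ := redSeries_coeffMap hσ (compHom_mem_intSeries hA hq hqN 1 x.2)
  refine ⟨e ▸ h, ?_⟩
  rw [resHom_apply, ← hres]
  exact redSeries_congr e.symm _ _

/-- `r₁₁` is invariant under the involution. -/
theorem resHom_one_atkinModel (hA : A.LiesOverPrime q) (hq : q.Prime) (hqN : ¬ q ∣ N)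
    (x : model A (q ^ 2 * N)) :
    resHom hA hq hqN 1 (atkinModel A hq hqN x) = resHom hA hq hqN 1 x := by
  have hpow : (zetaUnit q)⁻¹ = zetaUnit q ^ (q - 1) := by
    rw [inv_eq_iff_mul_eq_one, ← pow_succ', Nat.sub_add_cancel hq.one_le, zetaUnit_pow]
  have hdvd : ¬ q ∣ q - 1 := fun h => by
    have h1 := Nat.le_of_dvd (by have := hq.two_le; omega) h
    have := hq.two_le
    omega
  obtain ⟨h, hres⟩ := redSeries_midHom_pow hA hq hqN hdvd
    (by rw [← hpow, inv_pow, zetaUnit_pow, inv_one])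
    (by rw [← hpow]; exact fun h => zetaUnit_ne_one hq (inv_eq_one.mp h)) x
  obtain ⟨h', hres'⟩ := redSeries_twist (zetaUnit_zpow_sub_one hA hq) h
  rw [← hres, ← hres', resHom_apply]
  refine redSeries_congr ?_ _ _
  rw [compHom_one, coe_atkinModel, middle_atkin]
  congr 3

end Fermat.Agent.CarayolFF
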