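import Fermat.Agent.CarayolFF.Basis
import Mathlib.RingTheory.Localization.Integer

/-!
# The adapted family is a basis over `j`, and divisibility by powers of `q` in the model

Consequently an element of the model is divisible by `q ^ m` as soon as it is so on each of the
three expansions, up to unit series.
-/

set_option autoImplicit false

noncomputable section

open ModularCurve IntermediateField Polynomial
open Fermat.Agent.ModularFunctionField
open Fermat.Agent.Carayol Fermat.Agent.KummerReduction

namespace Fermat.Agent.CarayolFF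

local notation "Qb" => AlgebraicClosure ℚ

variable {A : ValuationSubring Qb} {q N : ℕ} [NeZero q] [NeZero N]

omit [NeZero N] in
/-- The family has `ψ(q²N)` members. -/
theorem card_basisIdx (hq : q.Prime) (hqN : ¬ q ∣ N) :
    Fintype.card (BasisIdx q N) = dedekindPsi (q ^ 2 * N) := by
  rw [Gamma0Cosets.dedekindPsi_mul ((hq.coprime_iff_not_dvd.mpr hqN).pow_left 2),
    Gamma0Cosets.dedekindPsi_prime_pow hq two_pos, Fintype.card_sum, Fintype.card_sum,
    Fintype.card_prod, Fintype.card_prod, Fintype.card_fin, Fintype.card_fin, Fintype.card_fin]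
  obtain ⟨r, rfl⟩ : ∃ r, q = r + 1 := ⟨q - 1, by have := hq.one_le; omega⟩
  rw [Nat.add_sub_cancel, show (2 : ℕ) - 1 = 1 from rfl, pow_one]
  ring

/-- Coefficientwise application of a functional and coercion, as an additive map. -/
def descentMap (E : IntermediateField ℚ Qb) (φ : Qb →ₗ[E] E) :
    LaurentSeries Qb →+ LaurentSeries Qb where
  toFun y := coeffMap (algebraMap E Qb) (coeffLin φ y)
  map_zero' := by rw [coeffLin_zero, map_zero]
  map_add' y y' := by rw [coeffLin_add, map_add]

/-- The polynomial with functional applied to its coefficients. -/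
def descentPoly (E : IntermediateField ℚ Qb) (φ : Qb →ₗ[E] E) (P : Qb[X]) : Qb[X] :=
  ∑ i ∈ Finset.range (P.natDegree + 1), monomial i (φ (P.coeff i) : Qb)

theorem coeff_descentPoly (E : IntermediateField ℚ Qb) (φ : Qb →ₗ[E] E) (P : Qb[X]) (n : ℕ) :
    (descentPoly E φ P).coeff n = (φ (P.coeff n) : Qb) := by
  simp only [descentPoly, finsetSum_coeff, coeff_monomial, Finset.sum_ite_eq', Finset.mem_range]
  split
  · rfl
  · rw [coeff_eq_zero_of_natDegree_lt (by omega), map_zero]
    rfl

theorem descentMap_aeval_mul (E : IntermediateField ℚ Qb) (φ : Qb →ₗ[E] E) (P : Qb[X])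
    {y : LaurentSeries Qb} (hy : ∀ n, y.coeff n ∈ E) :
    descentMap E φ (aeval jBar P * y) = aeval jBar (descentPoly E φ P) * y := by
  rw [descentPoly, map_sum]
  conv_lhs => rw [aeval_eq_sum_range, Finset.sum_mul, map_sum]
  rw [Finset.sum_mul]
  refine Finset.sum_congr rfl fun i _ => ?_
  obtain ⟨z, hz⟩ := exists_lift_coeff E (y := jBar ^ i * y) fun n => by
    have hj : (jBar : LaurentSeries Qb) ∈ ResidueData.overSubfield E.toSubfield :=
      ResidueData.mem_overSubfield.mpr fun n => jBar_coeff_mem E.toSubfield.toSubring n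
    exact ResidueData.mem_overSubfield.mp
      (mul_mem (pow_mem hj i) (ResidueData.mem_overSubfield.mpr hy)) n
  rw [aeval_monomial, mul_assoc, Algebra.smul_def, mul_assoc, algebraMap_laurentSeries_eq_single,
    algebraMap_laurentSeries_eq_single, ← hz]
  show coeffMap _ (coeffLin φ _) = _
  rw [← HahnSeries.C_apply, coeffLin_mul_coeffMap, map_mul, coeffLin_C, HahnSeries.C_apply,
    coeffMap_single]
  rfl

/-- A finite family of polynomials over the inertia field, not all zero, has a multiple over `W`
not all of whose members reduce to zero. -/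
theorem exists_primitive_scale {ι : Type*} [Fintype ι] (Q : ι → Qb[X])
    (hE : ∀ x n, (Q x).coeff n ∈ inertiaField A) (h : ∃ x, Q x ≠ 0) :
    ∃ (c : Qb) (P : ι → Polynomial (unramInt A)), c ≠ 0 ∧
      (∀ x, (P x).map (unramInt A).subtype = Polynomial.C c * Q x) ∧
      ∃ x, (P x).map (wRes A) ≠ 0 := by
  classical
  obtain ⟨x₀, hx₀⟩ := h
  obtain ⟨⟨x₁, n₁⟩, hm, hmax⟩ := Finset.exists_max_image
    (Finset.univ.sigma fun x => (Q x).support) (fun p => A.valuation ((Q p.1).coeff p.2))
    ⟨⟨x₀, (Q x₀).natDegree⟩, Finset.mem_sigma.mpr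
      ⟨Finset.mem_univ _, natDegree_mem_support_of_nonzero hx₀⟩⟩
  have hne : (Q x₁).coeff n₁ ≠ 0 := mem_support_iff.mp (Finset.mem_sigma.mp hm).2
  set c := ((Q x₁).coeff n₁)⁻¹ with hc
  have hmem : ∀ x n, c * (Q x).coeff n ∈ unramInt A := fun x n => by
    refine mem_unramInt_iff.mpr ⟨(A.valuation_le_one_iff _).mp ?_, ?_⟩
    · rw [map_mul, map_inv₀, inv_mul_le_iff₀ (zero_lt_iff.mpr ((Valuation.ne_zero_iff _).mpr hne)),
        mul_one]
      by_cases hn : (Q x).coeff n = 0
      · rw [hn, map_zero]; exact zero_le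
      · exact hmax ⟨x, n⟩ (Finset.mem_sigma.mpr ⟨Finset.mem_univ _, mem_support_iff.mpr hn⟩)
    · exact Local.mem_inertiaField_iff.mp (mul_mem (inv_mem (hE x₁ n₁)) (hE x n))
  refine ⟨c, fun x => ∑ n ∈ (Q x).support, monomial n ⟨_, hmem x n⟩, inv_ne_zero hne,
    fun x => ?_, x₁, fun h0 => ?_⟩
  · conv_rhs => rw [(Q x).as_sum_support]
    rw [Polynomial.map_sum, Finset.mul_sum]
    refine Finset.sum_congr rfl fun n _ => ?_
    rw [map_monomial, C_mul_monomial]
    rfl
  · have h1 := congrArg (fun P : Polynomial (IsLocalRing.ResidueField A) => P.coeff n₁) h0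
    simp only [Polynomial.coeff_map, finsetSum_coeff, coeff_monomial, Finset.sum_ite_eq',
      (Finset.mem_sigma.mp hm).2, if_true, Polynomial.coeff_zero] at h1
    have h2 : (⟨_, hmem x₁ n₁⟩ : unramInt A) = 1 := Subtype.ext (inv_mul_cancel₀ hne)
    rw [h2, map_one] at h1
    exact one_ne_zero h1

variable (A q N) in
/-- The members of the family as functions. -/
def basisVal (x : BasisIdx q N) : modularFunctionFieldBar (q ^ 2 * N) := basisFun A q N x

theorem coe_comb (P : BasisIdx q N → Polynomial (unramInt A)) :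
    ((comb A q N P : model A (q ^ 2 * N)) : modularFunctionFieldBar (q ^ 2 * N)) =
      ∑ x, aeval (jElem (q ^ 2 * N)) ((P x).map (unramInt A).subtype) * basisVal A q N x := by
  rw [comb, AddSubmonoidClass.coe_finsetSum]
  refine Finset.sum_congr rfl fun x _ => ?_
  rw [Subring.coe_mul, coe_polyEl]
  rfl

theorem coe_aeval_jElem {M : ℕ} [NeZero M] (P : Qb[X]) :
    ((aeval (jElem M) P : modularFunctionFieldBar M) : LaurentSeries Qb) = aeval jBar P := by
  rw [← IntermediateField.coe_val, ← Polynomial.aeval_algHom_apply]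
  rfl

theorem coeff_basisVal_mem (x : BasisIdx q N) (n : ℤ) :
    ((basisVal A q N x : modularFunctionFieldBar (q ^ 2 * N)) : LaurentSeries Qb).coeff n ∈
      inertiaField A :=
  coeff_mem_of_mem_levelField (levelField_of_mem_model (basisFun A q N x).2) n

/-- The family is independent over `Qb[j]`. -/
theorem eq_zero_of_relation (hA : A.LiesOverPrime q) (hq : q.Prime) (hqN : ¬ q ∣ N)
    (Q : BasisIdx q N → Qb[X])
    (h : ∑ x, aeval (jElem (q ^ 2 * N)) (Q x) * basisVal A q N x = 0) : ∀ x, Q x = 0 := by
  have hbase : ∀ R : BasisIdx q N → Qb[X], (∀ x n, (R x).coeff n ∈ inertiaField A) →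
      ∑ x, aeval (jElem (q ^ 2 * N)) (R x) * basisVal A q N x = 0 → ∀ x, R x = 0 := by
    intro R hR hrel
    by_contra hne
    push Not at hne
    obtain ⟨c, P, -, hP, x, hx⟩ := exists_primitive_scale R hR hne
    refine hx (map_eq_zero_of_qDiv hA hq hqN P (fun i => ?_) x)
    have hzero : ((comb A q N P : model A (q ^ 2 * N)) :
        modularFunctionFieldBar (q ^ 2 * N)) = 0 := by
      rw [coe_comb]
      simp only [hP, map_mul, mul_assoc, aeval_C]
      rw [← Finset.mul_sum, hrel, mul_zero]
    rw [hzero, map_zero]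
    exact QDiv.zero
  intro x
  refine Polynomial.ext fun n => ?_
  rw [coeff_zero]
  by_contra hn
  obtain ⟨φ, hφ⟩ : ∃ φ : Qb →ₗ[inertiaField A] inertiaField A, φ ((Q x).coeff n) ≠ 0 := by
    by_contra h'
    push Not at h'
    exact hn ((Module.forall_dual_apply_eq_zero_iff (inertiaField A) _).mp h')
  refine hφ (Subtype.ext ?_)
  have h0 := hbase (fun y => descentPoly (inertiaField A) φ (Q y))
    (fun y m => by rw [coeff_descentPoly]; exact SetLike.coe_mem _) ?_ x
  · have := congrArg (fun P : Qb[X] => P.coeff n) h0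
    simpa [coeff_descentPoly] using this
  · refine Subtype.ext ?_
    have h1 := congrArg (fun z : modularFunctionFieldBar (q ^ 2 * N) =>
      descentMap (inertiaField A) φ (z : LaurentSeries Qb)) h
    simp only [AddSubmonoidClass.coe_finsetSum, map_sum, IntermediateField.coe_mul, coe_aeval_jElem,
      ZeroMemClass.coe_zero, map_zero,
      descentMap_aeval_mul _ _ _ (coeff_basisVal_mem _)] at h1
    simp only [AddSubmonoidClass.coe_finsetSum, IntermediateField.coe_mul, coe_aeval_jElem,
      ZeroMemClass.coe_zero]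
    exact h1

theorem linearIndependent_basisVal (hA : A.LiesOverPrime q) (hq : q.Prime) (hqN : ¬ q ∣ N) :
    LinearIndependent (baseJ (q ^ 2 * N)) (basisVal A q N) := by
  classical
  rw [Fintype.linearIndependent_iff]
  intro g hg
  choose r s hrs using fun x => (IntermediateField.mem_adjoin_simple_iff Qb _).mp (g x).2
  intro x
  by_contra hx
  -- replace junk denominators
  set s' : BasisIdx q N → Qb[X] := fun y =>
    if aeval (jElem (q ^ 2 * N)) (s y) = 0 then 1 else s y
  set r' : BasisIdx q N → Qb[X] := fun y =>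
    if aeval (jElem (q ^ 2 * N)) (s y) = 0 then 0 else r y
  have hs' : ∀ y, aeval (jElem (q ^ 2 * N)) (s' y) ≠ 0 := fun y => by
    simp only [s']
    split
    · simp
    · assumption
  have hg' : ∀ y, ((g y : modularFunctionFieldBar (q ^ 2 * N))) * aeval (jElem (q ^ 2 * N)) (s' y) =
      aeval (jElem (q ^ 2 * N)) (r' y) := fun y => by
    simp only [r', s']
    split
    · next h => rw [hrs y, h, div_zero, map_one, map_zero, zero_mul]
    · next h => rw [hrs y, div_mul_cancel₀ _ h]
  have hrel : ∑ y, aeval (jElem (q ^ 2 * N)) (r' y * ∏ z ∈ Finset.univ.erase y, s' z) *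
      basisVal A q N y = 0 := by
    calc _ = ∑ y, (∏ z, aeval (jElem (q ^ 2 * N)) (s' z)) *
          ((g y : modularFunctionFieldBar (q ^ 2 * N)) * basisVal A q N y) := by
          refine Finset.sum_congr rfl fun y _ => ?_
          rw [map_mul, ← hg', map_prod,
            ← Finset.mul_prod_erase Finset.univ _ (Finset.mem_univ y)]
          ring
      _ = 0 := by
          rw [← Finset.mul_sum]
          have : ∑ y, (g y : modularFunctionFieldBar (q ^ 2 * N)) * basisVal A q N y = 0 := by
            simpa [IntermediateField.smul_def] using hg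
          rw [this, mul_zero]
  have h0 := eq_zero_of_relation hA hq hqN _ hrel x
  have h1 : r' x = 0 := (mul_eq_zero.mp h0).resolve_right
    (Finset.prod_ne_zero_iff.mpr fun z _ h => hs' z (by rw [h, map_zero]))
  refine hx (Subtype.ext ?_)
  have := hg' x
  rw [h1, map_zero, mul_eq_zero] at this
  exact this.resolve_right (hs' x)

/-- Every function is a combination of the family with coefficients in `Qb[j]`, up to a
denominator. -/
theorem exists_relation_Qb (hA : A.LiesOverPrime q) (hq : q.Prime) (hqN : ¬ q ∣ N)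
    (x : modularFunctionFieldBar (q ^ 2 * N)) :
    ∃ (D : Qb[X]) (Q : BasisIdx q N → Qb[X]), D ≠ 0 ∧
      aeval (jElem (q ^ 2 * N)) D * x =
        ∑ y, aeval (jElem (q ^ 2 * N)) (Q y) * basisVal A q N y := by
  classical
  have hcard : Fintype.card (BasisIdx q N) =
      Module.finrank (baseJ (q ^ 2 * N)) (modularFunctionFieldBar (q ^ 2 * N)) := by
    rw [finrank_baseJ, card_basisIdx hq hqN]
  have : Nonempty (BasisIdx q N) := Fintype.card_pos_iff.mp (hcard ▸ Module.finrank_pos)
  have hspan := (linearIndependent_basisVal hA hq hqN).span_eq_top_of_card_eq_finrank hcard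
  obtain ⟨g, hg⟩ := (Submodule.mem_span_range_iff_exists_fun _).mp
    (hspan.symm ▸ Submodule.mem_top : x ∈ Submodule.span (baseJ (q ^ 2 * N))
      (Set.range (basisVal A q N)))
  choose r s hrs using fun y => (IntermediateField.mem_adjoin_simple_iff Qb _).mp (g y).2
  set s' : BasisIdx q N → Qb[X] := fun y =>
    if aeval (jElem (q ^ 2 * N)) (s y) = 0 then 1 else s y
  set r' : BasisIdx q N → Qb[X] := fun y =>
    if aeval (jElem (q ^ 2 * N)) (s y) = 0 then 0 else r y
  refine ⟨∏ y, s' y, fun y => r' y * ∏ z ∈ Finset.univ.erase y, s' z,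
    Finset.prod_ne_zero_iff.mpr fun y _ => ?_, ?_⟩
  · simp only [s']
    split
    · exact one_ne_zero
    · next h => exact fun h0 => h (by rw [h0, map_zero])
  · conv_lhs => rw [← hg, Finset.mul_sum]
    refine Finset.sum_congr rfl fun y _ => ?_
    rw [IntermediateField.smul_def, smul_eq_mul, map_mul, map_prod, map_prod,
      ← Finset.mul_prod_erase Finset.univ _ (Finset.mem_univ y)]
    have hgy : (g y : modularFunctionFieldBar (q ^ 2 * N)) * aeval (jElem (q ^ 2 * N)) (s' y) =
        aeval (jElem (q ^ 2 * N)) (r' y) := by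
      simp only [r', s']
      split
      · next h => rw [hrs y, h, div_zero, map_one, map_zero, zero_mul]
      · next h => rw [hrs y, div_mul_cancel₀ _ h]
    rw [← hgy]
    ring

/-- For a function with coefficients in the inertia field the coefficients can be taken in `W`,
not all reducing to zero. -/
theorem exists_relation_W (hA : A.LiesOverPrime q) (hq : q.Prime) (hqN : ¬ q ∣ N)
    {x : modularFunctionFieldBar (q ^ 2 * N)}
    (hx : (x : LaurentSeries Qb) ∈ levelField (inertiaField A) (q ^ 2 * N)) :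
    ∃ (D : Polynomial (unramInt A)) (P : BasisIdx q N → Polynomial (unramInt A)),
      ((polyEl A q N D : model A (q ^ 2 * N)) : modularFunctionFieldBar (q ^ 2 * N)) * x =
        ((comb A q N P : model A (q ^ 2 * N)) : modularFunctionFieldBar (q ^ 2 * N)) ∧
      (D.map (wRes A) ≠ 0 ∨ ∃ y, (P y).map (wRes A) ≠ 0) := by
  classical
  obtain ⟨D, Q, hD, hrel⟩ := exists_relation_Qb hA hq hqN x
  obtain ⟨n, hn⟩ : ∃ n, D.coeff n ≠ 0 := by
    by_contra h
    push Not at h
    exact hD (Polynomial.ext fun n => by rw [h n, coeff_zero])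
  obtain ⟨φ, hφ⟩ : ∃ φ : Qb →ₗ[inertiaField A] inertiaField A, φ (D.coeff n) ≠ 0 := by
    by_contra h'
    push Not at h'
    exact hn ((Module.forall_dual_apply_eq_zero_iff (inertiaField A) _).mp h')
  set D' := descentPoly (inertiaField A) φ D
  set Q' := fun y => descentPoly (inertiaField A) φ (Q y)
  have hD' : D' ≠ 0 := fun h => hφ (Subtype.ext (by
    rw [← coeff_descentPoly]; simp [show descentPoly (inertiaField A) φ D = 0 from h]))
  have hrel' : aeval (jElem (q ^ 2 * N)) D' * x =
      ∑ y, aeval (jElem (q ^ 2 * N)) (Q' y) * basisVal A q N y := by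
    refine Subtype.ext ?_
    have h1 := congrArg (fun z : modularFunctionFieldBar (q ^ 2 * N) =>
      descentMap (inertiaField A) φ (z : LaurentSeries Qb)) hrel
    simp only [AddSubmonoidClass.coe_finsetSum, map_sum, IntermediateField.coe_mul, coe_aeval_jElem,
      descentMap_aeval_mul _ _ _ (coeff_basisVal_mem _),
      descentMap_aeval_mul _ _ _ (coeff_mem_of_mem_levelField hx)] at h1
    simp only [AddSubmonoidClass.coe_finsetSum, IntermediateField.coe_mul, coe_aeval_jElem]
    exact h1
  obtain ⟨c, P, -, hP, y, hy⟩ := exists_primitive_scale (A := A)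
    (fun o : Option (BasisIdx q N) => o.elim D' Q')
    (fun o m => by
      cases o <;> (simp only [Option.elim, D', Q', coeff_descentPoly]; exact SetLike.coe_mem _))
    ⟨none, hD'⟩
  refine ⟨P none, fun y => P (some y), ?_, ?_⟩
  · rw [coe_polyEl, coe_comb, hP none]
    simp only [hP, map_mul, mul_assoc, Option.elim]
    rw [← Finset.mul_sum, ← hrel']
  · cases y with
    | none => exact Or.inl hy
    | some y => exact Or.inr ⟨y, hy⟩

/-- All expansions of `levelField` elements have coefficients in one discretely valued field,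
which contains `ζ_q`. -/
theorem exists_discrete_comp_zeta (hA : A.LiesOverPrime q) (hq : q.Prime) (hqN : ¬ q ∣ N) :
    ∃ (L : Subfield Qb) (ϖ : Qb) (_ : (resData A).Discrete L ϖ), (zetaUnit q : Qb) ∈ L ∧
      ∀ x : modularFunctionFieldBar (q ^ 2 * N),
        (x : LaurentSeries Qb) ∈ levelField (inertiaField A) (q ^ 2 * N) →
        (∀ i, compHom hq hqN i x ∈ ResidueData.overSubfield L) ∧
          ∀ ι : Emb (q ^ 2 * N), ι.1 x ∈ ResidueData.overSubfield L := by
  obtain ⟨L, ϖ, hd, -, hroot, -, hfrac⟩ := exists_discrete_fracOver (M := q ^ 2 * N) hA hq ∅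
  have hle : (resData A).fracOver L ϖ ((resData A).A.nonunits_le hd.nonunit) ≤
      ResidueData.overSubfield L := Subfield.closure_le.mpr fun y hy => hy.1
  have hζ : (zetaUnit q : Qb) ∈ L := hroot _ (by
    rw [← Units.val_pow_eq_pow_val, show q ^ 2 * N = q * (q * N) by ring, pow_mul, zetaUnit_pow,
      one_pow, Units.val_one])
  refine ⟨L, ϖ, hd, hζ, fun x hx => ⟨fun i => ?_, fun ι => hle (hfrac ι x hx)⟩⟩
  have key : ∀ (φ : modularFunctionFieldBar (q ^ 2 * N) →ₐ[Qb] LaurentSeries Qb) (e : ℕ) [NeZero e],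
      qExpand Qb e (φ (jElem (q ^ 2 * N))) = qExpand Qb (q ^ 2 * N) jBar →
      φ x ∈ ResidueData.overSubfield L := by
    intro φ e _ he
    refine ResidueData.mem_overSubfield.mpr fun n => ?_
    have h1 := ResidueData.mem_overSubfield.mp (hle (hfrac ⟨(qExpandHom e).comp φ, he⟩ x hx))
      ((e : ℤ) * n)
    rwa [AlgHom.comp_apply, qExpandHom_apply, qExpand_coeff_mul] at h1
  fin_cases i
  · exact key _ (q ^ 2 * N) rfl
  · exact key (middle hq hqN) (q ^ 2 * N) (by rw [middle_jElem])
  · refine key (compHom hq hqN 2) N ?_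
    rw [compHom_two, atkin_jElem, qExpand_qExpand]
    exact qExpand_congr (mul_comm _ _) _

/-- All expansions of `levelField` elements have coefficients in one discretely valued field. -/
theorem exists_discrete_comp (hA : A.LiesOverPrime q) (hq : q.Prime) (hqN : ¬ q ∣ N) :
    ∃ (L : Subfield Qb) (ϖ : Qb) (_ : (resData A).Discrete L ϖ),
      ∀ x : modularFunctionFieldBar (q ^ 2 * N),
        (x : LaurentSeries Qb) ∈ levelField (inertiaField A) (q ^ 2 * N) →
        (∀ i, compHom hq hqN i x ∈ ResidueData.overSubfield L) ∧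
          ∀ ι : Emb (q ^ 2 * N), ι.1 x ∈ ResidueData.overSubfield L := by
  obtain ⟨L, ϖ, hd, -, h⟩ := exists_discrete_comp_zeta hA hq hqN
  exact ⟨L, ϖ, hd, h⟩

/-- Division of an element of the model by a power of `q`, checked on the three expansions. -/
theorem natCast_pow_dvd_of_comp (hA : A.LiesOverPrime q) (hq : q.Prime) (hqN : ¬ q ∣ N)
    (b : model A (q ^ 2 * N)) (m : ℕ)
    (h : ∀ i, ∃ σ, (resData A).IsUnitSeries σ ∧ ∃ z ∈ (resData A).intSeries,
      compHom hq hqN i b * σ = HahnSeries.C ((q : Qb) ^ m) * z) :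
    (q : model A (q ^ 2 * N)) ^ m ∣ b := by
  have hqm : ((q : Qb) ^ m) ≠ 0 := pow_ne_zero _ (Nat.cast_ne_zero.mpr hq.ne_zero)
  have hC0 : (HahnSeries.C ((q : Qb) ^ m) : LaurentSeries Qb) ≠ 0 := HahnSeries.C_ne_zero hqm
  set x : modularFunctionFieldBar (q ^ 2 * N) :=
    algebraMap Qb _ ((q : Qb) ^ m)⁻¹ * (b : modularFunctionFieldBar (q ^ 2 * N)) with hxdef
  have hbx : (b : modularFunctionFieldBar (q ^ 2 * N)) = algebraMap Qb _ ((q : Qb) ^ m) * x := by
    rw [hxdef, ← mul_assoc, ← map_mul, mul_inv_cancel₀ hqm, map_one, one_mul]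
  have happ : ∀ φ : modularFunctionFieldBar (q ^ 2 * N) →ₐ[Qb] LaurentSeries Qb,
      φ b = HahnSeries.C ((q : Qb) ^ m) * φ x := fun φ => by
    rw [hbx, map_mul, AlgHom.commutes, algebraMap_laurentSeries_eq_single]
    rfl
  have hlev : (x : LaurentSeries Qb) ∈ levelField (inertiaField A) (q ^ 2 * N) := by
    refine mul_mem (Subfield.subset_closure (Set.mem_union_left _ ⟨_, ?_, rfl⟩))
      (levelField_of_mem_model b.2)
    exact inv_mem (pow_mem (_root_.natCast_mem _ q) m)
  obtain ⟨D, P, hrel, hne⟩ := exists_relation_W hA hq hqN hlev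
  obtain ⟨L, ϖ, hd, hL⟩ := exists_discrete_comp (N := N) hA hq hqN
  -- integrality of the three expansions of `x` times unit series
  have hcomp : ∀ i, compHom hq hqN i x ∈ (resData A).intSeries := fun i => by
    obtain ⟨σ, hσ, z, hz, hz'⟩ := h i
    rw [happ, mul_assoc] at hz'
    refine hd.mem_of_mul_mem ((hL x hlev).1 i) hqm ?_ hσ ?_
    · rw [← happ]; exact compHom_mem_intSeries hA hq hqN i b.2
    · rw [mul_left_cancel₀ hC0 hz']; exact hz
  have hD : D.map (wRes A) ≠ 0 := by
    intro hD0
    refine hne.elim (fun h' => h' hD0) fun ⟨y, hy⟩ => hy (map_eq_zero_of_qDiv hA hq hqN P ?_ y)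
    intro i
    rw [← hrel, map_mul]
    have h1 := qDiv_polyEl hA hq hqN i hD0 1
    rw [mul_one] at h1
    exact h1.mul_right (hcomp i)
  -- integrality at all embeddings
  have hι : ∀ ι : Emb (q ^ 2 * N), ι.1 x ∈ (resData A).intSeries := fun ι => by
    have hDι : ι.1 (polyEl A q N D) = evalJT Qb (q ^ 2 * N) (D.map (unramInt A).subtype) := by
      rw [coe_polyEl]
      exact RingHom.congr_fun (emb_comp_aeval ι) _
    have hunit : (resData A).IsUnitSeries (ι.1 (polyEl A q N D)) := by
      refine ⟨emb_mem_intSeries_of_model hA hq (polyEl A q N D).2 ι, fun h0 => hD ?_⟩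
      refine evalJT_injective (R := IsLocalRing.ResidueField A) (q ^ 2 * N) ?_
      rw [map_zero, ← h0]
      ext n
      rw [ResidueData.redSeries_coeff]
      have hmem : ∀ k, (evalJT Qb (q ^ 2 * N) (D.map (unramInt A).subtype)).coeff k ∈ A := fun k =>
        hDι ▸ (resData A).mem_intSeries.mp (emb_mem_intSeries_of_model hA hq (polyEl A q N D).2 ι) k
      have key : evalJT A (q ^ 2 * N) (D.map ((unramInt A).subtype.codRestrict A
          fun c => (mem_unramInt_iff.mp c.2).1)) =
          ⟨fun k => ⟨_, hmem k⟩, (evalJT Qb (q ^ 2 * N) (D.map (unramInt A).subtype)).isPWO_support.mono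
            fun k hk => by simpa [Function.mem_support, Subtype.ext_iff] using hk⟩ := by
        apply coeffMap_injective A.subtype Subtype.val_injective
        rw [coeffMap_evalJT, Polynomial.map_map]
        ext k
        rfl
      have h2 := congrArg (fun y : LaurentSeries A => IsLocalRing.residue A (y.coeff n)) key
      simp only [← coeffMap_coeff, coeffMap_evalJT, Polynomial.map_map] at h2
      rw [wRes]
      refine h2.trans (congrArg (IsLocalRing.residue A) (Subtype.ext ?_))
      exact congrArg (fun y : LaurentSeries Qb => y.coeff n) hDι.symm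
    refine hd.mem_of_mul_mem ((hL x hlev).2 ι) hqm ?_ hunit ?_
    · rw [← happ]; exact emb_mem_intSeries_of_model hA hq b.2 ι
    · rw [mul_comm, ← map_mul, hrel]
      exact emb_mem_intSeries_of_model hA hq (comb A q N P).2 ι
  have hint : IsPolyIntegral (q ^ 2 * N) x := by
    refine RingHom.IsIntegralElem.mul _ ?_ (isPolyIntegral_of_mem_model b.2)
    convert RingHom.isIntegralElem_map (aeval (R := Qb) (jElem (q ^ 2 * N))).toRingHom
      (x := Polynomial.C ((q : Qb) ^ m)⁻¹) using 1
    exact (aeval_C _ _).symm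
  refine ⟨⟨x, mem_model_of_emb hlev hint hι⟩, Subtype.ext ?_⟩
  rw [hbx, Subring.coe_mul, SubmonoidClass.coe_pow, Subring.coe_natCast, map_pow, map_natCast]

end Fermat.Agent.CarayolFF
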