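import Fermat.Agent.ModularFunctionField.Expansion
import Mathlib.Analysis.Analytic.Uniqueness
import Mathlib.Analysis.Complex.CauchyIntegral
import Mathlib.FieldTheory.IntermediateField.Adjoin.Algebra

/-!
# Transport of algebraic relations between Laurent expansions

If holomorphic functions `F i` on the upper half plane have expansions `s i`, and their composites
with a surjection `g` have expansions `s' i`, then `s i ↦ s' i` extends to an embedding of the
field generated by the `s i` (over any field of constants embedded in `ℂ`) into Laurent series.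
-/

set_option autoImplicit false

noncomputable section

open Filter UpperHalfPlane ModularCurve
open scoped Topology Manifold
open Fermat.Agent.ModularFunctionField

namespace Fermat.Agent.CarayolFF

universe u v

/-- A holomorphic function vanishing near `i∞` vanishes. -/
theorem eq_zero_of_eventually_eq_zero {f : ℍ → ℂ} (hf : MDiff f) (h : f =ᶠ[atImInfty] 0) :
    ∀ τ, f τ = 0 := by
  obtain ⟨A, hA⟩ := (atImInfty_mem _).mp h
  have hd := UpperHalfPlane.mdifferentiable_iff.mp hf
  have han : AnalyticOnNhd ℂ (f ∘ ofComplex) {z : ℂ | 0 < z.im} :=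
    hd.analyticOnNhd (isOpen_lt continuous_const Complex.continuous_im)
  have hconn : IsPreconnected {z : ℂ | 0 < z.im} :=
    (convex_halfSpace_im_gt (0 : ℝ)).isPreconnected
  set z₀ : ℂ := ((max A 0 + 1 : ℝ) : ℂ) * Complex.I
  have him : z₀.im = max A 0 + 1 := by simp [z₀]
  have hz₀ : (0 : ℝ) < z₀.im := by rw [him]; positivity
  have heq : Set.EqOn (f ∘ ofComplex) 0 {z : ℂ | 0 < z.im} := by
    refine han.eqOn_of_preconnected_of_eventuallyEq analyticOnNhd_const hconn hz₀ ?_
    have hopen : IsOpen {z : ℂ | max A 0 < z.im} := isOpen_lt continuous_const Complex.continuous_im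
    refine Filter.eventually_of_mem (hopen.mem_nhds (by
      show max A 0 < z₀.im; rw [him]; linarith)) fun z hz => ?_
    have hz' : max A 0 < z.im := hz
    have hzpos : 0 < z.im := lt_of_le_of_lt (le_max_right _ _) hz'
    show f (ofComplex z) = 0
    rw [ofComplex_apply_of_im_pos hzpos]
    exact hA ⟨z, hzpos⟩ ((le_max_left A 0).trans hz'.le)
  intro τ
  have := heq τ.im_pos
  simpa [ofComplex_apply] using this

variable {L : Type u} [Field L] (ι : L →+* ℂ) {I : Type v}

/-- The scalar embedding is compatible with constants. -/
theorem coeffMap_algebraMap' (c : L) :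
    coeffMap ι (algebraMap L (LaurentSeries L) c) = HahnSeries.C (ι c) := by
  rw [algebraMap_laurentSeries_eq_single, coeffMap_single, HahnSeries.C_apply]

variable {N : ℕ} {F : I → ℍ → ℂ} {s : I → LaurentSeries L}

/-- The value of a polynomial in functions has the polynomial in the series as expansion. -/
theorem hasExp_aeval (h : ∀ i, HasExp N (F i) (coeffMap ι (s i))) (P : MvPolynomial I L) :
    HasExp N (fun τ => MvPolynomial.eval₂ ι (fun i => F i τ) P)
      (coeffMap ι (MvPolynomial.aeval s P)) := by
  induction P using MvPolynomial.induction_on with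
  | C a =>
    rw [MvPolynomial.aeval_C, coeffMap_algebraMap']
    exact (HasExp.const N (ι a)).congr fun τ => by simp
  | add p q hp hq =>
    rw [map_add, map_add]
    exact (hp.add hq).congr fun τ => by simp
  | mul_X p i hp =>
    rw [map_mul, map_mul, MvPolynomial.aeval_X]
    exact (hp.mul (h i)).congr fun τ => by simp

/-- Polynomials in holomorphic functions are holomorphic. -/
theorem mdiff_eval (h : ∀ i, MDiff (F i)) (P : MvPolynomial I L) :
    MDiff (fun τ => MvPolynomial.eval₂ ι (fun i => F i τ) P) := by
  induction P using MvPolynomial.induction_on with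
  | C a => simpa using mdifferentiable_const
  | add p q hp hq => simpa [Pi.add_def] using hp.add hq
  | mul_X p i hp => simpa [Pi.mul_def] using hp.mul (h i)

/-- Series which vanish correspond to functions which vanish identically. -/
theorem aeval_eq_zero_iff (hN : N ≠ 0) (hhol : ∀ i, MDiff (F i))
    (h : ∀ i, HasExp N (F i) (coeffMap ι (s i))) (P : MvPolynomial I L) :
    MvPolynomial.aeval s P = 0 ↔ ∀ τ, MvPolynomial.eval₂ ι (fun i => F i τ) P = 0 := by
  constructor
  · intro hP
    refine eq_zero_of_eventually_eq_zero (mdiff_eval ι hhol P) ?_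
    have he := hasExp_aeval ι h P
    rw [hP, map_zero] at he
    filter_upwards [he] with τ hτ
    exact hτ.unique (by simp [hasSum_zero])
  · intro hP
    apply coeffMap_injective ι ι.injective
    rw [map_zero]
    exact (hasExp_aeval ι h P).eq_zero hN (Eventually.of_forall hP)

variable {N' : ℕ} {s' : I → LaurentSeries L} {g : ℍ → ℍ}

/-- The hypotheses of transport along `g`. -/
structure TransportData (ι : L →+* ℂ) (N N' : ℕ) (F : I → ℍ → ℂ) (g : ℍ → ℍ)
    (s s' : I → LaurentSeries L) : Prop where
  ne_zero : N ≠ 0
  ne_zero' : N' ≠ 0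
  mdiff : ∀ i, MDiff (F i)
  mdiff_comp : ∀ i, MDiff (fun τ => F i (g τ))
  surj : Function.Surjective g
  exp : ∀ i, HasExp N (F i) (coeffMap ι (s i))
  exp' : ∀ i, HasExp N' (fun τ => F i (g τ)) (coeffMap ι (s' i))

variable {ι}

theorem TransportData.relation_iff (H : TransportData ι N N' F g s s') (P : MvPolynomial I L) :
    MvPolynomial.aeval s P = 0 ↔ MvPolynomial.aeval s' P = 0 := by
  rw [aeval_eq_zero_iff ι H.ne_zero H.mdiff H.exp,
    aeval_eq_zero_iff ι H.ne_zero' H.mdiff_comp H.exp']
  exact ⟨fun h τ => h (g τ), fun h τ => by obtain ⟨z, rfl⟩ := H.surj τ; exact h z⟩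

theorem TransportData.ker_le (H : TransportData ι N N' F g s s') :
    RingHom.ker (MvPolynomial.aeval (R := L) s).toRingHom ≤
      RingHom.ker (MvPolynomial.aeval (R := L) s').toRingHom :=
  fun P hP => (H.relation_iff P).mp hP

/-- The embedding on the algebra generated by the series. -/
def TransportData.algHom (H : TransportData ι N N' F g s s') :
    (MvPolynomial.aeval (R := L) s).range →ₐ[L] LaurentSeries L :=
  (Ideal.Quotient.liftₐ _ (MvPolynomial.aeval s') fun P hP => (H.relation_iff P).mp hP).comp
    (Ideal.quotientKerEquivRange (MvPolynomial.aeval (R := L) s)).symm.toAlgHom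

theorem TransportData.algHom_aeval (H : TransportData ι N N' F g s s') (P : MvPolynomial I L) :
    H.algHom ⟨MvPolynomial.aeval s P, P, rfl⟩ = MvPolynomial.aeval s' P := by
  have h : (⟨MvPolynomial.aeval s P, P, rfl⟩ : (MvPolynomial.aeval (R := L) s).range) =
      Ideal.quotientKerEquivRange (MvPolynomial.aeval (R := L) s) (Ideal.Quotient.mk _ P) :=
    Subtype.ext rfl
  rw [h, TransportData.algHom, AlgHom.comp_apply, AlgEquiv.toAlgHom_apply,
    AlgEquiv.symm_apply_apply]
  rfl

theorem TransportData.algHom_injective (H : TransportData ι N N' F g s s') :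
    Function.Injective H.algHom := by
  rw [injective_iff_map_eq_zero]
  rintro ⟨x, P, rfl⟩ hx
  exact Subtype.ext ((H.relation_iff P).mpr ((H.algHom_aeval P).symm.trans hx))

theorem range_aeval_eq_adjoin (s : I → LaurentSeries L) :
    Algebra.adjoin L (Set.range s) = (MvPolynomial.aeval (R := L) s).range :=
  Algebra.adjoin_range_eq_range_aeval L s

/-- Transport: the embedding of the field generated by the series `s i`. -/
def TransportData.fieldHom (H : TransportData ι N N' F g s s') :
    IntermediateField.adjoin L (Set.range s) →ₐ[L] LaurentSeries L :=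
  open IntermediateField.algebraAdjoinAdjoin in
  IsFractionRing.liftAlgHom (A := Algebra.adjoin L (Set.range s))
    (g := H.algHom.comp (Subalgebra.equivOfEq _ _ (range_aeval_eq_adjoin s)).toAlgHom)
    (H.algHom_injective.comp (AlgEquiv.injective _))

@[simp]
theorem TransportData.fieldHom_apply (H : TransportData ι N N' F g s s') (i : I) :
    H.fieldHom ⟨s i, IntermediateField.subset_adjoin L _ ⟨i, rfl⟩⟩ = s' i := by
  open IntermediateField.algebraAdjoinAdjoin in
  have h := IsFractionRing.lift_algebraMap (A := Algebra.adjoin L (Set.range s))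
    (K := IntermediateField.adjoin L (Set.range s))
    (g := (H.algHom.comp (Subalgebra.equivOfEq _ _ (range_aeval_eq_adjoin s)).toAlgHom).toRingHom)
    (H.algHom_injective.comp (AlgEquiv.injective _))
    ⟨s i, Algebra.subset_adjoin ⟨i, rfl⟩⟩
  refine (Eq.trans ?_ h).trans ?_
  · rfl
  · show H.algHom (⟨s i, _⟩ : (MvPolynomial.aeval (R := L) s).range) = s' i
    rw [← MvPolynomial.aeval_X s' i (R := L), ← H.algHom_aeval]
    congr 1
    exact Subtype.ext (MvPolynomial.aeval_X s i).symm

end Fermat.Agent.CarayolFF
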