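import Fermat.Agent.CarayolFF.Zeta
import Fermat.Agent.Specialization.Series

/-!
# Divisibility by `q` of expansions, and functions separating the three components

`sep 0`, `sep 1`, `sep 2` vanish on the components `P20`, `P11`, `P02` respectively and on no
other; `sep 1 = j(q²τ) - j(τ)` has middle expansion `(ζ - 1)` times a unit series.
-/

set_option autoImplicit false

noncomputable section

open ModularCurve IntermediateField Polynomial
open Fermat.Agent.ModularFunctionField
open Fermat.Agent.Carayol Fermat.Agent.KummerReduction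

namespace Fermat.Agent.CarayolFF

local notation "Qb" => AlgebraicClosure ℚ

variable (A : ValuationSubring Qb) (q : ℕ)

/-- An integral series divisible by `q`. -/
def QDiv (y : LaurentSeries Qb) : Prop :=
  ∃ z ∈ (resData A).intSeries, y = HahnSeries.C (q : Qb) * z

variable {A q}

theorem QDiv.zero : QDiv A q 0 := ⟨0, zero_mem _, (mul_zero _).symm⟩

theorem QDiv.add {y y' : LaurentSeries Qb} (h : QDiv A q y) (h' : QDiv A q y') :
    QDiv A q (y + y') := by
  obtain ⟨z, hz, rfl⟩ := h
  obtain ⟨z', hz', rfl⟩ := h'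
  exact ⟨z + z', add_mem hz hz', (mul_add _ _ _).symm⟩

theorem QDiv.sum {ι : Type*} {s : Finset ι} {f : ι → LaurentSeries Qb}
    (h : ∀ i ∈ s, QDiv A q (f i)) : QDiv A q (∑ i ∈ s, f i) :=
  Finset.sum_induction f (QDiv A q) (fun _ _ => QDiv.add) QDiv.zero h

theorem QDiv.mul_left {y z : LaurentSeries Qb} (hz : z ∈ (resData A).intSeries)
    (h : QDiv A q y) : QDiv A q (z * y) := by
  obtain ⟨w, hw, rfl⟩ := h
  exact ⟨z * w, mul_mem hz hw, mul_left_comm _ _ _⟩

theorem QDiv.mul_right {y z : LaurentSeries Qb} (hz : z ∈ (resData A).intSeries)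
    (h : QDiv A q y) : QDiv A q (y * z) := by
  rw [mul_comm]
  exact h.mul_left hz

theorem QDiv.neg {y : LaurentSeries Qb} (h : QDiv A q y) : QDiv A q (-y) := by
  obtain ⟨w, hw, rfl⟩ := h
  exact ⟨-w, neg_mem hw, (mul_neg _ _).symm⟩

theorem QDiv.mem (hA : A.LiesOverPrime q) {y : LaurentSeries Qb} (h : QDiv A q y) :
    y ∈ (resData A).intSeries := by
  obtain ⟨w, hw, rfl⟩ := h
  exact mul_mem ((resData A).C_mem_intSeries (A.nonunits_le hA)) hw

theorem QDiv.redSeries_eq_zero (hA : A.LiesOverPrime q) {y : LaurentSeries Qb} (h : QDiv A q y)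
    (hy : y ∈ (resData A).intSeries) : (resData A).redSeries ⟨y, hy⟩ = 0 := by
  obtain ⟨w, hw, rfl⟩ := h
  ext n
  rw [ResidueData.redSeries_coeff, HahnSeries.coeff_zero, (resData A).π_eq_zero]
  show (HahnSeries.C (q : Qb) * w).coeff n ∈ A.nonunits
  rw [ResidueData.coeff_C_mul, ValuationSubring.mem_nonunits_iff, map_mul]
  exact mul_lt_one_of_lt_of_le (A.mem_nonunits_iff.mp hA)
    ((A.valuation_le_one_iff _).mpr ((resData A).mem_intSeries.mp hw n))

/-- Over the inertia field, series with zero reduction are divisible by `q`. -/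
theorem qDiv_of_redSeries_eq_zero (hA : A.LiesOverPrime q) (hq : q.Prime) {y : LaurentSeries Qb}
    (hy : y ∈ (resData A).intSeries) (hE : ∀ n, y.coeff n ∈ inertiaField A)
    (h0 : (resData A).redSeries ⟨y, hy⟩ = 0) : QDiv A q y := by
  have hq0 : (q : Qb) ≠ 0 := Nat.cast_ne_zero.mpr hq.ne_zero
  refine ⟨HahnSeries.C (q : Qb)⁻¹ * y, (resData A).mem_intSeries.mpr fun n => ?_, ?_⟩
  · rw [ResidueData.coeff_C_mul]
    rcases eq_or_ne (y.coeff n) 0 with h | h
    · rw [h, mul_zero]; exact zero_mem _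
    have hd := Local.inertiaDiscrete hA hq
    obtain ⟨j, hj⟩ := hd.exists_zpow _ (hE n) h
    have hlt : A.valuation (y.coeff n) < 1 := by
      have := congrArg (fun z : LaurentSeries _ => z.coeff n) h0
      simp only [ResidueData.redSeries_coeff, HahnSeries.coeff_zero] at this
      exact A.mem_nonunits_iff.mp (((resData A).π_eq_zero _).mp this)
    have hv0 : (resData A).A.valuation (q : Qb) ≠ 0 :=
      (Valuation.ne_zero_iff _).mpr hd.ne_zero
    have hj1 : 1 ≤ j := by
      by_contra hcon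
      have h1 : (resData A).A.valuation (q : Qb) ^ (-j) ≤ 1 := (hd.val_le_zpow_iff _).mpr (by omega)
      rw [zpow_neg, inv_le_one₀ (zpow_pos (zero_lt_iff.mpr hv0) j), ← hj] at h1
      exact not_lt.mpr h1 hlt
    rw [← (resData A).A.valuation_le_one_iff, map_mul, map_inv₀, hj, ← zpow_neg_one,
      ← zpow_add₀ hv0, hd.val_le_zpow_iff]
    omega
  · rw [← mul_assoc, ← map_mul, mul_inv_cancel₀ hq0, map_one, one_mul]

/-- The reduction of `j`. -/
theorem redSeries_jqModC (h : jqModC Qb ∈ (resData A).intSeries) :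
    (resData A).redSeries ⟨jqModC Qb, h⟩ = jqModC (IsLocalRing.ResidueField A) := by
  ext n
  rw [ResidueData.redSeries_coeff]
  have h1 : (jqModC Qb).coeff n = (((jqModC ℤ).coeff n : ℤ) : Qb) := coeff_jqModC_eq_intCast n
  rw [coeff_jqModC_eq_intCast (R := IsLocalRing.ResidueField A) n]
  have h2 : (⟨(jqModC Qb).coeff n, (resData A).mem_intSeries.mp h n⟩ : A) =
      (((jqModC ℤ).coeff n : ℤ) : A) := Subtype.ext (by simpa using h1)
  show IsLocalRing.residue A ⟨(jqModC Qb).coeff n, _⟩ = _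
  rw [h2, map_intCast]

theorem qExpand_jqModC_eq_pow [NeZero q] (hA : A.LiesOverPrime q) (hq : q.Prime) :
    qExpand (IsLocalRing.ResidueField A) q (jqModC (IsLocalRing.ResidueField A)) =
      jqModC (IsLocalRing.ResidueField A) ^ q := by
  have := charP_residue hA hq
  have := Fact.mk hq
  rw [Specialization.pow_char_eq_qExpand q (jqModC (IsLocalRing.ResidueField A)), coeffMap_jqC]

theorem qExpand_sq_jqModC_eq_pow [NeZero q] (hA : A.LiesOverPrime q) (hq : q.Prime) :
    qExpand (IsLocalRing.ResidueField A) (q ^ 2) (jqModC (IsLocalRing.ResidueField A)) =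
      jqModC (IsLocalRing.ResidueField A) ^ (q ^ 2) := by
  rw [qExpand_congr (M := q ^ 2) (K := q * q) (sq q), ← qExpand_qExpand, qExpand_jqModC_eq_pow hA hq,
    map_pow, qExpand_jqModC_eq_pow hA hq, ← pow_mul, sq]

theorem jqModC_pow_injective {R : Type*} [CommRing R] [Nontrivial R] :
    Function.Injective fun b : ℕ => (jqModC R) ^ b := by
  intro a b h
  by_contra hne
  wlog hab : a < b generalizing a b
  · exact this h.symm (Ne.symm hne) (by omega)
  have h1 := congrArg (fun z : LaurentSeries R => z.coeff (-(b : ℤ))) h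
  simp only [ModularCurve.coeff_jqModC_pow_self] at h1
  rw [ModularCurve.coeff_jqModC_pow_of_lt R (b := a) (by omega)] at h1
  exact one_ne_zero h1.symm

variable {N : ℕ} [NeZero q] [NeZero N]

variable (A q N) in
/-- `j(τ)` and `j(q²τ)` in the model. -/
def jAt (i : Fin 3) : model A (q ^ 2 * N) :=
  raiseModel A q N i ⟨jElem N, jElem_mem_model A N⟩

omit [NeZero q] in
theorem coe_redModel_jElem (hA : A.LiesOverPrime q) (hq : q.Prime) :
    (redModel hA hq ⟨jElem N, jElem_mem_model A N⟩ :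
      LaurentSeries (IsLocalRing.ResidueField A)) = jqModC (IsLocalRing.ResidueField A) := by
  rw [coe_redModel]
  refine (redSeries_congr (show ((jElem N : modularFunctionFieldBar N) : LaurentSeries Qb) =
    jqModC Qb from jBar_eq) _ ?_).trans (redSeries_jqModC _)
  exact jBar_eq ▸ coe_mem_intSeries_of_model hA hq (jElem_mem_model A N)

/-- The table of reductions of `j(τ)` and `j(q²τ)`. -/
theorem resHom_jAt (hA : A.LiesOverPrime q) (hq : q.Prime) (hqN : ¬ q ∣ N) :
    let J := jqModC (IsLocalRing.ResidueField A)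
    resHom hA hq hqN 0 (jAt A q N 0) = J ∧ resHom hA hq hqN 1 (jAt A q N 0) = J ∧
      resHom hA hq hqN 2 (jAt A q N 0) = J ^ q ^ 2 ∧
      resHom hA hq hqN 0 (jAt A q N 2) = J ^ q ^ 2 ∧ resHom hA hq hqN 1 (jAt A q N 2) = J ∧
      resHom hA hq hqN 2 (jAt A q N 2) = J := by
  have h0 : ∀ x, qExpand (IsLocalRing.ResidueField A) (q ^ ((0 : Fin 3) : ℕ)) x = x := fun x => by
    rw [qExpand_congr (M := q ^ ((0 : Fin 3) : ℕ)) (K := 1) (pow_zero q), qExpand_one_apply]
  have h2 := qExpand_sq_jqModC_eq_pow (A := A) hA hq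
  refine ⟨?_, ?_, ?_, ?_, ?_, ?_⟩
  · rw [jAt, resHom_zero_raiseModel, coe_redModel_jElem, h0]
  · rw [jAt, resHom_one_raiseModel hA hq hqN (show (0 : Fin 3) ≠ 2 by decide), coe_redModel_jElem,
      h0]
  · rw [jAt, resHom_two_raiseModel, coe_redModel_jElem]
    exact h2
  · rw [jAt, resHom_zero_raiseModel, coe_redModel_jElem]
    exact h2
  · rw [jAt, resHom_one_raiseModel_two, coe_redModel_jElem]
  · rw [jAt, resHom_two_raiseModel, coe_redModel_jElem]
    exact h0 _

variable (A q N) in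
/-- Functions vanishing on exactly one component. -/
def sep (i : Fin 3) : model A (q ^ 2 * N) :=
  if i = 0 then jAt A q N 2 - jAt A q N 0 ^ q ^ 2
  else if i = 1 then jAt A q N 2 - jAt A q N 0
  else jAt A q N 0 - jAt A q N 2 ^ q ^ 2

theorem resHom_sep_self (hA : A.LiesOverPrime q) (hq : q.Prime) (hqN : ¬ q ∣ N) (i : Fin 3) :
    resHom hA hq hqN i (sep A q N i) = 0 := by
  obtain ⟨a0, a1, a2, b0, b1, b2⟩ := resHom_jAt (N := N) hA hq hqN
  fin_cases i <;> simp [sep, a0, a1, a2, b0, b1, b2]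

theorem resHom_sep_ne (hA : A.LiesOverPrime q) (hq : q.Prime) (hqN : ¬ q ∣ N) {i k : Fin 3}
    (h : i ≠ k) : resHom hA hq hqN i (sep A q N k) ≠ 0 := by
  obtain ⟨a0, a1, a2, b0, b1, b2⟩ := resHom_jAt (N := N) hA hq hqN
  have hinj := @jqModC_pow_injective (IsLocalRing.ResidueField A) _ _
  have h2 : 1 < q ^ 2 := Nat.one_lt_pow two_ne_zero hq.one_lt
  have h4 : q ^ 2 < q ^ 2 * q ^ 2 := by nlinarith
  have key : ∀ m n : ℕ, m ≠ n →
      jqModC (IsLocalRing.ResidueField A) ^ m - jqModC (IsLocalRing.ResidueField A) ^ n ≠ 0 :=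
    fun m n hmn h' => hmn (hinj (sub_eq_zero.mp h'))
  have k1 := key 1 (q ^ 2) (by omega)
  have k2 := key (q ^ 2) 1 (by omega)
  have k3 := key 1 (q ^ 2 * q ^ 2) (by omega)
  rw [pow_one] at k1 k2 k3
  rw [pow_mul] at k3
  fin_cases i <;> fin_cases k <;> first
    | exact absurd rfl h
    | simp [sep, a0, a1, a2, b0, b1, b2, k1, k2, k3]

/-- The middle expansion of `sep 1` is `ζ - 1` times a unit series. -/
theorem exists_middle_sep_one (hA : A.LiesOverPrime q) (hq : q.Prime) (hqN : ¬ q ∣ N) :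
    ∃ η, (resData A).IsUnitSeries η ∧ middle hq hqN (sep A q N 1) =
      HahnSeries.C ((zetaUnit q : Qb) - 1) * η := by
  have hmid : middle hq hqN (sep A q N 1) = twist (zetaUnit q) jBar - jBar := by
    show middle hq hqN (raiseHom q N 2 (jElem N) - raiseHom q N 0 (jElem N)) = _
    rw [map_sub, middle_raiseHom_two,
      middle_raiseHom hq hqN (show (0 : Fin 3) ≠ 2 by decide),
      qExpand_congr (M := q ^ ((0 : Fin 3) : ℕ)) (K := 1) (pow_zero q), qExpand_one_apply]
    rfl
  choose g hg hres using fun n : ℤ => exists_geo_int hA hq n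
  have h0 := zeta_sub_one_ne_zero (q := q) hq
  set η := HahnSeries.C ((zetaUnit q : Qb) - 1)⁻¹ * (twist (zetaUnit q) jBar - jBar)
  have hη : ∀ n, η.coeff n = (g n : Qb) * jBar.coeff n := fun n => by
    rw [ResidueData.coeff_C_mul, HahnSeries.coeff_sub, twist_coeff, ← sub_one_mul, hg, mul_assoc,
      ← mul_assoc, inv_mul_cancel₀ h0, one_mul]
  have hint : η ∈ (resData A).intSeries := (resData A).mem_intSeries.mpr fun n => by
    rw [hη]
    exact mul_mem (g n).2 (jBar_coeff_mem A.toSubring n)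
  refine ⟨η, ⟨hint, fun hzero => ?_⟩, ?_⟩
  · have h1 := congrArg (fun z : LaurentSeries _ => z.coeff (-1)) hzero
    simp only [ResidueData.redSeries_coeff, HahnSeries.coeff_zero] at h1
    have hj : jBar.coeff (-1) = 1 := by
      have := coeff_jBar_pow_self 1
      simpa using this
    have : (⟨η.coeff (-1), (resData A).mem_intSeries.mp hint (-1)⟩ : A) = g (-1) :=
      Subtype.ext (by simp [hη, hj])
    change IsLocalRing.residue A ⟨η.coeff (-1), _⟩ = 0 at h1
    rw [this, hres] at h1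
    simp at h1
  · rw [hmid, ← mul_assoc, ← map_mul, mul_inv_cancel₀ h0, map_one, one_mul]

/-- The middle expansion of `sep 1 ^ (q - 1)` is divisible by `q`. -/
theorem qDiv_middle_sep_one (hA : A.LiesOverPrime q) (hq : q.Prime) (hqN : ¬ q ∣ N) :
    QDiv A q (middle hq hqN ((sep A q N 1 : model A (q ^ 2 * N)) ^ (q - 1) :
      model A (q ^ 2 * N))) := by
  obtain ⟨η, hη, hmid⟩ := exists_middle_sep_one (N := N) hA hq hqN
  obtain ⟨δ, -, hδ⟩ := exists_zeta_pow_div hA hq
  refine ⟨HahnSeries.C (δ : Qb) * η ^ (q - 1),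
    mul_mem ((resData A).C_mem_intSeries δ.2) (pow_mem hη.mem _), ?_⟩
  rw [SubmonoidClass.coe_pow, map_pow, hmid, mul_pow, ← map_pow, hδ, map_mul, mul_assoc]

/-- `sep 0` at `∞` and `sep 2` at the other end are divisible by `q`. -/
theorem qDiv_compHom_sep (hA : A.LiesOverPrime q) (hq : q.Prime) (hqN : ¬ q ∣ N) {i : Fin 3}
    (hi : i ≠ 1) : QDiv A q (compHom hq hqN i (sep A q N i)) := by
  refine qDiv_of_redSeries_eq_zero hA hq (compHom_mem_intSeries hA hq hqN i (sep A q N i).2)
    (fun n => ?_) (resHom_sep_self hA hq hqN i)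
  fin_cases i
  · exact coeff_mem_of_mem_levelField (levelField_of_mem_model (sep A q N 0).2) n
  · exact absurd rfl hi
  · exact coeff_mem_of_mem_levelField
      (atkin_mem_levelField hq hqN (levelField_of_mem_model (sep A q N 2).2)) n

end Fermat.Agent.CarayolFF
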