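import Fermat.Agent.CarayolFF.Residue
import Mathlib.RingTheory.RootsOfUnity.Lemmas
import Mathlib.NumberTheory.Wilson

/-!
# The uniformiser `ζ_q - 1`
-/

set_option autoImplicit false

noncomputable section

open ModularCurve Fermat.Agent.Carayol Fermat.Agent.KummerReduction

namespace Fermat.Agent.CarayolFF

local notation "Qb" => AlgebraicClosure ℚ

variable {A : ValuationSubring Qb} {q : ℕ}

theorem residue_natCast_self (hA : A.LiesOverPrime q) :
    (q : IsLocalRing.ResidueField A) = 0 := by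
  rw [← map_natCast (IsLocalRing.residue A), IsLocalRing.residue_eq_zero_iff,
    ← ValuationSubring.coe_mem_nonunits_iff]
  exact hA

/-- The residue field at a place over `q` has characteristic `q`. -/
theorem charP_residue (hA : A.LiesOverPrime q) (hq : q.Prime) :
    CharP (IsLocalRing.ResidueField A) q :=
  (CharP.charP_iff_prime_eq_zero hq).mpr (residue_natCast_self hA)

/-- `residue (ζ^n) = 1`. -/
theorem exists_residue_zeta_zpow [NeZero q] (hA : A.LiesOverPrime q) (hq : q.Prime) (n : ℤ) :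
    ∃ h : ((zetaUnit q ^ n : Qbˣ) : Qb) ∈ A, IsLocalRing.residue A ⟨_, h⟩ = 1 :=
  residue_rootOfUnity A hq (A.mem_nonunits_iff.mp hA)
    (by rw [← zpow_natCast (zetaUnit q ^ n) q, ← zpow_mul, mul_comm, zpow_mul, zpow_natCast,
      zetaUnit_pow, one_zpow])

/-- `ζ^m - 1 = (ζ - 1) g` with `g ≡ m`. -/
theorem exists_geo [NeZero q] (hA : A.LiesOverPrime q) (hq : q.Prime) (m : ℕ) :
    ∃ g : A, (zetaUnit q : Qb) ^ m - 1 = ((zetaUnit q : Qb) - 1) * (g : Qb) ∧
      IsLocalRing.residue A g = (m : IsLocalRing.ResidueField A) := by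
  obtain ⟨h, hres⟩ := exists_residue_zeta_zpow hA hq 1
  refine ⟨∑ i ∈ Finset.range m, (⟨_, h⟩ : A) ^ i, ?_, ?_⟩
  · push_cast
    rw [zpow_one, mul_comm, geom_sum_mul]
  · rw [map_sum]
    simp only [map_pow, hres, one_pow, Finset.sum_const, Finset.card_range, nsmul_eq_mul, mul_one]

/-- The same for integer exponents. -/
theorem exists_geo_int [NeZero q] (hA : A.LiesOverPrime q) (hq : q.Prime) (n : ℤ) :
    ∃ g : A, ((zetaUnit q ^ n : Qbˣ) : Qb) - 1 = ((zetaUnit q : Qb) - 1) * (g : Qb) ∧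
      IsLocalRing.residue A g = (n : IsLocalRing.ResidueField A) := by
  have hq0 : (q : ℤ) ≠ 0 := by exact_mod_cast hq.ne_zero
  set m := (n % (q : ℤ)).toNat with hm
  have hm' : (m : ℤ) = n % (q : ℤ) := Int.toNat_of_nonneg (Int.emod_nonneg _ hq0)
  obtain ⟨g, hg, hres⟩ := exists_geo hA hq m
  refine ⟨g, ?_, hres.trans ?_⟩
  · rw [← hg]
    conv_lhs => rw [← Int.emod_add_mul_ediv n q, zpow_add, zpow_mul, zpow_natCast (zetaUnit q) q,
      zetaUnit_pow, one_zpow, mul_one, ← hm', zpow_natCast, Units.val_pow_eq_pow_val]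
  · rw [← Int.cast_natCast (R := IsLocalRing.ResidueField A) m, hm']
    conv_rhs => rw [← Int.emod_add_mul_ediv n q, Int.cast_add, Int.cast_mul, Int.cast_natCast,
      residue_natCast_self hA, zero_mul, add_zero]

/-- `∏ (ζ^a - 1) = q` up to sign, and `(ζ - 1)^(q-1) ≡ -q`. -/
theorem exists_zeta_rel [NeZero q] (hA : A.LiesOverPrime q) (hq : q.Prime) :
    ∃ ε : A, IsLocalRing.residue A ε = -1 ∧
      (q : Qb) = ((zetaUnit q : Qb) - 1) ^ (q - 1) * (ε : Qb) := by
  have := charP_residue hA hq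
  have := Fact.mk hq
  choose g hg hres using fun a : ℕ => exists_geo hA hq (a + 1)
  refine ⟨(-1) ^ (q - 1) * ∏ a ∈ Finset.range (q - 1), g a, ?_, ?_⟩
  · rw [map_mul, map_pow, map_neg, map_one, map_prod]
    simp only [hres]
    rw [← Nat.cast_prod, Finset.prod_range_add_one_eq_factorial,
      ← map_natCast (ZMod.castHom (dvd_refl q) (IsLocalRing.ResidueField A)),
      ZMod.wilsons_lemma, map_neg, map_one]
    have h1 : (-1 : IsLocalRing.ResidueField A) ^ (q - 1) = 1 := by
      rcases hq.eq_two_or_odd' with rfl | hodd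
      · have h2 : (2 : IsLocalRing.ResidueField A) = 0 := by
          exact_mod_cast residue_natCast_self hA
        rw [show 2 - 1 = 1 from rfl, pow_one]
        linear_combination -h2
      · exact (Nat.Odd.sub_odd hodd odd_one).neg_one_pow
    rw [h1, one_mul]
  · have hu : IsPrimitiveRoot (zetaUnit q : Qb) (q - 1 + 1) := by
      rw [Nat.sub_add_cancel hq.one_le]
      exact IsPrimitiveRoot.coe_units_iff.mpr (zetaUnit_primitive q)
    have hprod := hu.prod_pow_sub_one_eq_order
    rw [show ((q - 1 : ℕ) : Qb) + 1 = (q : Qb) by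
      rw [Nat.cast_sub hq.one_le, Nat.cast_one, sub_add_cancel]] at hprod
    simp only [hg, Finset.prod_mul_distrib, Finset.prod_const, Finset.card_range] at hprod
    push_cast
    rw [← hprod]
    ring

theorem zeta_sub_one_ne_zero [NeZero q] (hq : q.Prime) : (zetaUnit q : Qb) - 1 ≠ 0 :=
  sub_ne_zero.mpr fun h => zetaUnit_ne_one hq (Units.ext h)

/-- `ζ - 1` lies in the maximal ideal. -/
theorem zeta_sub_one_mem_nonunits [NeZero q] (hA : A.LiesOverPrime q) (hq : q.Prime) :
    (zetaUnit q : Qb) - 1 ∈ A.nonunits := by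
  simpa using zetaUnit_zpow_sub_one hA hq 1

/-- `(ζ - 1)^(q-1) / q` is congruent to `-1`. -/
theorem exists_zeta_pow_div [NeZero q] (hA : A.LiesOverPrime q) (hq : q.Prime) :
    ∃ δ : A, IsLocalRing.residue A δ = -1 ∧
      ((zetaUnit q : Qb) - 1) ^ (q - 1) = (q : Qb) * (δ : Qb) := by
  obtain ⟨ε, hε, hrel⟩ := exists_zeta_rel hA hq
  have hu : IsUnit ε := by
    rw [← IsLocalRing.residue_ne_zero_iff_isUnit, hε]
    exact neg_ne_zero.mpr one_ne_zero
  obtain ⟨w, hw⟩ := hu
  refine ⟨↑w⁻¹, ?_, ?_⟩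
  · have h := congrArg (IsLocalRing.residue A) w.mul_inv
    rw [map_mul, hw, hε, map_one, neg_one_mul] at h
    exact neg_eq_iff_eq_neg.mp h
  · have h := congrArg (fun x : A => (x : Qb)) w.mul_inv
    push_cast at h
    rw [hrel, ← hw, mul_assoc, h, mul_one]

end Fermat.Agent.CarayolFF
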